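/-
S45lib / MThick / Datum  (helper6)  --  INTERFACE of the MULTI-COMPONENT THICK ČECH CORE (Project J, (G))

Generalisation of `S36lib/Thick/Datum.lean` (three components `Z₁ + e Z₂ + Z₃`) to a special fibre
`Σ_i e_i Z_i` with an arbitrary finite family `ι` of components, ALL passing through each of the `s`
MULTI-POINTS, with local intersection weights `w i j = (Z_i · Z_j)_P` (`i ≠ j`).

Over a discretely valued base `(K, R)` (uniformizer `π`, residue field `k`) a function field `F / K`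
carries valuation rings `O_i` (`i : ι`) above `R`, with ramification index `e i` over `R`, chosen
uniformizers `ϖ_i` and reductions `red_i : O_i → Fk i` onto function fields `Fk i / k` (the
existing structure `S36lib.Thick.RamGaussDatum R F (Fk i)`); wild ramification (`char k ∣ e i`) is
allowed.  As in `S36lib/Thick` the generic fibre enters ONLY through two chart families
`𝓛 a b ⊆ F` (`= L(a P₁ + b P₂)`) and, for a Kummer function `z` (`n ∣ div z`), `𝓔 a b ⊆ F`.

What the (KM) side has to supply (`MCtx`): apart from the bookkeeping copied from `ThickCtx`,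
* `chart`  : `red_i` maps `𝓛 a b ∩ O` into `L(a Q₁ᵢ + b Q₂ᵢ)`;
* `glue`   : the reductions of `f ∈ 𝓛 a b ∩ O` have a common VALUE at every multi-point;
* `mult`   : **(MULT)** for `f ∈ 𝓛 a b` with `v_j f ≥ β_j` for all `j` and `β_i = 0`, the reduction
             `red_i f` vanishes at every multi-point to order `≥ Σ_j β_j · w i j`
             (only LOWER bounds; see `MThick/Mult.lean` for the derivation of (MULT) from local
             equations `t_{c,j}` or from global units `E_j` with `∏ E_j = π^m`);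
* `count`  : the adjunction inequality `2(g − 1) ≤ 2 Σ_i e_i (g_i − 1) + s Σ_{i ≠ j} e_j w_{ij}`.

EXPORTS (proved in `MThick/Main.lean`; stated here as `Prop`s):
* `ExistsTwistStatement` : the toric invariant `lam c i` of a Kummer multi-unit exists;
* `NondegStatement`      : in the stable range there is `h ∈ 𝓔 a b ∩ O` with `red_{i₀} h = 1`;
* `CoreStatement`        : constant twist `⟹ ∃ t ≠ 0, t ∈ 𝓔 0 0`  (i.e. `z = c · t⁻ⁿ`).
-/
import Mathlib
import Fermat.Agent.S36lib.Thick.Datum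
import Fermat.Agent.S36lib.Thick.DVal

set_option autoImplicit false

noncomputable section

namespace Fermat.Agent.S45lib.MThick

open AlgebraicCurve Module
open Fermat.Agent.LSb (HasValueAt)
open Fermat.Agent.LSb.Core (lin2)
open Fermat.Agent.S36lib.Thick (RamGaussDatum DVal)

/-- The multi-component thick reduction datum (function level). -/
structure MDatum {K : Type*} [Field K] (R : ValuationSubring K)
    (F : Type*) [Field F] [Algebra K F]
    (ι : Type*) (Fk : ι → Type*) [∀ i, Field (Fk i)]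
    [∀ i, Algebra (IsLocalRing.ResidueField R) (Fk i)] where
  /-- a uniformizer of `R` -/
  π : K
  /-- the ramification indices (= multiplicities of the components) -/
  e : ι → ℕ
  /-- the components: valuation ring, reduction, uniformizer -/
  V : ∀ i, RamGaussDatum R F (Fk i)
  /-- the base component (first step of the chain; the twist is normalised there) -/
  i₀ : ι
  /-- the chart spaces `L(a P₁ + b P₂)` of the generic fibre -/
  𝓛 : ℕ → ℕ → Submodule K F
  /-- the degrees of the two chart divisors on the generic fibre -/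
  d₁ : ℕ
  d₂ : ℕ
  /-- reductions of `P₁`, `P₂` on the components -/
  Q₁ : ∀ i, Divisor (IsLocalRing.ResidueField R) (Fk i)
  Q₂ : ∀ i, Divisor (IsLocalRing.ResidueField R) (Fk i)
  /-- the number of multi-points -/
  s : ℕ
  /-- the multi-points on the components -/
  x : ∀ i, Fin s → Place (IsLocalRing.ResidueField R) (Fk i)
  /-- the local intersection weights `(Z_i · Z_j)_P` -/
  w : ι → ι → ℕ

namespace MDatum

variable {K : Type*} [Field K] {R : ValuationSubring K}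
variable {F : Type*} [Field F] [Algebra K F]
variable {ι : Type*} {Fk : ι → Type*} [∀ i, Field (Fk i)]
variable [∀ i, Algebra (IsLocalRing.ResidueField R) (Fk i)]

local notation "k" => IsLocalRing.ResidueField R

/-- the uniformizer `ϖ_i` of the component `i` -/
abbrev ϖ (D : MDatum R F ι Fk) (i : ι) : F := (D.V i).unif

/-- the total reduction on the component `i` (`0` outside `O_i`) -/
def redF (D : MDatum R F ι Fk) (i : ι) (y : F) : Fk i :=
  letI := Classical.propDecidable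
  if h : y ∈ (D.V i).O then (D.V i).red ⟨y, h⟩ else 0

/-- the sup-norm unit ball `O = ⨅ O_i` -/
def O (D : MDatum R F ι Fk) : Subring F := ⨅ i, (D.V i).O.toSubring

theorem mem_O {D : MDatum R F ι Fk} {y : F} : y ∈ D.O ↔ ∀ i, y ∈ (D.V i).O := by
  rw [O, Subring.mem_iInf]; rfl

/-- the reduced chart divisors `a Q₁ᵢ + b Q₂ᵢ` -/
def chartDiv (D : MDatum R F ι Fk) (i : ι) (a b : ℕ) : Divisor k (Fk i) :=
  lin2 (D.Q₁ i) (D.Q₂ i) a b

/-- **(N1)**: every finite dimensional `K`-subspace `W` of `F` has a `K`-basis in `O` which is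
an `R`-basis of the lattice `W ∩ O`. -/
def HasLatticeBases (D : MDatum R F ι Fk) : Prop :=
  ∀ W : Submodule K F, FiniteDimensional K W →
    ∃ b : Fin (finrank K W) → F, (∀ i, b i ∈ W) ∧ (∀ i, b i ∈ D.O) ∧
      ∀ f ∈ W, f ∈ D.O → ∃ a : Fin (finrank K W) → R, f = ∑ i, algebraMap K F (a i : K) * b i

/-- "`v_i f ≥ j`": `f · ϖ_i⁻ʲ ∈ O_i` -/
def Ge (D : MDatum R F ι Fk) (i : ι) (j : ℤ) (f : F) : Prop := f * D.ϖ i ^ (-j) ∈ (D.V i).O

end MDatum

variable {K : Type*} [Field K] {R : ValuationSubring K}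
variable {F : Type*} [Field F] [Algebra K F]
variable {ι : Type*} [Fintype ι] [DecidableEq ι] {Fk : ι → Type*} [∀ i, Field (Fk i)]
variable [∀ i, Algebra (IsLocalRing.ResidueField R) (Fk i)]

/-- The hypotheses on a multi-component thick datum. -/
structure MCtx (D : MDatum R F ι Fk) (g : ℕ) (gk : ι → ℕ) : Prop where
  hF : ∀ i, S18lib.IsCurveOfGenus (IsLocalRing.ResidueField R) (Fk i) (gk i)
  -- the base is a discrete valuation ring with uniformizer `π`
  π_mem : D.π ∈ R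
  π_not_unit : D.π⁻¹ ∉ R
  exists_zpow_mul_unit : ∀ c : K, c ≠ 0 → ∃ m : ℤ, c * D.π ^ (-m) ∈ R ∧ (c * D.π ^ (-m))⁻¹ ∈ R
  -- ramification: `ϖ_i ^ e_i = π · unit` in `O_i`
  e_pos : ∀ i, 0 < D.e i
  unif_pow : ∀ i, ∃ u : (D.V i).Oˣ, D.ϖ i ^ D.e i = algebraMap K F D.π * ((u : (D.V i).O) : F)
  /-- the base component is reduced (`gcd e_i = 1` is what is really used) -/
  e_base : D.e D.i₀ = 1
  /-- **(N1)** -/
  hD : D.HasLatticeBases
  -- the chart spaces of the generic fibre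
  finiteDimensional : ∀ a b, FiniteDimensional K (D.𝓛 a b)
  mono : ∀ {a b a' b' : ℕ}, a ≤ a' → b ≤ b' → D.𝓛 a b ≤ D.𝓛 a' b'
  inter : ∀ a b a' b' : ℕ, D.𝓛 a b ⊓ D.𝓛 a' b' ≤ D.𝓛 (min a a') (min b b')
  mul_mem : ∀ {a b a' b' : ℕ} {f f' : F}, f ∈ D.𝓛 a b → f' ∈ D.𝓛 a' b' →
    f * f' ∈ D.𝓛 (a + a') (b + b')
  one_mem : (1 : F) ∈ D.𝓛 0 0
  /-- Riemann's inequality on the generic fibre (`g` = its genus) -/
  riemann : ∀ a b : ℕ, (a : ℤ) * D.d₁ + b * D.d₂ + 1 - g ≤ (finrank K (D.𝓛 a b) : ℤ)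
  -- shape of the reduced charts
  Q₁_nonneg : ∀ i, 0 ≤ D.Q₁ i
  Q₂_nonneg : ∀ i, 0 ≤ D.Q₂ i
  Q_disjoint : ∀ i, Disjoint (D.Q₁ i).support (D.Q₂ i).support
  /-- every chart meets every component -/
  deg_Q₁_pos : ∀ i, 0 < Divisor.degree (D.Q₁ i)
  deg_Q₂_pos : ∀ i, 0 < Divisor.degree (D.Q₂ i)
  /-- the special fibre is `Σ e_i Z_i` (only `≤` is needed) -/
  deg_Q₁_le : ∑ i, (D.e i : ℤ) * Divisor.degree (D.Q₁ i) ≤ D.d₁
  deg_Q₂_le : ∑ i, (D.e i : ℤ) * Divisor.degree (D.Q₂ i) ≤ D.d₂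
  -- the multi-points
  x_injective : ∀ i, Function.Injective (D.x i)
  x_not_mem : ∀ i c, D.x i c ∉ (D.Q₁ i).support ∧ D.x i c ∉ (D.Q₂ i).support
  -- the weights
  w_pos : ∀ i j, i ≠ j → 0 < D.w i j
  w_symm : ∀ i j, D.w i j = D.w j i
  /-- **(CHART)** on every component -/
  chart : ∀ (i : ι) (a b : ℕ) (f : F), f ∈ D.𝓛 a b → f ∈ D.O →
    D.redF i f ∈ riemannRochSpace (D.chartDiv i a b)
  /-- **(GLUE)**: the reductions have a common value at every multi-point -/
  glue : ∀ (a b : ℕ) (f : F), f ∈ D.𝓛 a b → f ∈ D.O → ∀ c, ∃ α : IsLocalRing.ResidueField R,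
    ∀ i, HasValueAt (D.x i c) (D.redF i f) α
  /-- **(MULT)**: a function vanishing to order `β_j` along `Z_j` (`j ≠ i`) has a reduction on `Z_i`
  vanishing to order `Σ_j β_j (Z_i · Z_j)_P` at every multi-point. -/
  mult : ∀ (i : ι) (a b : ℕ) (f : F), f ∈ D.𝓛 a b → ∀ β : ι → ℕ, β i = 0 →
    (∀ j, D.Ge j (β j) f) → ∀ c, D.redF i f = 0 ∨
      (∑ j, (β j : ℤ) * (D.w i j : ℤ)) ≤ (D.x i c).ord (D.redF i f)
  /-- **(COUNT)**: `2(g − 1) ≤ 2 Σ e_i (g_i − 1) + s Σ_{i ≠ j} e_j w_{ij}` -/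
  count : 2 * (g : ℤ) - 2 ≤ 2 * ∑ i, (D.e i : ℤ) * ((gk i : ℤ) - 1) +
    (D.s : ℤ) * ∑ i, ∑ j, if i = j then 0 else (D.e j : ℤ) * (D.w i j : ℤ)
  /-- the special fibre is connected -/
  s_pos : 0 < D.s

/-- A Kummer family: the chart spaces `𝓔 a b = L(div(z)/n + a P₁ + b P₂)` of a function `z` whose
divisor is divisible by `n`. -/
structure KummerFamily (D : MDatum R F ι Fk) (g : ℕ) (n : ℕ) (z : F) where
  /-- the twisted chart spaces -/
  𝓔 : ℕ → ℕ → Submodule K F
  finiteDimensional : ∀ a b, FiniteDimensional K (𝓔 a b)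
  mono : ∀ {a b a' b' : ℕ}, a ≤ a' → b ≤ b' → 𝓔 a b ≤ 𝓔 a' b'
  inter : ∀ a b a' b' : ℕ, 𝓔 a b ⊓ 𝓔 a' b' ≤ 𝓔 (min a a') (min b b')
  /-- `L(A) · L(E + B) ⊆ L(E + A + B)` -/
  mul_mem : ∀ {a b a' b' : ℕ} {f h : F}, f ∈ D.𝓛 a b → h ∈ 𝓔 a' b' →
    f * h ∈ 𝓔 (a + a') (b + b')
  /-- `h · h₀ⁿ⁻¹ · z ∈ L(A + (n-1) A₀)` for `h ∈ L(E + A)`, `h₀ ∈ L(E + A₀)` (`n E = div z`) -/
  mixed_mem : ∀ {a b a' b' : ℕ} {h h₀ : F}, h ∈ 𝓔 a b → h₀ ∈ 𝓔 a' b' →
    h * h₀ ^ (n - 1) * z ∈ D.𝓛 (a + (n - 1) * a') (b + (n - 1) * b')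
  /-- Riemann's inequality (`deg (div(z)/n) = 0`) -/
  riemann : ∀ a b : ℕ, (a : ℤ) * D.d₁ + b * D.d₂ + 1 - g ≤ (finrank K (𝓔 a b) : ℤ)

/-- `z` is a multi-unit with constant residues `b i` -/
structure IsMultiUnit (D : MDatum R F ι Fk) (z : F) (b : ι → IsLocalRing.ResidueField R) :
    Prop where
  b_ne : ∀ i, b i ≠ 0
  red : ∀ i, D.redF i z = algebraMap (IsLocalRing.ResidueField R) (Fk i) (b i)

/-- `lam` is a twist of the Kummer family `E`: every `h ∈ 𝓔 a b ∩ O` has reductions regular at the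
multi-points with `h_i(x_i c) = lam c i · α` for a common `α` (depending on `h` and `c`). -/
def IsTwist (D : MDatum R F ι Fk) {g n : ℕ} {z : F} (E : KummerFamily D g n z)
    (lam : Fin D.s → ι → IsLocalRing.ResidueField R) : Prop :=
  ∀ (a b : ℕ) (h : F), h ∈ E.𝓔 a b → h ∈ D.O → ∀ c, ∃ α : IsLocalRing.ResidueField R,
    ∀ i, HasValueAt (D.x i c) (D.redF i h) (lam c i * α)

/-- `t ∈ O` has the reference reductions `lam i` (constants) on all components -/
def IsRef (D : MDatum R F ι Fk) (lam : ι → IsLocalRing.ResidueField R) (t : F) : Prop :=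
  t ∈ D.O ∧ ∀ i, D.redF i t = algebraMap (IsLocalRing.ResidueField R) (Fk i) (lam i)

/-! ### the exported statements -/

/-- **Export 1**: a Kummer multi-unit has a twist (toric invariant), normalised at `i₀`. -/
def ExistsTwistStatement (D : MDatum R F ι Fk) (g : ℕ) : Prop :=
  ∀ (n : ℕ), (n : IsLocalRing.ResidueField R) ≠ 0 → ∀ (z : F) (E : KummerFamily D g n z)
    (b : ι → IsLocalRing.ResidueField R), IsMultiUnit D z b →
    ∃ lam : Fin D.s → ι → IsLocalRing.ResidueField R, (∀ c i, lam c i ≠ 0) ∧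
      (∀ c, lam c D.i₀ = 1) ∧ IsTwist D E lam

/-- **Export 2**: nondegeneracy in the stable range: some `h ∈ 𝓔 a b ∩ O` has `red_{i₀} h = 1`
(hence the normalised twist is unique). -/
def NondegStatement (D : MDatum R F ι Fk) (g : ℕ) : Prop :=
  ∀ (n : ℕ), (n : IsLocalRing.ResidueField R) ≠ 0 → ∀ (z : F) (E : KummerFamily D g n z)
    (b : ι → IsLocalRing.ResidueField R), IsMultiUnit D z b →
    ∃ m₀ : ℕ, ∀ a b' : ℕ, m₀ ≤ a ∨ m₀ ≤ b' → ∃ h ∈ E.𝓔 a b', h ∈ D.O ∧ D.redF D.i₀ h = 1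

/-- **Export 3, the multi-component thick Čech core**: a Kummer multi-unit whose twist is CONSTANT
(independent of the multi-point) is, up to a constant, an `n`-th power: `𝓔 0 0 ≠ 0`. -/
def CoreStatement (D : MDatum R F ι Fk) (g : ℕ) : Prop :=
  ∀ (n : ℕ), (n : IsLocalRing.ResidueField R) ≠ 0 → ∀ (z : F) (E : KummerFamily D g n z)
    (b : ι → IsLocalRing.ResidueField R), IsMultiUnit D z b →
    ∀ lam₀ : ι → IsLocalRing.ResidueField R, IsTwist D E (fun _ => lam₀) →
      ∃ t : F, t ≠ 0 ∧ t ∈ E.𝓔 0 0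

end Fermat.Agent.S45lib.MThick
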