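/-
S45lib / MThick / Basic  (helper6)

The discrete valuations `C.W i` of a multi-component thick datum (uniform `DVal` API of
`S36lib/Thick/DVal.lean`), the sup-norm ball `O`, the valuation ideals
`C.I α = {f | v_i f ≥ α i for all i}` (`α : ι → ℤ`), and the behaviour of the constants
(`π` has valuations `e i`).
-/
import Fermat.Agent.S45lib.MThick.Datum
import Fermat.Agent.S36lib.Thick.Basic

set_option autoImplicit false
set_option linter.unusedSectionVars false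

noncomputable section

namespace Fermat.Agent.S45lib.MThick

open AlgebraicCurve Module
open Fermat.Agent.S36lib.Thick (RamGaussDatum DVal ne_zero_of_inv_not_mem)

variable {K : Type*} [Field K] {R : ValuationSubring K}
variable {F : Type*} [Field F] [Algebra K F]
variable {ι : Type*} [Fintype ι] [DecidableEq ι] {Fk : ι → Type*} [∀ i, Field (Fk i)]
variable [∀ i, Algebra (IsLocalRing.ResidueField R) (Fk i)]

local notation "k" => IsLocalRing.ResidueField R

namespace MCtx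

variable {D : MDatum R F ι Fk} {g : ℕ} {gk : ι → ℕ} (C : MCtx D g gk)

include C

theorem π_ne_zero : D.π ≠ 0 := ne_zero_of_inv_not_mem C.π_not_unit

theorem πF_ne_zero : algebraMap K F D.π ≠ 0 := (map_ne_zero _).2 C.π_ne_zero

theorem ϖ_ne_zero (i : ι) : D.ϖ i ≠ 0 := by
  obtain ⟨u, hu⟩ := C.unif_pow i
  intro h
  have h1 : D.ϖ i ^ D.e i = 0 := by rw [h, zero_pow (C.e_pos i).ne']
  rw [hu] at h1
  rcases mul_eq_zero.1 h1 with h2 | h2
  · exact C.πF_ne_zero h2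
  · have : (u : (D.V i).O) = 0 := Subtype.ext h2
    exact u.ne_zero this

/-- the valuation `v_i` -/
def W (i : ι) : DVal F (Fk i) where
  O := (D.V i).O
  red := (D.V i).red
  red_surjective := (D.V i).red_surjective
  unif := (D.V i).unif
  unif_ne_zero := C.ϖ_ne_zero i
  unif_mem := (D.V i).unif_mem
  red_unif := (D.V i).red_unif
  exists_zpow_mul_isUnit := (D.V i).exists_zpow_mul_isUnit

@[simp] theorem W_O (i : ι) : (C.W i).O = (D.V i).O := rfl
@[simp] theorem W_unif (i : ι) : (C.W i).unif = D.ϖ i := rfl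
theorem W_redF (i : ι) (y : F) : (C.W i).redF y = D.redF i y := rfl
theorem W_ge_iff (i : ι) (j : ℤ) (f : F) : (C.W i).Ge j f ↔ D.Ge i j f := Iff.rfl

/-! ### constants -/

omit C in
theorem algebraMap_mem (i : ι) (a : R) : algebraMap K F (a : K) ∈ (D.V i).O :=
  ((D.V i).algebraMap_mem_iff _).2 a.2

omit C in
theorem algebraMap_mem_O (a : R) : algebraMap K F (a : K) ∈ D.O :=
  MDatum.mem_O.2 fun i => algebraMap_mem i a

theorem redF_algebraMap (i : ι) (a : R) :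
    D.redF i (algebraMap K F (a : K)) = algebraMap k (Fk i) (IsLocalRing.residue R a) := by
  rw [← C.W_redF, (C.W i).redF_of_mem (algebraMap_mem i a)]
  exact (D.V i).red_algebraMap a _

theorem πF_mem (i : ι) : algebraMap K F D.π ∈ (D.V i).O := algebraMap_mem i ⟨D.π, C.π_mem⟩

theorem πF_mem_O : algebraMap K F D.π ∈ D.O := algebraMap_mem_O ⟨D.π, C.π_mem⟩

/-- the unit `ϖ_i^{e_i} / π` of `O_i` -/
def unitκ (i : ι) : (D.V i).Oˣ := (C.unif_pow i).choose

theorem unitκ_spec (i : ι) :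
    D.ϖ i ^ D.e i = algebraMap K F D.π * ((C.unitκ i : (D.V i).O) : F) :=
  (C.unif_pow i).choose_spec

/-- `κ_i = red_i(ϖ_i^{e_i} / π)` -/
def κ (i : ι) : Fk i := (D.V i).red (C.unitκ i : (D.V i).O)

theorem κ_ne_zero (i : ι) : C.κ i ≠ 0 := (C.W i).red_unit_ne_zero (C.unitκ i)

theorem πF_eq (i : ι) : algebraMap K F D.π =
    D.ϖ i ^ D.e i * ((((C.unitκ i)⁻¹ : (D.V i).Oˣ) : (D.V i).O) : F) := by
  have h := C.unitκ_spec i
  have h1 : ((C.unitκ i : (D.V i).O) : F) *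
      ((((C.unitκ i)⁻¹ : (D.V i).Oˣ) : (D.V i).O) : F) = 1 := by
    rw [← (D.V i).O.coe_mul, Units.mul_inv]; rfl
  rw [h, mul_assoc, h1, mul_one]

/-- `v_i(π) ≥ e_i` -/
theorem ge_π (i : ι) : (C.W i).Ge (D.e i) (algebraMap K F D.π) :=
  (C.W i).ge_of_eq_zpow_mul_unit ((C.unitκ i)⁻¹) (by rw [zpow_natCast]; exact C.πF_eq i)

/-- `v_i(π⁻¹) ≥ -e_i` -/
theorem ge_π_inv (i : ι) : (C.W i).Ge (-(D.e i : ℤ)) (algebraMap K F D.π)⁻¹ := by
  refine (C.W i).ge_of_eq_zpow_mul_unit (C.unitκ i) ?_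
  have h := C.unitκ_spec i
  have hϖ : D.ϖ i ^ D.e i ≠ 0 := pow_ne_zero _ (C.ϖ_ne_zero i)
  rw [zpow_neg, zpow_natCast]
  show (algebraMap K F D.π)⁻¹ = (D.ϖ i ^ D.e i)⁻¹ * ((C.unitκ i : (D.V i).O) : F)
  rw [h, mul_inv, mul_assoc, inv_mul_cancel₀ (by
    intro h0
    rw [h0, mul_zero] at h
    exact hϖ h), mul_one]

/-- the symbol of `π` on the component `i` is `κ_i⁻¹` -/
theorem sym_π (i : ι) : (C.W i).sym (D.e i) (algebraMap K F D.π) = (C.κ i)⁻¹ := by
  have e1 : algebraMap K F D.π * (C.W i).unif ^ (-(D.e i : ℤ)) =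
      ((((C.unitκ i)⁻¹ : (D.V i).Oˣ) : (D.V i).O) : F) := by
    rw [C.W_unif, zpow_neg, zpow_natCast]
    have := C.πF_eq i
    have hϖ : D.ϖ i ^ D.e i ≠ 0 := pow_ne_zero _ (C.ϖ_ne_zero i)
    rw [this, mul_comm (D.ϖ i ^ D.e i), mul_assoc, mul_inv_cancel₀ hϖ, mul_one]
  rw [DVal.sym, e1, (C.W i).redF_of_mem (((C.unitκ i)⁻¹ : (D.V i).Oˣ) : (D.V i).O).2]
  show (D.V i).red (((C.unitκ i)⁻¹ : (D.V i).Oˣ) : (D.V i).O) = (C.κ i)⁻¹
  rw [κ]
  have h1 : (D.V i).red (C.unitκ i : (D.V i).O) *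
      (D.V i).red (((C.unitκ i)⁻¹ : (D.V i).Oˣ) : (D.V i).O) = 1 := by
    rw [← map_mul, Units.mul_inv, map_one]
  exact eq_inv_of_mul_eq_one_right h1

/-- the symbol of `π⁻¹` on the component `i` is `κ_i` -/
theorem sym_π_inv (i : ι) : (C.W i).sym (-(D.e i : ℤ)) (algebraMap K F D.π)⁻¹ = C.κ i := by
  have h : (C.W i).sym (D.e i) (algebraMap K F D.π) ≠ 0 := by
    rw [C.sym_π]; exact inv_ne_zero (C.κ_ne_zero i)
  rw [DVal.sym_inv h, C.sym_π, inv_inv]

/-- `v_i(π^m) ≥ e_i m` -/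
theorem ge_π_zpow (i : ι) (m : ℤ) : (C.W i).Ge (D.e i * m) (algebraMap K F D.π ^ m) := by
  rcases le_total 0 m with hm | hm
  · obtain ⟨n, rfl⟩ := Int.eq_ofNat_of_zero_le hm
    have := (C.ge_π i).pow n
    rw [zpow_natCast]
    convert this using 1
    ring
  · obtain ⟨n, hn⟩ := Int.eq_ofNat_of_zero_le (neg_nonneg.2 hm)
    have := (C.ge_π_inv i).pow n
    have e1 : algebraMap K F D.π ^ m = ((algebraMap K F D.π)⁻¹) ^ n := by
      rw [← zpow_natCast, ← hn, inv_zpow', neg_neg]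
    rw [e1]
    convert this using 1
    rw [← hn]; ring

/-- the symbol of `π^m` on the component `i` is `κ_i^{-m}` -/
theorem sym_π_pow (i : ι) (m : ℕ) :
    (C.W i).sym ((m : ℤ) * D.e i) (algebraMap K F D.π ^ m) = ((C.κ i)⁻¹) ^ m := by
  rw [DVal.sym_pow (C.ge_π i) m, C.sym_π]

/-- the symbol of `π^{-m}` on the component `i` is `κ_i^{m}` -/
theorem sym_π_inv_pow (i : ι) (m : ℕ) :
    (C.W i).sym ((m : ℤ) * (-(D.e i : ℤ))) ((algebraMap K F D.π)⁻¹ ^ m) = (C.κ i) ^ m := by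
  rw [DVal.sym_pow (C.ge_π_inv i) m, C.sym_π_inv]

/-! ### the valuation ideals -/

/-- `f ∈ I(α)` : `v_i f ≥ α i` for all `i` -/
def I (α : ι → ℤ) (f : F) : Prop := ∀ i, (C.W i).Ge (α i) f

theorem I_zero_iff {f : F} : C.I 0 f ↔ f ∈ D.O := by
  rw [I, MDatum.mem_O]
  refine forall_congr' fun i => ?_
  rw [Pi.zero_apply, DVal.ge_zero_iff]; rfl

theorem I.zero (α : ι → ℤ) : C.I α 0 := fun _ => DVal.Ge.zero _ _

variable {C}

theorem I.add {α : ι → ℤ} {f f' : F} (h : C.I α f) (h' : C.I α f') : C.I α (f + f') :=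
  fun i => (h i).add (h' i)

theorem I.neg {α : ι → ℤ} {f : F} (h : C.I α f) : C.I α (-f) := fun i => (h i).neg

theorem I.sub {α : ι → ℤ} {f f' : F} (h : C.I α f) (h' : C.I α f') : C.I α (f - f') :=
  fun i => (h i).sub (h' i)

theorem I.mul {α α' : ι → ℤ} {f f' : F} (h : C.I α f) (h' : C.I α' f') :
    C.I (α + α') (f * f') := fun i => (h i).mul (h' i)

theorem I.mono {α α' : ι → ℤ} {f : F} (hα : α' ≤ α) (h : C.I α f) : C.I α' f :=
  fun i => (h i).mono (hα i)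

theorem I.mem_O {α : ι → ℤ} {f : F} (hα : 0 ≤ α) (h : C.I α f) : f ∈ D.O :=
  (C.I_zero_iff).1 (h.mono hα)

theorem I.mul_mem_O {α : ι → ℤ} {f f' : F} (h : C.I α f) (h' : f' ∈ D.O) : C.I α (f * f') := by
  have := h.mul ((C.I_zero_iff).2 h')
  simpa using this

theorem I.pow {α : ι → ℤ} {f : F} (h : C.I α f) (n : ℕ) : C.I (fun i => n * α i) (f ^ n) :=
  fun i => (h i).pow n

theorem I.sum {κ' : Type*} {α : ι → ℤ} (s : Finset κ') (f : κ' → F) (hf : ∀ l ∈ s, C.I α (f l)) :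
    C.I α (∑ l ∈ s, f l) := fun i => DVal.Ge.sum s f fun l hl => hf l hl i

variable (C)

/-- the multi-index `m · e` -/
def eMul (D : MDatum R F ι Fk) (m : ℤ) : ι → ℤ := fun i => (D.e i : ℤ) * m

omit C in
theorem eMul_apply (m : ℤ) (i : ι) : eMul D m i = (D.e i : ℤ) * m := rfl

/-- `π^m ∈ I(m e)` -/
theorem I_π_zpow (m : ℤ) : C.I (eMul D m) (algebraMap K F D.π ^ m) := fun i => C.ge_π_zpow i m

/-- multiplication by `π^m` -/
theorem I_mul_π_zpow_iff {α : ι → ℤ} {f : F} (m : ℤ) :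
    C.I (α + eMul D m) (f * algebraMap K F D.π ^ m) ↔ C.I α f := by
  constructor
  · intro h
    have := h.mul (C.I_π_zpow (-m))
    rw [mul_assoc, ← zpow_add₀ C.πF_ne_zero, add_neg_cancel, zpow_zero, mul_one] at this
    convert this using 1
    funext i
    simp only [Pi.add_apply, eMul_apply]
    ring
  · intro h
    exact h.mul (C.I_π_zpow m)

/-- every function becomes integral after multiplication by a power of `π` -/
theorem exists_π_pow_mul_mem_O (f : F) : ∃ n : ℕ, algebraMap K F D.π ^ n * f ∈ D.O := by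
  classical
  have h : ∀ i, ∃ n : ℕ, algebraMap K F D.π ^ n * f ∈ (D.V i).O := by
    intro i
    obtain ⟨n, hn⟩ := (C.W i).exists_pow_mul_mem f
    rw [C.W_unif, C.W_O] at hn
    refine ⟨n, ?_⟩
    have h5 : (C.W i).Ge ((n : ℤ) * D.e i) (algebraMap K F D.π ^ n) := (C.ge_π i).pow n
    have h6 : (C.W i).Ge (-(n : ℤ)) f := by
      rw [DVal.Ge, neg_neg, C.W_unif, zpow_natCast, mul_comm]
      exact hn
    have h7 := h5.mul h6
    refine h7.mem ?_
    have : (0 : ℤ) ≤ (n : ℤ) * ((D.e i : ℤ) - 1) := by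
      have he : (1 : ℤ) ≤ D.e i := by exact_mod_cast C.e_pos i
      positivity
    nlinarith
  choose m hm using h
  refine ⟨∑ i, m i, MDatum.mem_O.2 fun i => ?_⟩
  have hle : m i ≤ ∑ j, m j := Finset.single_le_sum (fun _ _ => Nat.zero_le _) (Finset.mem_univ i)
  obtain ⟨r, hr⟩ := Nat.exists_eq_add_of_le hle
  rw [hr, pow_add, mul_comm (algebraMap K F D.π ^ m i), mul_assoc]
  exact (D.V i).O.mul_mem _ _ ((D.V i).O.pow_mem (C.πF_mem i) r) (hm i)

/-! ### reductions -/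

omit C in
theorem redF_of_mem {i : ι} {y : F} (h : y ∈ (D.V i).O) : D.redF i y = (D.V i).red ⟨y, h⟩ := by
  classical
  rw [MDatum.redF, dif_pos h]

theorem redF_add {i : ι} {x y : F} (hx : x ∈ (D.V i).O) (hy : y ∈ (D.V i).O) :
    D.redF i (x + y) = D.redF i x + D.redF i y := (C.W i).redF_add hx hy

theorem redF_sub {i : ι} {x y : F} (hx : x ∈ (D.V i).O) (hy : y ∈ (D.V i).O) :
    D.redF i (x - y) = D.redF i x - D.redF i y := (C.W i).redF_sub hx hy

theorem redF_mul {i : ι} {x y : F} (hx : x ∈ (D.V i).O) (hy : y ∈ (D.V i).O) :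
    D.redF i (x * y) = D.redF i x * D.redF i y := (C.W i).redF_mul hx hy

theorem redF_pow {i : ι} {x : F} (hx : x ∈ (D.V i).O) (n : ℕ) :
    D.redF i (x ^ n) = D.redF i x ^ n := (C.W i).redF_pow hx n

theorem redF_one (i : ι) : D.redF i 1 = 1 := by
  rw [redF_of_mem (D.V i).O.one_mem]
  exact map_one _

end MCtx

end Fermat.Agent.S45lib.MThick
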