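/-
S45lib / MThick / Sched  (helper6)  --  THE BALANCED SCHEDULE (pure combinatorics)

For multiplicities `e : ι → ℕ` (`0 < e i`) the BALANCED SCHEDULE is the sequence of multi-indices
`alpha t : ι → ℕ` (`t = 0, 1, …`), `alpha 0 = 0`, `alpha (t+1) = alpha t + 1_{sigma t}`, where
`sigma t` is a component with the SMALLEST ratio `alpha t i / e i` (`sigma 0 = i₀`).  It runs through
the jumps of the sup-norm filtration `{α | α i / e i ≥ ρ}`.

* `balanced`   : `alpha t (sigma t) * e j ≤ alpha t j * e (sigma t)` for all `j`;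
* `alpha_le`, `alpha_total` : `alpha t ≤ e` for `t ≤ N := Σ e i`, and `alpha N = e`;
* `alpha_sigma_lt` : `alpha t (sigma t) < e (sigma t)` for `t < N`;
* `nu_pos`     : for `0 < t < N` (and `e i₀ = 1`, `w > 0` off the diagonal) the "degree defect"
                 `mu t = Σ_{j ≠ i} (e i * alpha t j - alpha t i * e j) * w i j` (`i = sigma t`) is positive;
* `two_mul_sum_nu` : the ADJUNCTION SUM  `2 Σ_{t<N} mu t / e (sigma t) = Σ_i Σ_{j≠i} e j * w i j`
                 (`w` symmetric), in `ℚ`.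
-/
import Mathlib

set_option autoImplicit false

noncomputable section

namespace Fermat.Agent.S45lib.MThick.Sched

variable {ι : Type*} [Fintype ι] [DecidableEq ι]

/-- the component to be raised at the multi-index `α`: `i₀` at `α = 0`, else one with the smallest
ratio `α i / e i` -/
def pick (e : ι → ℕ) (i₀ : ι) (α : ι → ℕ) : ι :=
  letI := Classical.propDecidable
  if α = 0 then i₀ else
    (Finset.exists_min_image Finset.univ (fun i => (α i : ℚ) / (e i : ℚ))
      ⟨i₀, Finset.mem_univ _⟩).choose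

theorem pick_zero (e : ι → ℕ) (i₀ : ι) : pick e i₀ 0 = i₀ := by
  classical
  rw [pick, if_pos rfl]

theorem pick_spec {e : ι → ℕ} (he : ∀ i, 0 < e i) (i₀ : ι) (α : ι → ℕ) (j : ι) :
    α (pick e i₀ α) * e j ≤ α j * e (pick e i₀ α) := by
  classical
  by_cases h0 : α = 0
  · rw [h0]; simp
  · rw [pick, if_neg h0]
    have h := (Finset.exists_min_image Finset.univ (fun i => (α i : ℚ) / (e i : ℚ))
      ⟨i₀, Finset.mem_univ _⟩).choose_spec.2 j (Finset.mem_univ j)
    set i := (Finset.exists_min_image Finset.univ (fun i => (α i : ℚ) / (e i : ℚ))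
      ⟨i₀, Finset.mem_univ _⟩).choose
    have hi : (0 : ℚ) < e i := by exact_mod_cast he i
    have hj : (0 : ℚ) < e j := by exact_mod_cast he j
    rw [div_le_div_iff₀ hi hj] at h
    exact_mod_cast h

/-- the multi-indices of the balanced schedule -/
def alpha (e : ι → ℕ) (i₀ : ι) : ℕ → ι → ℕ
  | 0 => 0
  | t + 1 => Function.update (alpha e i₀ t) (pick e i₀ (alpha e i₀ t))
      (alpha e i₀ t (pick e i₀ (alpha e i₀ t)) + 1)

/-- the component raised at step `t` -/
def sigma (e : ι → ℕ) (i₀ : ι) (t : ℕ) : ι := pick e i₀ (alpha e i₀ t)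

variable (e : ι → ℕ) (i₀ : ι)

@[simp] theorem alpha_zero : alpha e i₀ 0 = 0 := rfl

theorem sigma_zero : sigma e i₀ 0 = i₀ := pick_zero e i₀

theorem alpha_succ_self (t : ℕ) :
    alpha e i₀ (t + 1) (sigma e i₀ t) = alpha e i₀ t (sigma e i₀ t) + 1 := by
  show Function.update _ _ _ _ = _
  rw [sigma, Function.update_self]

theorem alpha_succ_of_ne (t : ℕ) {j : ι} (hj : j ≠ sigma e i₀ t) :
    alpha e i₀ (t + 1) j = alpha e i₀ t j := by
  exact Function.update_of_ne hj _ _

theorem alpha_succ_apply (t : ℕ) (j : ι) :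
    alpha e i₀ (t + 1) j = alpha e i₀ t j + if j = sigma e i₀ t then 1 else 0 := by
  by_cases hj : j = sigma e i₀ t
  · rw [if_pos hj, hj, alpha_succ_self]
  · rw [if_neg hj, alpha_succ_of_ne e i₀ t hj, add_zero]

theorem alpha_mono_succ (t : ℕ) (j : ι) : alpha e i₀ t j ≤ alpha e i₀ (t + 1) j := by
  rw [alpha_succ_apply]; exact Nat.le_add_right _ _

theorem alpha_mono {t t' : ℕ} (h : t ≤ t') (j : ι) : alpha e i₀ t j ≤ alpha e i₀ t' j := by
  induction h with
  | refl => exact le_rfl
  | step _ ih => exact ih.trans (alpha_mono_succ e i₀ _ j)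

theorem sum_alpha (t : ℕ) : ∑ j, alpha e i₀ t j = t := by
  induction t with
  | zero => simp
  | succ t ih =>
    simp_rw [alpha_succ_apply]
    rw [Finset.sum_add_distrib, ih, Finset.sum_ite_eq' Finset.univ (sigma e i₀ t)]
    simp

/-- the length of the schedule -/
def len : ℕ := ∑ i, e i

variable {e}

theorem balanced (he : ∀ i, 0 < e i) (t : ℕ) (j : ι) :
    alpha e i₀ t (sigma e i₀ t) * e j ≤ alpha e i₀ t j * e (sigma e i₀ t) :=
  pick_spec he i₀ _ j

theorem alpha_le_and (he : ∀ i, 0 < e i) :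
    ∀ t, t ≤ len e → (∀ j, alpha e i₀ t j ≤ e j) := by
  intro t
  induction t with
  | zero => intro _ j; simp
  | succ t ih =>
    intro ht j
    have hle := ih (by omega)
    rw [alpha_succ_apply]
    by_cases hj : j = sigma e i₀ t
    · rw [if_pos hj]
      -- `alpha t (sigma t) < e (sigma t)`
      by_contra hcon
      push Not at hcon
      have heq : alpha e i₀ t (sigma e i₀ t) = e (sigma e i₀ t) := by
        have := hle (sigma e i₀ t)
        rw [hj] at hcon
        omega
      have hall : ∀ l, e l ≤ alpha e i₀ t l := by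
        intro l
        have hb := balanced i₀ he t l
        rw [heq] at hb
        have hpos := he (sigma e i₀ t)
        rw [mul_comm] at hb
        exact Nat.le_of_mul_le_mul_right hb hpos
      have hsum : len e ≤ ∑ l, alpha e i₀ t l := Finset.sum_le_sum fun l _ => hall l
      rw [sum_alpha] at hsum
      omega
    · rw [if_neg hj, add_zero]; exact hle j

theorem alpha_le (he : ∀ i, 0 < e i) {t : ℕ} (ht : t ≤ len e) (j : ι) : alpha e i₀ t j ≤ e j :=
  alpha_le_and i₀ he t ht j

theorem alpha_sigma_lt (he : ∀ i, 0 < e i) {t : ℕ} (ht : t < len e) :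
    alpha e i₀ t (sigma e i₀ t) < e (sigma e i₀ t) := by
  have h := alpha_le i₀ he (t := t + 1) (by omega) (sigma e i₀ t)
  rw [alpha_succ_self] at h
  omega

theorem alpha_total (he : ∀ i, 0 < e i) : alpha e i₀ (len e) = e := by
  have hle := alpha_le i₀ he (le_refl (len e))
  have hsum := sum_alpha e i₀ (len e)
  funext j
  by_contra hne
  have hlt : alpha e i₀ (len e) j < e j := lt_of_le_of_ne (hle j) hne
  have : ∑ l, alpha e i₀ (len e) l < ∑ l, e l :=
    Finset.sum_lt_sum (fun l _ => hle l) ⟨j, Finset.mem_univ j, hlt⟩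
  rw [hsum] at this
  exact lt_irrefl _ this

theorem one_le_alpha_base {t : ℕ} (ht : 1 ≤ t) : 1 ≤ alpha e i₀ t i₀ := by
  have h1 : alpha e i₀ 1 i₀ = 1 := by
    have := alpha_succ_self e i₀ 0
    rw [sigma_zero] at this
    simpa using this
  calc 1 = alpha e i₀ 1 i₀ := h1.symm
    _ ≤ alpha e i₀ t i₀ := alpha_mono e i₀ ht i₀

/-! ### the first round: `alpha (card ι) = 1` -/

/-- during the first `card ι` steps every component is raised at most once, and the raised
component is a fresh one -/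
theorem alpha_le_one_and (he : ∀ i, 0 < e i) :
    ∀ t, t ≤ Fintype.card ι → (∀ j, alpha e i₀ t j ≤ 1) := by
  intro t
  induction t with
  | zero => intro _ j; simp
  | succ t ih =>
    intro ht j
    have hle := ih (by omega)
    rw [alpha_succ_apply]
    by_cases hj : j = sigma e i₀ t
    · rw [if_pos hj]
      -- some component is still `0`, hence so is the raised one
      have hex : ∃ l, alpha e i₀ t l = 0 := by
        by_contra hcon
        push Not at hcon
        have hall : ∀ l, 1 ≤ alpha e i₀ t l := fun l => Nat.one_le_iff_ne_zero.2 (hcon l)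
        have hsum : ∑ _l : ι, 1 ≤ ∑ l, alpha e i₀ t l := Finset.sum_le_sum fun l _ => hall l
        rw [sum_alpha, Finset.sum_const, Finset.card_univ, smul_eq_mul, mul_one] at hsum
        omega
      obtain ⟨l, hl⟩ := hex
      have hb := balanced i₀ he t l
      rw [hl, zero_mul] at hb
      have hz : alpha e i₀ t (sigma e i₀ t) = 0 := by
        rcases Nat.eq_zero_or_pos (alpha e i₀ t (sigma e i₀ t)) with h | h
        · exact h
        · exact absurd (Nat.mul_pos h (he l)) (by omega)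
      rw [hj, hz]
    · rw [if_neg hj, add_zero]; exact hle j

theorem alpha_le_one (he : ∀ i, 0 < e i) {t : ℕ} (ht : t ≤ Fintype.card ι) (j : ι) :
    alpha e i₀ t j ≤ 1 := alpha_le_one_and i₀ he t ht j

theorem alpha_sigma_eq_zero (he : ∀ i, 0 < e i) {t : ℕ} (ht : t < Fintype.card ι) :
    alpha e i₀ t (sigma e i₀ t) = 0 := by
  have h := alpha_le_one i₀ he (t := t + 1) (by omega) (sigma e i₀ t)
  rw [alpha_succ_self] at h
  omega

theorem alpha_card (he : ∀ i, 0 < e i) : alpha e i₀ (Fintype.card ι) = fun _ => 1 := by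
  have hle := alpha_le_one i₀ he (le_refl (Fintype.card ι))
  have hsum := sum_alpha e i₀ (Fintype.card ι)
  funext j
  by_contra hne
  have hlt : alpha e i₀ (Fintype.card ι) j < 1 := lt_of_le_of_ne (hle j) hne
  have : ∑ l, alpha e i₀ (Fintype.card ι) l < ∑ _l : ι, 1 :=
    Finset.sum_lt_sum (fun l _ => hle l) ⟨j, Finset.mem_univ j, hlt⟩
  rw [hsum, Finset.sum_const, Finset.card_univ, smul_eq_mul, mul_one] at this
  exact lt_irrefl _ this

theorem card_le_len (he : ∀ i, 0 < e i) : Fintype.card ι ≤ len e := by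
  rw [len]
  calc Fintype.card ι = ∑ _l : ι, 1 := by simp
    _ ≤ ∑ l, e l := Finset.sum_le_sum fun l _ => he l

theorem one_le_alpha (he : ∀ i, 0 < e i) {t : ℕ} (ht : Fintype.card ι ≤ t) (j : ι) :
    1 ≤ alpha e i₀ t j := by
  have h := alpha_mono e i₀ ht j
  rw [alpha_card i₀ he] at h
  exact h

/-! ### the degree defects -/

variable (e) in
/-- `c i = Σ_{j ≠ i} e j * w i j`  (`= - e_i Z_i² / s`) -/
def cc (w : ι → ι → ℕ) (i : ι) : ℤ := ∑ j, if j = i then 0 else (e j : ℤ) * (w i j : ℤ)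

variable (e) in
/-- the degree defect at step `t`, times `e (sigma t)`:
`mu t = Σ_{j ≠ i} (e i * alpha t j - alpha t i * e j) * w i j`, `i = sigma t` -/
def mu (w : ι → ι → ℕ) (t : ℕ) : ℤ :=
  ∑ j, if j = sigma e i₀ t then 0 else
    ((e (sigma e i₀ t) : ℤ) * (alpha e i₀ t j : ℤ) -
      (alpha e i₀ t (sigma e i₀ t) : ℤ) * (e j : ℤ)) * (w (sigma e i₀ t) j : ℤ)

theorem mu_nonneg (he : ∀ i, 0 < e i) (w : ι → ι → ℕ) (t : ℕ) : 0 ≤ mu e i₀ w t := by
  refine Finset.sum_nonneg fun j _ => ?_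
  split_ifs
  · exact le_rfl
  · refine mul_nonneg ?_ (Int.natCast_nonneg _)
    have := balanced i₀ he t j
    have h2 : ((alpha e i₀ t (sigma e i₀ t) * e j : ℕ) : ℤ) ≤
        ((alpha e i₀ t j * e (sigma e i₀ t) : ℕ) : ℤ) := by exact_mod_cast this
    push_cast at h2
    linarith

theorem mu_pos (he : ∀ i, 0 < e i) (hbase : e i₀ = 1) {w : ι → ι → ℕ}
    (hw : ∀ i j, i ≠ j → 0 < w i j) {t : ℕ} (ht0 : 0 < t) (ht : t < len e) :
    0 < mu e i₀ w t := by
  have hlt := alpha_sigma_lt i₀ he ht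
  have hb1 : alpha e i₀ t i₀ = 1 := by
    have h1 := one_le_alpha_base (e := e) i₀ (t := t) ht0
    have h2 := alpha_le i₀ he ht.le i₀
    omega
  have hne : i₀ ≠ sigma e i₀ t := by
    intro h
    rw [← h, hb1, hbase] at hlt
    exact lt_irrefl _ hlt
  rw [mu]
  refine Finset.sum_pos' (fun j _ => ?_) ⟨i₀, Finset.mem_univ _, ?_⟩
  · split_ifs
    · exact le_rfl
    · refine mul_nonneg ?_ (Int.natCast_nonneg _)
      have := balanced i₀ he t j
      have h2 : ((alpha e i₀ t (sigma e i₀ t) * e j : ℕ) : ℤ) ≤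
          ((alpha e i₀ t j * e (sigma e i₀ t) : ℕ) : ℤ) := by exact_mod_cast this
      push_cast at h2
      linarith
  · rw [if_neg hne, hb1, hbase]
    have hwpos : (0 : ℤ) < (w (sigma e i₀ t) i₀ : ℤ) := by
      exact_mod_cast hw _ _ (Ne.symm hne)
    have h3 : (alpha e i₀ t (sigma e i₀ t) : ℤ) < (e (sigma e i₀ t) : ℤ) := by exact_mod_cast hlt
    refine mul_pos ?_ hwpos
    push_cast
    linarith

/-- `mu t` in terms of `cc` -/
theorem mu_eq (w : ι → ι → ℕ) (t : ℕ) :
    mu e i₀ w t = (e (sigma e i₀ t) : ℤ) *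
      (∑ j, if j = sigma e i₀ t then 0 else (alpha e i₀ t j : ℤ) * (w (sigma e i₀ t) j : ℤ)) -
      (alpha e i₀ t (sigma e i₀ t) : ℤ) * cc e w (sigma e i₀ t) := by
  rw [mu, cc, Finset.mul_sum, Finset.mul_sum, ← Finset.sum_sub_distrib]
  refine Finset.sum_congr rfl fun j _ => ?_
  split_ifs
  · simp
  · ring

/-! ### the adjunction sum -/

/-- first half: `2 Σ_{t<T} Σ_{j ≠ σ t} α_j(t) w_{σ t, j} = Σ_i Σ_{j ≠ i} w_{ij} α_i(T) α_j(T)` -/
theorem two_mul_sum_cross {w : ι → ι → ℕ} (hw : ∀ i j, w i j = w j i) (T : ℕ) :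
    2 * ∑ t ∈ Finset.range T, (∑ j, if j = sigma e i₀ t then 0 else
        (alpha e i₀ t j : ℤ) * (w (sigma e i₀ t) j : ℤ)) =
      ∑ i, ∑ j, if j = i then 0 else
        (w i j : ℤ) * (alpha e i₀ T i : ℤ) * (alpha e i₀ T j : ℤ) := by
  induction T with
  | zero => simp
  | succ T ih =>
    rw [Finset.sum_range_succ, mul_add, ih]
    set σ := sigma e i₀ T with hσ
    -- expand `alpha (T+1)`
    have hexp : ∀ i j : ι, (alpha e i₀ (T + 1) i : ℤ) * (alpha e i₀ (T + 1) j : ℤ) =
        (alpha e i₀ T i : ℤ) * (alpha e i₀ T j : ℤ) +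
          ((if i = σ then (alpha e i₀ T j : ℤ) else 0) +
           (if j = σ then (alpha e i₀ T i : ℤ) else 0) +
           (if i = σ then (if j = σ then 1 else 0) else 0)) := by
      intro i j
      rw [alpha_succ_apply, alpha_succ_apply]
      push_cast
      split_ifs <;> ring
    have hR : ∑ i, ∑ j, (if j = i then (0 : ℤ) else
        (w i j : ℤ) * (alpha e i₀ (T + 1) i : ℤ) * (alpha e i₀ (T + 1) j : ℤ)) =
        (∑ i, ∑ j, if j = i then (0 : ℤ) else
          (w i j : ℤ) * (alpha e i₀ T i : ℤ) * (alpha e i₀ T j : ℤ)) +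
        ((∑ i, ∑ j, if j = i then (0 : ℤ) else
            (w i j : ℤ) * (if i = σ then (alpha e i₀ T j : ℤ) else 0)) +
         (∑ i, ∑ j, if j = i then (0 : ℤ) else
            (w i j : ℤ) * (if j = σ then (alpha e i₀ T i : ℤ) else 0)) +
         (∑ i, ∑ j, if j = i then (0 : ℤ) else
            (w i j : ℤ) * (if i = σ then (if j = σ then 1 else 0) else 0))) := by
      rw [← Finset.sum_add_distrib, ← Finset.sum_add_distrib, ← Finset.sum_add_distrib]
      refine Finset.sum_congr rfl fun i _ => ?_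
      rw [← Finset.sum_add_distrib, ← Finset.sum_add_distrib, ← Finset.sum_add_distrib]
      refine Finset.sum_congr rfl fun j _ => ?_
      by_cases h : j = i
      · simp only [if_pos h, add_zero]
      · simp only [if_neg h]
        rw [mul_assoc, hexp]; ring
    rw [hR]
    have h1 : (∑ i, ∑ j, if j = i then (0 : ℤ) else
        (w i j : ℤ) * (if i = σ then (alpha e i₀ T j : ℤ) else 0)) =
        ∑ j, if j = σ then (0 : ℤ) else (alpha e i₀ T j : ℤ) * (w σ j : ℤ) := by
      rw [Finset.sum_eq_single σ]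
      · refine Finset.sum_congr rfl fun j _ => ?_
        split_ifs <;> ring
      · intro i _ hi
        refine Finset.sum_eq_zero fun j _ => ?_
        rw [if_neg hi]; simp
      · intro h; exact absurd (Finset.mem_univ σ) h
    have h2 : (∑ i, ∑ j, if j = i then (0 : ℤ) else
        (w i j : ℤ) * (if j = σ then (alpha e i₀ T i : ℤ) else 0)) =
        ∑ j, if j = σ then (0 : ℤ) else (alpha e i₀ T j : ℤ) * (w σ j : ℤ) := by
      refine Finset.sum_congr rfl fun i _ => ?_
      rw [Finset.sum_eq_single σ]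
      · by_cases hi : i = σ
        · rw [if_pos hi, if_pos hi.symm]
        · rw [if_neg hi, if_neg (Ne.symm hi), if_pos rfl, hw i σ]; ring
      · intro j _ hj
        rw [if_neg hj]; simp
      · intro h; exact absurd (Finset.mem_univ σ) h
    have h3 : (∑ i, ∑ j, if j = i then (0 : ℤ) else
        (w i j : ℤ) * (if i = σ then (if j = σ then 1 else 0) else 0)) = 0 := by
      refine Finset.sum_eq_zero fun i _ => Finset.sum_eq_zero fun j _ => ?_
      by_cases hji : j = i
      · rw [if_pos hji]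
      · rw [if_neg hji]
        by_cases hi : i = σ
        · rw [if_pos hi, if_neg (by rw [← hi]; exact hji)]; simp
        · rw [if_neg hi]; simp
    rw [h1, h2, h3]
    ring

/-- second half: `2 Σ_{t<T} α_{σ t}(t) · y (σ t) = Σ_i y i · α_i(T) (α_i(T) - 1)` -/
theorem two_mul_sum_diag {A : Type*} [CommRing A] (y : ι → A) (T : ℕ) :
    2 * ∑ t ∈ Finset.range T, (alpha e i₀ t (sigma e i₀ t) : A) * y (sigma e i₀ t) =
      ∑ i, y i * ((alpha e i₀ T i : A) * ((alpha e i₀ T i : A) - 1)) := by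
  induction T with
  | zero => simp
  | succ T ih =>
    rw [Finset.sum_range_succ, mul_add, ih]
    set σ := sigma e i₀ T with hσ
    have hR : ∑ i, y i * ((alpha e i₀ (T + 1) i : A) * ((alpha e i₀ (T + 1) i : A) - 1)) =
        (∑ i, y i * ((alpha e i₀ T i : A) * ((alpha e i₀ T i : A) - 1))) +
          ∑ i, if i = σ then 2 * ((alpha e i₀ T i : A) * y i) else 0 := by
      rw [← Finset.sum_add_distrib]
      refine Finset.sum_congr rfl fun i _ => ?_
      rw [alpha_succ_apply]
      split_ifs <;> push_cast <;> ring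
    rw [hR, Finset.sum_ite_eq' Finset.univ σ]
    simp

/-- `Σ_{t<T} y (σ t) = Σ_i α_i(T) · y i` -/
theorem sum_range_sigma {A : Type*} [CommRing A] (y : ι → A) (T : ℕ) :
    ∑ t ∈ Finset.range T, y (sigma e i₀ t) = ∑ i, (alpha e i₀ T i : A) * y i := by
  induction T with
  | zero => simp
  | succ T ih =>
    rw [Finset.sum_range_succ, ih]
    have hR : ∑ i, (alpha e i₀ (T + 1) i : A) * y i =
        (∑ i, (alpha e i₀ T i : A) * y i) + ∑ i, if i = sigma e i₀ T then y i else 0 := by
      rw [← Finset.sum_add_distrib]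
      refine Finset.sum_congr rfl fun i _ => ?_
      rw [alpha_succ_apply]
      split_ifs <;> push_cast <;> ring
    rw [hR, Finset.sum_ite_eq' Finset.univ]
    simp

variable (e) in
theorem mu_zero (w : ι → ι → ℕ) : mu e i₀ w 0 = 0 := by
  rw [mu]
  refine Finset.sum_eq_zero fun j _ => ?_
  split_ifs <;> simp

/-- the degree defect at step `t` as a rational number: `nu t = mu t / e (sigma t)` -/
def nu (e : ι → ℕ) (i₀ : ι) (w : ι → ι → ℕ) (t : ℕ) : ℚ := (mu e i₀ w t : ℚ) / (e (sigma e i₀ t) : ℚ)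

/-- **the adjunction sum**: `2 Σ_{t < N} nu t = Σ_i c i = Σ_i Σ_{j ≠ i} e j w i j` -/
theorem two_mul_sum_nu (he : ∀ i, 0 < e i) {w : ι → ι → ℕ} (hw : ∀ i j, w i j = w j i) :
    2 * ∑ t ∈ Finset.range (len e), nu e i₀ w t = ∑ i, (cc e w i : ℚ) := by
  have hne : ∀ i, (e i : ℚ) ≠ 0 := fun i => by exact_mod_cast (he i).ne'
  have hnu : ∀ t, nu e i₀ w t =
      ((∑ j, if j = sigma e i₀ t then 0 else (alpha e i₀ t j : ℤ) * (w (sigma e i₀ t) j : ℤ) : ℤ) : ℚ)
        - (alpha e i₀ t (sigma e i₀ t) : ℚ) * ((cc e w (sigma e i₀ t) : ℚ) / (e (sigma e i₀ t) : ℚ)) := by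
    intro t
    rw [nu, mu_eq]
    push_cast
    rw [sub_div, mul_comm ((e (sigma e i₀ t) : ℚ)), mul_div_assoc, mul_div_assoc,
      div_self (hne _), mul_one]
  simp_rw [hnu]
  rw [Finset.sum_sub_distrib, mul_sub]
  have h1 := two_mul_sum_cross (e := e) i₀ hw (len e)
  have h1' : (2 : ℚ) * ∑ t ∈ Finset.range (len e),
      ((∑ j, if j = sigma e i₀ t then 0 else
        (alpha e i₀ t j : ℤ) * (w (sigma e i₀ t) j : ℤ) : ℤ) : ℚ) =
      ((∑ i, ∑ j, if j = i then 0 else
        (w i j : ℤ) * (alpha e i₀ (len e) i : ℤ) * (alpha e i₀ (len e) j : ℤ) : ℤ) : ℚ) := by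
    rw [← h1]; push_cast; rfl
  have h2 := two_mul_sum_diag (e := e) i₀ (fun i => (cc e w i : ℚ) / (e i : ℚ)) (len e)
  rw [h1', h2, alpha_total i₀ he]
  push_cast
  rw [← Finset.sum_sub_distrib]
  refine Finset.sum_congr rfl fun i _ => ?_
  have hc : (cc e w i : ℚ) = ∑ j, if j = i then (0 : ℚ) else (e j : ℚ) * (w i j : ℚ) := by
    rw [cc]; push_cast; rfl
  have hcross : (∑ j, if j = i then (0 : ℚ) else (w i j : ℚ) * (e i : ℚ) * (e j : ℚ)) =
      (e i : ℚ) * (cc e w i : ℚ) := by
    rw [hc, Finset.mul_sum]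
    refine Finset.sum_congr rfl fun j _ => ?_
    split_ifs <;> ring
  have hcast : (∑ j, ((if j = i then (0 : ℤ) else (w i j : ℤ) * (e i : ℤ) * (e j : ℤ) : ℤ) : ℚ)) =
      ∑ j, if j = i then (0 : ℚ) else (w i j : ℚ) * (e i : ℚ) * (e j : ℚ) := by
    refine Finset.sum_congr rfl fun j _ => ?_
    split_ifs <;> push_cast <;> ring
  rw [hcross]
  have := hne i
  field_simp
  ring

end Fermat.Agent.S45lib.MThick.Sched
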