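/-
S45lib / MThick / Chain  (helper6)

The filtered unit ball of a multi-component thick datum as an abstract `FiltSys`
(`S36lib/Thick/Filt.lean`), along the BALANCED SCHEDULE of `MThick/Sched.lean`:

  `O = I(al 0) ⊇ I(al 1) ⊇ … ⊇ I(al N) = I(e) = π O`,   `N = Σ e i`,

every step raising ONE component `sg t`; symbols in `𝔽 = ∀ i, Fk i`:
  level `t` : `f ↦ Pi.single (sg t) (sym_{sg t}(al t (sg t)) f)`.
-/
import Fermat.Agent.S45lib.MThick.Basic
import Fermat.Agent.S45lib.MThick.Sched
import Fermat.Agent.S36lib.Thick.Filt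

set_option autoImplicit false
set_option linter.unusedSectionVars false

noncomputable section

namespace Fermat.Agent.S45lib.MThick

open AlgebraicCurve Module
open Fermat.Agent.S36lib.Thick (DVal FiltSys)

variable {K : Type*} [Field K] {R : ValuationSubring K}
variable {F : Type*} [Field F] [Algebra K F]
variable {ι : Type*} [Fintype ι] [DecidableEq ι] {Fk : ι → Type*} [∀ i, Field (Fk i)]
variable [∀ i, Algebra (IsLocalRing.ResidueField R) (Fk i)]

local notation "k" => IsLocalRing.ResidueField R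

namespace MDatum

/-- the multi-index of the balanced schedule at step `t`, as `ι → ℤ` -/
def al (D : MDatum R F ι Fk) (t : ℕ) : ι → ℤ := fun i => (Sched.alpha D.e D.i₀ t i : ℤ)

/-- the multi-index of the balanced schedule at step `t`, as `ι → ℕ` -/
def aln (D : MDatum R F ι Fk) (t : ℕ) : ι → ℕ := Sched.alpha D.e D.i₀ t

/-- the component raised at step `t` -/
def sg (D : MDatum R F ι Fk) (t : ℕ) : ι := Sched.sigma D.e D.i₀ t

/-- the length of the chain -/
def len (D : MDatum R F ι Fk) : ℕ := Sched.len D.e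

variable (D : MDatum R F ι Fk)

theorem al_apply (t : ℕ) (i : ι) : D.al t i = (D.aln t i : ℤ) := rfl

theorem al_zero : D.al 0 = 0 := by
  funext i; simp [al]

theorem sg_zero : D.sg 0 = D.i₀ := Sched.sigma_zero D.e D.i₀

theorem al_succ_self (t : ℕ) : D.al (t + 1) (D.sg t) = D.al t (D.sg t) + 1 := by
  simp only [al, sg]
  rw [Sched.alpha_succ_self]; push_cast; rfl

theorem al_succ_of_ne (t : ℕ) {j : ι} (hj : j ≠ D.sg t) : D.al (t + 1) j = D.al t j := by
  simp only [al]
  rw [Sched.alpha_succ_of_ne D.e D.i₀ t hj]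

theorem al_le_succ (t : ℕ) : D.al t ≤ D.al (t + 1) := fun i => by
  simp only [al]
  exact_mod_cast Sched.alpha_mono_succ D.e D.i₀ t i

theorem al_nonneg (t : ℕ) : 0 ≤ D.al t := fun i => by
  simp only [al, Pi.zero_apply]; exact Int.natCast_nonneg _

end MDatum

namespace MCtx

variable {D : MDatum R F ι Fk} {g : ℕ} {gk : ι → ℕ} (C : MCtx D g gk)

include C

theorem al_len : D.al D.len = fun i => (D.e i : ℤ) := by
  funext i
  simp only [MDatum.al, MDatum.len]
  rw [Sched.alpha_total D.i₀ C.e_pos]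

theorem al_le {t : ℕ} (ht : t ≤ D.len) (i : ι) : D.al t i ≤ (D.e i : ℤ) := by
  simp only [MDatum.al]
  exact_mod_cast Sched.alpha_le D.i₀ C.e_pos ht i

theorem al_sg_lt {t : ℕ} (ht : t < D.len) : D.al t (D.sg t) < (D.e (D.sg t) : ℤ) := by
  simp only [MDatum.al, MDatum.sg]
  exact_mod_cast Sched.alpha_sigma_lt D.i₀ C.e_pos ht

/-- the chain is balanced -/
theorem balanced (t : ℕ) (j : ι) :
    D.al t (D.sg t) * (D.e j : ℤ) ≤ D.al t j * (D.e (D.sg t) : ℤ) := by
  simp only [MDatum.al, MDatum.sg]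
  exact_mod_cast Sched.balanced D.i₀ C.e_pos t j

/-! ### the first round of the chain: `al (card ι) = (1, …, 1)` -/

theorem al_card : D.al (Fintype.card ι) = fun _ => 1 := by
  funext i
  simp only [MDatum.al]
  rw [Sched.alpha_card D.i₀ C.e_pos]
  rfl

theorem al_le_one {t : ℕ} (ht : t ≤ Fintype.card ι) (j : ι) : D.al t j ≤ 1 := by
  simp only [MDatum.al]
  exact_mod_cast Sched.alpha_le_one D.i₀ C.e_pos ht j

theorem al_sg_eq_zero {t : ℕ} (ht : t < Fintype.card ι) : D.al t (D.sg t) = 0 := by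
  simp only [MDatum.al, MDatum.sg]
  exact_mod_cast Sched.alpha_sigma_eq_zero D.i₀ C.e_pos ht

theorem one_le_al {t : ℕ} (ht : Fintype.card ι ≤ t) (j : ι) : 1 ≤ D.al t j := by
  simp only [MDatum.al]
  exact_mod_cast Sched.one_le_alpha D.i₀ C.e_pos ht j

theorem card_le_len : Fintype.card ι ≤ D.len := Sched.card_le_len C.e_pos

/-- the valuation ideal `I(α)` as an additive subgroup -/
def Isub (α : ι → ℤ) : AddSubgroup F where
  carrier := {f | C.I α f}
  zero_mem' := I.zero C α
  add_mem' := fun h h' => h.add h'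
  neg_mem' := fun h => h.neg

theorem mem_Isub {α : ι → ℤ} {f : F} : f ∈ C.Isub α ↔ C.I α f := Iff.rfl

/-- the chain `O = I(al 0) ⊇ I(al 1) ⊇ …` -/
def chain (t : ℕ) : AddSubgroup F := C.Isub (D.al t)

theorem mem_chain {t : ℕ} {f : F} : f ∈ C.chain t ↔ C.I (D.al t) f := Iff.rfl

/-- the symbol maps -/
def sy (t : ℕ) (f : F) : ∀ i, Fk i :=
  Pi.single (D.sg t) ((C.W (D.sg t)).sym (D.al t (D.sg t)) f)

theorem sy_apply_self (t : ℕ) (f : F) :
    C.sy t f (D.sg t) = (C.W (D.sg t)).sym (D.al t (D.sg t)) f := by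
  rw [sy, Pi.single_eq_same]

theorem sy_eq_zero_iff (t : ℕ) (f : F) :
    C.sy t f = 0 ↔ (C.W (D.sg t)).sym (D.al t (D.sg t)) f = 0 := by
  constructor
  · intro h
    have := congrFun h (D.sg t)
    rwa [C.sy_apply_self] at this
  · intro h
    rw [sy, h, Pi.single_zero]

/-- `I(al (t+1))` inside `I(al t)` -/
theorem I_succ_iff (t : ℕ) (f : F) :
    C.I (D.al (t + 1)) f ↔ C.I (D.al t) f ∧ (C.W (D.sg t)).sym (D.al t (D.sg t)) f = 0 := by
  constructor
  · intro h
    refine ⟨h.mono (D.al_le_succ t), ?_⟩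
    have := h (D.sg t)
    rw [D.al_succ_self] at this
    exact ((DVal.ge_succ_iff).1 this).2
  · rintro ⟨h, hs⟩ i
    by_cases hi : i = D.sg t
    · subst hi
      rw [D.al_succ_self]
      exact (DVal.ge_succ_iff).2 ⟨h _, hs⟩
    · rw [D.al_succ_of_ne t hi]; exact h i

/-- the filtered system of a multi-component thick datum -/
def filtSys : FiltSys R F (∀ i, Fk i) where
  O := D.O
  algebraMap_mem := algebraMap_mem_O
  π := D.π
  π_mem := C.π_mem
  π_not_unit := C.π_not_unit
  exists_pow_mul_mem := C.exists_π_pow_mul_mem_O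
  N := D.len
  𝔠 := C.chain
  𝔠_zero := fun f => by rw [mem_chain, D.al_zero, I_zero_iff]
  𝔠_anti := fun t f hf => (mem_chain C).2 (((mem_chain C).1 hf).mono (D.al_le_succ t))
  𝔠_mul_mem := by
    intro t g f hg hf
    rw [mul_comm]
    exact (mem_chain C).2 (((mem_chain C).1 hf).mul_mem_O hg)
  𝔠_last := by
    intro f
    rw [mem_chain, C.al_len]
    have key := C.I_mul_π_zpow_iff (α := 0) (f := f * (algebraMap K F D.π)⁻¹) 1
    have e1 : f * (algebraMap K F D.π)⁻¹ * algebraMap K F D.π ^ (1 : ℤ) = f := by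
      rw [zpow_one, mul_assoc, inv_mul_cancel₀ C.πF_ne_zero, mul_one]
    have e2 : (0 + eMul D 1 : ι → ℤ) = fun i => (D.e i : ℤ) := by
      funext i; simp [eMul_apply]
    rw [e1, e2] at key
    rw [key, I_zero_iff]
    constructor
    · intro h
      exact ⟨_, h, by rw [mul_comm, mul_assoc, inv_mul_cancel₀ C.πF_ne_zero, mul_one]⟩
    · rintro ⟨g', hg', rfl⟩
      rwa [mul_comm, ← mul_assoc, inv_mul_cancel₀ C.πF_ne_zero, one_mul]
  sy := C.sy
  sy_add := by
    intro t f f' hf hf'
    rw [sy, sy, sy, DVal.sym_add (hf (D.sg t)) (hf' (D.sg t)), Pi.single_add]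
  sy_smul := by
    intro t a f hf
    have ha : algebraMap K F (a : K) ∈ (C.W (D.sg t)).O := algebraMap_mem (D.sg t) a
    rw [sy, sy, mul_comm, DVal.sym_mul_mem (hf (D.sg t)) ha, C.W_redF, C.redF_algebraMap,
      mul_comm, ← Algebra.smul_def, Pi.single_smul]
  mem_succ_iff := by
    intro t _ f
    rw [mem_chain, mem_chain, C.I_succ_iff, C.sy_eq_zero_iff]

@[simp] theorem filtSys_O : C.filtSys.O = D.O := rfl
@[simp] theorem filtSys_N : C.filtSys.N = D.len := rfl
@[simp] theorem filtSys_π : C.filtSys.π = D.π := rfl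
theorem filtSys_𝔠 (t : ℕ) : C.filtSys.𝔠 t = C.chain t := rfl
theorem filtSys_sy (t : ℕ) (f : F) : C.filtSys.sy t f = C.sy t f := rfl

/-- (N1) in the form of `Thick/Filt.lean` -/
theorem hasBasis (W : Submodule K F) [FiniteDimensional K W] : C.filtSys.HasBasis W :=
  C.hD W inferInstance

end MCtx

end Fermat.Agent.S45lib.MThick
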