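/-
S45lib / MThick / Tgt  (helper6)

The SYMBOL TARGETS of a multi-component thick datum along the balanced chain of `MThick/Chain.lean`.
At step `t` (component `σ = sg t`, level `n = al t σ`) the symbol `ψ = sym_σ(n) f` of a function
`f ∈ 𝓛 a b ∩ I(al t)` satisfies

  `ψ ∈ L(A_t + a Q₁ + b Q₂)`,   `A_t = ⌊(n · div κ_σ − μ_t · Σ_c x_σ c) / e_σ⌋`,

where `μ_t = Σ_{j ≠ σ} (e_σ α_j − α_σ e_j) w_{σ j}` is the degree defect of `MThick/Sched.lean`.
Proof: the POWER TRICK `y = f^{e_σ} π^{-n}` (`v_σ y = 0`, `v_j y ≥ β_j = e_σ α_j − α_σ e_j ≥ 0` since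
the chain is balanced), whose reduction `ψ^{e_σ} κ_σ^n` is controlled by (CHART) off the
multi-points and by (MULT) at the multi-points.

* `C.T t a b`        : the targets, as subspaces of `𝔽 = ∀ i, Fk i` (supported on `sg t`);
* `C.sym_mem`        : the inclusion for a general chart family satisfying the power trick;
* `C.symImage_𝓛_le` : the symbol images of the base family lie in the targets.
-/
import Fermat.Agent.S45lib.MThick.Chain
import Fermat.Agent.S36lib.Thick.DivTools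
import Fermat.Agent.S36lib.Thick.RRFam

set_option autoImplicit false
set_option linter.unusedSectionVars false

noncomputable section

namespace Fermat.Agent.S45lib.MThick

open AlgebraicCurve Module
open Fermat.Agent.LSb (HasValueAt)
open Fermat.Agent.LSb.Core (lin2 lin2_apply lin2_apply_of_not_mem)
open Fermat.Agent.S18lib.Cech (mem_rr_iff mem_rr_of_ne rr_mono ord_pow)
open Fermat.Agent.S36lib.Thick (DVal FiltSys divOf divOf_apply degree_divOf floorDiv floorDiv_apply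
  neg_ediv_le_of_le_mul rrFam mem_rrFam)

variable {K : Type*} [Field K] {R : ValuationSubring K}
variable {F : Type*} [Field F] [Algebra K F]
variable {ι : Type*} [Fintype ι] [DecidableEq ι] {Fk : ι → Type*} [∀ i, Field (Fk i)]
variable [∀ i, Algebra (IsLocalRing.ResidueField R) (Fk i)]

local notation "k" => IsLocalRing.ResidueField R

namespace MDatum

variable (D : MDatum R F ι Fk)

/-- the degree defect `μ_t` of the step `t` -/
def mu (t : ℕ) : ℤ := Sched.mu D.e D.i₀ D.w t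

/-- the exponents `β_j = e_σ α_j − α_σ e_j` of the power trick at step `t` -/
def bet (t : ℕ) (j : ι) : ℕ := D.e (D.sg t) * D.aln t j - D.aln t (D.sg t) * D.e j

theorem bet_self (t : ℕ) : D.bet t (D.sg t) = 0 := by
  rw [bet, Nat.mul_comm, Nat.sub_self]

/-- the multi-points of the component `i` as a divisor -/
def Xd (i : ι) : Divisor k (Fk i) := ∑ c, Finsupp.single (D.x i c) 1

theorem chartDiv_mul (i : ι) (n a b : ℕ) (v : Place k (Fk i)) :
    D.chartDiv i (n * a) (n * b) v = (n : ℤ) * D.chartDiv i a b v := by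
  rw [chartDiv, chartDiv, lin2_apply, lin2_apply]
  push_cast; ring

end MDatum

namespace MCtx

variable {D : MDatum R F ι Fk} {g : ℕ} {gk : ι → ℕ} (C : MCtx D g gk)

include C

/-! ### the chart spaces -/

theorem smul_mem_𝓛 {a b : ℕ} (c : K) {f : F} (hf : f ∈ D.𝓛 a b) :
    algebraMap K F c * f ∈ D.𝓛 a b := by
  rw [← Algebra.smul_def]; exact (D.𝓛 a b).smul_mem c hf

theorem mul_algebraMap_mem_𝓛 {a b : ℕ} (c : K) {f : F} (hf : f ∈ D.𝓛 a b) :
    f * algebraMap K F c ∈ D.𝓛 a b := by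
  rw [mul_comm]; exact C.smul_mem_𝓛 c hf

theorem one_mem_𝓛 (a b : ℕ) : (1 : F) ∈ D.𝓛 a b :=
  C.mono (Nat.zero_le a) (Nat.zero_le b) C.one_mem

theorem pow_mem_𝓛 {a b : ℕ} {f : F} (hf : f ∈ D.𝓛 a b) (n : ℕ) : f ^ n ∈ D.𝓛 (n * a) (n * b) := by
  induction n with
  | zero => simpa using C.one_mem
  | succ n ih =>
    rw [pow_succ]
    have := C.mul_mem ih hf
    convert this using 2 <;> ring

theorem chartDiv_x (i : ι) (a b : ℕ) (c : Fin D.s) : D.chartDiv i a b (D.x i c) = 0 :=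
  lin2_apply_of_not_mem (C.x_not_mem i c).1 (C.x_not_mem i c).2 a b

/-! ### the exponents of the power trick -/

theorem bet_cast (t : ℕ) (j : ι) :
    (D.bet t j : ℤ) = (D.e (D.sg t) : ℤ) * D.al t j - D.al t (D.sg t) * (D.e j : ℤ) := by
  have h := Sched.balanced D.i₀ C.e_pos t j
  have h' : D.aln t (D.sg t) * D.e j ≤ D.e (D.sg t) * D.aln t j := by
    rw [Nat.mul_comm (D.e (D.sg t))]; exact h
  rw [MDatum.bet, Nat.cast_sub h']
  push_cast
  rfl

theorem sum_bet (t : ℕ) :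
    ∑ j, (D.bet t j : ℤ) * (D.w (D.sg t) j : ℤ) = D.mu t := by
  rw [MDatum.mu, Sched.mu]
  refine Finset.sum_congr rfl fun j _ => ?_
  split_ifs with h
  · rw [h]
    have := D.bet_self t
    simp only [MDatum.sg] at this
    rw [show D.bet t (Sched.sigma D.e D.i₀ t) = 0 from this]
    simp
  · rw [C.bet_cast]; rfl

theorem mu_nonneg (t : ℕ) : 0 ≤ D.mu t := Sched.mu_nonneg D.i₀ C.e_pos D.w t

theorem mu_pos {t : ℕ} (ht0 : 0 < t) (ht : t < D.len) : 0 < D.mu t :=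
  Sched.mu_pos D.i₀ C.e_pos C.e_base C.w_pos ht0 ht

/-! ### the divisors of the targets -/

/-- `div κ_i` -/
def Kd (i : ι) : Divisor k (Fk i) := divOf (C.hF i).hasPrincipalDivisors (C.κ i)

theorem Kd_apply (i : ι) (v : Place k (Fk i)) : C.Kd i v = v.ord (C.κ i) :=
  divOf_apply _ (C.κ_ne_zero i) v

theorem degree_Kd (i : ι) : Divisor.degree (C.Kd i) = 0 := degree_divOf _ _

theorem Xd_apply_self (i : ι) (c : Fin D.s) : D.Xd i (D.x i c) = 1 := by
  classical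
  rw [MDatum.Xd, Finsupp.finsetSum_apply, Finset.sum_eq_single c]
  · rw [Finsupp.single_apply, if_pos rfl]
  · intro c' _ hc'
    rw [Finsupp.single_apply, if_neg fun h => hc' (C.x_injective i h)]
  · intro h; exact absurd (Finset.mem_univ c) h

omit C in
theorem Xd_apply_of_ne (i : ι) {v : Place k (Fk i)} (hv : ∀ c, D.x i c ≠ v) : D.Xd i v = 0 := by
  classical
  rw [MDatum.Xd, Finsupp.finsetSum_apply]
  refine Finset.sum_eq_zero fun c _ => ?_
  rw [Finsupp.single_apply, if_neg (hv c)]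

theorem degree_Xd (i : ι) : Divisor.degree (D.Xd i) = D.s := by
  rw [MDatum.Xd, map_sum]
  simp [(C.hF i).deg_eq_one]

/-- `E_t = n · div κ_σ − μ_t · Σ_c x_σ c` -/
def Ed (t : ℕ) : Divisor k (Fk (D.sg t)) :=
  (D.aln t (D.sg t)) • C.Kd (D.sg t) - (D.mu t) • D.Xd (D.sg t)

theorem degree_Ed (t : ℕ) : Divisor.degree (C.Ed t) = -(D.mu t * D.s) := by
  rw [Ed, map_sub, map_nsmul, map_zsmul, C.degree_Kd, C.degree_Xd]
  simp

theorem Ed_apply_self (t : ℕ) (c : Fin D.s) :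
    C.Ed t (D.x (D.sg t) c) =
      (D.al t (D.sg t)) * (D.x (D.sg t) c).ord (C.κ (D.sg t)) - D.mu t := by
  rw [Ed, Finsupp.sub_apply, Finsupp.smul_apply, Finsupp.smul_apply, C.Kd_apply, C.Xd_apply_self,
    nsmul_eq_mul, smul_eq_mul, mul_one, D.al_apply]

theorem Ed_apply_of_ne (t : ℕ) {v : Place k (Fk (D.sg t))} (hv : ∀ c, D.x (D.sg t) c ≠ v) :
    C.Ed t v = (D.al t (D.sg t)) * v.ord (C.κ (D.sg t)) := by
  rw [Ed, Finsupp.sub_apply, Finsupp.smul_apply, Finsupp.smul_apply, C.Kd_apply,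
    Xd_apply_of_ne _ hv, nsmul_eq_mul, smul_eq_mul, mul_zero, sub_zero, D.al_apply]

/-- `A_t = ⌊E_t / e_σ⌋` -/
def Ad (t : ℕ) : Divisor k (Fk (D.sg t)) := floorDiv 1 (D.e (D.sg t)) (C.Ed t)

theorem Ad_apply (t : ℕ) (v : Place k (Fk (D.sg t))) :
    C.Ad t v = (C.Ed t v) / (D.e (D.sg t) : ℤ) := by
  rw [Ad, floorDiv_apply, Nat.cast_one, one_mul]

/-! ### the power trick -/

section Step

variable {t a b : ℕ} {f : F}

/-- the auxiliary function `y = f^{e_σ} π^{-m n}` of the power trick (at the `m`-fold multi-index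
`m · al t`): if `f^{e_σ} ∈ 𝓛 a' b'` then `y ∈ 𝓛 a' b' ∩ I(m β)` and
`red_σ y = ψ^{e_σ} κ_σ^{m n}`. -/
theorem pow_trick (m : ℕ) {a' b' : ℕ} (hf : f ^ D.e (D.sg t) ∈ D.𝓛 a' b')
    (hI : C.I (fun j => (m : ℤ) * D.al t j) f) :
    f ^ D.e (D.sg t) * (algebraMap K F D.π)⁻¹ ^ (m * D.aln t (D.sg t)) ∈ D.𝓛 a' b' ∧
    C.I (fun j => ((m * D.bet t j : ℕ) : ℤ))
      (f ^ D.e (D.sg t) * (algebraMap K F D.π)⁻¹ ^ (m * D.aln t (D.sg t))) ∧
    D.redF (D.sg t) (f ^ D.e (D.sg t) * (algebraMap K F D.π)⁻¹ ^ (m * D.aln t (D.sg t))) =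
      (C.W (D.sg t)).sym ((m : ℤ) * D.al t (D.sg t)) f ^ D.e (D.sg t) *
        C.κ (D.sg t) ^ (m * D.aln t (D.sg t)) := by
  refine ⟨?_, ?_, ?_⟩
  · have := C.mul_algebraMap_mem_𝓛 ((D.π⁻¹) ^ (m * D.aln t (D.sg t))) hf
    rwa [map_pow, map_inv₀] at this
  · have hπI : C.I (eMul D (-((m * D.aln t (D.sg t) : ℕ) : ℤ)))
        ((algebraMap K F D.π)⁻¹ ^ (m * D.aln t (D.sg t))) := by
      have := C.I_π_zpow (-((m * D.aln t (D.sg t) : ℕ) : ℤ))
      rwa [zpow_neg, zpow_natCast, ← inv_pow] at this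
    have h := (hI.pow (D.e (D.sg t))).mul hπI
    refine h.mono fun j => ?_
    simp only [Pi.add_apply, eMul_apply]
    rw [Nat.cast_mul, C.bet_cast, D.al_apply t (D.sg t)]
    apply le_of_eq; push_cast; ring
  · rw [← C.W_redF, ← DVal.sym_zero_eq]
    have hge : (C.W (D.sg t)).Ge (((m * D.aln t (D.sg t) : ℕ) : ℤ) * (-(D.e (D.sg t) : ℤ)))
        ((algebraMap K F D.π)⁻¹ ^ (m * D.aln t (D.sg t))) := (C.ge_π_inv (D.sg t)).pow _
    have h1 := DVal.sym_mul ((hI (D.sg t)).pow (D.e (D.sg t))) hge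
    rw [DVal.sym_pow (hI (D.sg t)), C.sym_π_inv_pow] at h1
    have e0 : (D.e (D.sg t) : ℤ) * ((m : ℤ) * D.al t (D.sg t)) +
        ((m * D.aln t (D.sg t) : ℕ) : ℤ) * (-(D.e (D.sg t) : ℤ)) = 0 := by
      rw [D.al_apply]; push_cast; ring
    rw [e0] at h1
    exact h1

/-- **the bounds on the symbol** at the `m`-fold multi-index of step `t`, for any function whose
`e_σ`-th power lies in a chart space `𝓛 a' b'`. -/
theorem sym_bounds (m : ℕ) {a' b' : ℕ} (hf : f ^ D.e (D.sg t) ∈ D.𝓛 a' b')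
    (hI : C.I (fun j => (m : ℤ) * D.al t j) f)
    (hψ : (C.W (D.sg t)).sym ((m : ℤ) * D.al t (D.sg t)) f ≠ 0) :
    (∀ v : Place k (Fk (D.sg t)), -(D.chartDiv (D.sg t) a' b' v) ≤
        (D.e (D.sg t) : ℤ) * v.ord ((C.W (D.sg t)).sym ((m : ℤ) * D.al t (D.sg t)) f) +
          (m : ℤ) * D.al t (D.sg t) * v.ord (C.κ (D.sg t))) ∧
      ∀ c, (m : ℤ) * D.mu t ≤
        (D.e (D.sg t) : ℤ) *
          (D.x (D.sg t) c).ord ((C.W (D.sg t)).sym ((m : ℤ) * D.al t (D.sg t)) f) +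
          (m : ℤ) * D.al t (D.sg t) * (D.x (D.sg t) c).ord (C.κ (D.sg t)) := by
  obtain ⟨hy𝓛, hyI, hred⟩ := C.pow_trick m hf hI
  have hyO : f ^ D.e (D.sg t) * (algebraMap K F D.π)⁻¹ ^ (m * D.aln t (D.sg t)) ∈ D.O :=
    hyI.mem_O fun j => Int.natCast_nonneg _
  have hne : (C.W (D.sg t)).sym ((m : ℤ) * D.al t (D.sg t)) f ^ D.e (D.sg t) *
      C.κ (D.sg t) ^ (m * D.aln t (D.sg t)) ≠ 0 :=
    mul_ne_zero (pow_ne_zero _ hψ) (pow_ne_zero _ (C.κ_ne_zero _))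
  have hord : ∀ v : Place k (Fk (D.sg t)),
      v.ord ((C.W (D.sg t)).sym ((m : ℤ) * D.al t (D.sg t)) f ^ D.e (D.sg t) *
        C.κ (D.sg t) ^ (m * D.aln t (D.sg t))) =
      (D.e (D.sg t) : ℤ) * v.ord ((C.W (D.sg t)).sym ((m : ℤ) * D.al t (D.sg t)) f) +
          (m : ℤ) * D.al t (D.sg t) * v.ord (C.κ (D.sg t)) := by
    intro v
    rw [v.ord_mul (pow_ne_zero _ hψ) (pow_ne_zero _ (C.κ_ne_zero _)), ord_pow, ord_pow,
      D.al_apply]
    push_cast; ring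
  refine ⟨fun v => ?_, fun c => ?_⟩
  · have hch := C.chart (D.sg t) a' b' _ hy𝓛 hyO
    rw [hred] at hch
    have := (mem_rr_of_ne hne).1 hch v
    rwa [hord] at this
  · have hm := C.mult (D.sg t) a' b' _ hy𝓛 (fun j => m * D.bet t j)
      (by simp only [D.bet_self t, mul_zero])
      (fun j => (C.W_ge_iff j _ _).1 (hyI j)) c
    rw [hred] at hm
    rcases hm with h0 | h
    · exact absurd h0 hne
    · rw [hord] at h
      refine le_trans (le_of_eq ?_) h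
      rw [← C.sum_bet, Finset.mul_sum]
      refine Finset.sum_congr rfl fun j _ => ?_
      push_cast; ring

/-- **the inclusion in divisor form**: a symbol `ψ ≠ 0` whose orders satisfy the bounds of
`sym_bounds` (divided by `m`) lies in `L(A_t + a Q₁ + b Q₂)`. -/
theorem mem_rrFam_of_bounds {ψ : Fk (D.sg t)}
    (h1 : ∀ v : Place k (Fk (D.sg t)), -((D.e (D.sg t) : ℤ) * D.chartDiv (D.sg t) a b v) ≤
        (D.e (D.sg t) : ℤ) * v.ord ψ + D.al t (D.sg t) * v.ord (C.κ (D.sg t)))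
    (h2 : ∀ c, D.mu t ≤ (D.e (D.sg t) : ℤ) * (D.x (D.sg t) c).ord ψ +
          D.al t (D.sg t) * (D.x (D.sg t) c).ord (C.κ (D.sg t))) :
    ψ ∈ rrFam (C.Ad t) (D.Q₁ (D.sg t)) (D.Q₂ (D.sg t)) a b := by
  rcases eq_or_ne ψ 0 with h0 | h0
  · rw [h0]; exact Submodule.zero_mem _
  rw [mem_rrFam, mem_rr_of_ne h0]
  intro v
  rw [Finsupp.add_apply, C.Ad_apply]
  have hchart : lin2 (D.Q₁ (D.sg t)) (D.Q₂ (D.sg t)) (a : ℤ) (b : ℤ) v =
      D.chartDiv (D.sg t) a b v := rfl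
  rw [hchart]
  by_cases hv : ∃ c, D.x (D.sg t) c = v
  · obtain ⟨c, rfl⟩ := hv
    rw [C.Ed_apply_self, C.chartDiv_x, add_zero]
    have h3 := h2 c
    refine neg_ediv_le_of_le_mul (C.e_pos _) ?_
    linarith
  · push Not at hv
    rw [C.Ed_apply_of_ne t hv]
    have h3 := h1 v
    have h4 : -(D.al t (D.sg t) * v.ord (C.κ (D.sg t))) ≤ (D.e (D.sg t) : ℤ) *
        (v.ord ψ + D.chartDiv (D.sg t) a b v) := by
      linarith
    have := neg_ediv_le_of_le_mul (C.e_pos _) h4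
    linarith

/-- **the inclusion**: the symbol lies in `L(A_t + a Q₁ + b Q₂)` as soon as the `e_σ`-th power of
`f` lies in `𝓛 (e_σ a) (e_σ b)`. -/
theorem sym_mem_of_pow (hf : f ^ D.e (D.sg t) ∈ D.𝓛 (D.e (D.sg t) * a) (D.e (D.sg t) * b))
    (hI : C.I (D.al t) f) :
    (C.W (D.sg t)).sym (D.al t (D.sg t)) f ∈
      rrFam (C.Ad t) (D.Q₁ (D.sg t)) (D.Q₂ (D.sg t)) a b := by
  rcases eq_or_ne ((C.W (D.sg t)).sym (D.al t (D.sg t)) f) 0 with h0 | h0
  · rw [h0]; exact Submodule.zero_mem _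
  have hI' : C.I (fun j => ((1 : ℕ) : ℤ) * D.al t j) f := by
    simpa using hI
  have h0' : (C.W (D.sg t)).sym (((1 : ℕ) : ℤ) * D.al t (D.sg t)) f ≠ 0 := by
    simpa using h0
  obtain ⟨h1, h2⟩ := C.sym_bounds 1 hf hI' h0'
  simp only [Nat.cast_one, one_mul] at h1 h2
  refine C.mem_rrFam_of_bounds (fun v => ?_) h2
  have := h1 v
  rwa [D.chartDiv_mul] at this

/-- the inclusion for the base family -/
theorem sym_mem (hf : f ∈ D.𝓛 a b) (hI : C.I (D.al t) f) :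
    (C.W (D.sg t)).sym (D.al t (D.sg t)) f ∈
      rrFam (C.Ad t) (D.Q₁ (D.sg t)) (D.Q₂ (D.sg t)) a b :=
  C.sym_mem_of_pow (C.pow_mem_𝓛 hf _) hI

/-- **the Kummer inclusion**: if `h ∈ I(al t)` and `z` is a unit with CONSTANT reduction on the
component `σ` such that `(hⁿ z)^{e_σ} ∈ 𝓛 (e_σ n a) (e_σ n b)` (`n ≥ 1`), then the symbol of `h`
lies in `L(A_t + a Q₁ + b Q₂)`. -/
theorem sym_mem_of_kummer {n : ℕ} (hn : 0 < n) {h z : F} {β : k} (hβ : β ≠ 0)
    (hzO : z ∈ D.O) (hz : D.redF (D.sg t) z = algebraMap k (Fk (D.sg t)) β)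
    (hf : (h ^ n * z) ^ D.e (D.sg t) ∈ D.𝓛 (D.e (D.sg t) * (n * a)) (D.e (D.sg t) * (n * b)))
    (hI : C.I (D.al t) h) :
    (C.W (D.sg t)).sym (D.al t (D.sg t)) h ∈
      rrFam (C.Ad t) (D.Q₁ (D.sg t)) (D.Q₂ (D.sg t)) a b := by
  rcases eq_or_ne ((C.W (D.sg t)).sym (D.al t (D.sg t)) h) 0 with h0 | h0
  · rw [h0]; exact Submodule.zero_mem _
  have hI' : C.I (fun j => (n : ℤ) * D.al t j) (h ^ n * z) := by
    have := (hI.pow n).mul ((C.I_zero_iff).2 hzO)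
    refine this.mono fun j => ?_
    simp
  have hsym : (C.W (D.sg t)).sym ((n : ℤ) * D.al t (D.sg t)) (h ^ n * z) =
      (C.W (D.sg t)).sym (D.al t (D.sg t)) h ^ n * algebraMap k (Fk (D.sg t)) β := by
    have hz0 : (C.W (D.sg t)).Ge 0 z :=
      (DVal.ge_zero_iff (V := C.W (D.sg t))).2 (MDatum.mem_O.1 hzO (D.sg t))
    have h1 := DVal.sym_mul ((hI (D.sg t)).pow n) hz0
    rw [add_zero, DVal.sym_pow (hI (D.sg t)), DVal.sym_zero_eq, C.W_redF, hz] at h1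
    exact h1
  have hβ' : algebraMap k (Fk (D.sg t)) β ≠ 0 := (map_ne_zero _).2 hβ
  have hne : (C.W (D.sg t)).sym ((n : ℤ) * D.al t (D.sg t)) (h ^ n * z) ≠ 0 := by
    rw [hsym]; exact mul_ne_zero (pow_ne_zero _ h0) hβ'
  obtain ⟨h1, h2⟩ := C.sym_bounds n hf hI' hne
  have hn' : (0 : ℤ) < n := by exact_mod_cast hn
  have hord : ∀ v : Place k (Fk (D.sg t)),
      v.ord ((C.W (D.sg t)).sym ((n : ℤ) * D.al t (D.sg t)) (h ^ n * z)) =
        (n : ℤ) * v.ord ((C.W (D.sg t)).sym (D.al t (D.sg t)) h) := by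
    intro v
    rw [hsym, v.ord_mul (pow_ne_zero _ h0) hβ', ord_pow,
      Fermat.Agent.S18lib.Cech.ord_const v β, add_zero]
  refine C.mem_rrFam_of_bounds (fun v => ?_) (fun c => ?_)
  · have := h1 v
    rw [hord, D.chartDiv_mul, D.chartDiv_mul] at this
    have h3 : (n : ℤ) * (-((D.e (D.sg t) : ℤ) * D.chartDiv (D.sg t) a b v)) ≤
        (n : ℤ) * ((D.e (D.sg t) : ℤ) * v.ord ((C.W (D.sg t)).sym (D.al t (D.sg t)) h) +
          D.al t (D.sg t) * v.ord (C.κ (D.sg t))) := by linarith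
    exact le_of_mul_le_mul_left h3 hn'
  · have := h2 c
    rw [hord] at this
    have h3 : (n : ℤ) * D.mu t ≤
        (n : ℤ) * ((D.e (D.sg t) : ℤ) *
          (D.x (D.sg t) c).ord ((C.W (D.sg t)).sym (D.al t (D.sg t)) h) +
          D.al t (D.sg t) * (D.x (D.sg t) c).ord (C.κ (D.sg t))) := by linarith
    exact le_of_mul_le_mul_left h3 hn'

end Step

/-! ### the targets -/

/-- **the symbol targets** -/
def T (t a b : ℕ) : Submodule k (∀ i, Fk i) :=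
  (rrFam (C.Ad t) (D.Q₁ (D.sg t)) (D.Q₂ (D.sg t)) a b).map (LinearMap.single k Fk (D.sg t))

theorem mem_T {t a b : ℕ} {φ : ∀ i, Fk i} :
    φ ∈ C.T t a b ↔ ∃ y ∈ rrFam (C.Ad t) (D.Q₁ (D.sg t)) (D.Q₂ (D.sg t)) a b,
      φ = Pi.single (D.sg t) y := by
  rw [T, Submodule.mem_map]
  constructor
  · rintro ⟨y, hy, rfl⟩; exact ⟨y, hy, rfl⟩
  · rintro ⟨y, hy, rfl⟩; exact ⟨y, hy, rfl⟩

theorem single_mem_T {t a b : ℕ} {y : Fk (D.sg t)} :
    (Pi.single (D.sg t) y : ∀ i, Fk i) ∈ C.T t a b ↔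
      y ∈ rrFam (C.Ad t) (D.Q₁ (D.sg t)) (D.Q₂ (D.sg t)) a b := by
  rw [C.mem_T]
  constructor
  · rintro ⟨y', hy', h⟩
    have : y = y' := Pi.single_injective _ h
    rwa [this]
  · intro h; exact ⟨y, h, rfl⟩

/-- **the symbol images of the base family lie in the targets** -/
theorem symImage_𝓛_le (t a b : ℕ) : C.filtSys.symImage t (D.𝓛 a b) ≤ C.T t a b := by
  rintro φ ⟨f, hf, hc, rfl⟩
  rw [filtSys_𝔠, mem_chain] at hc
  rw [filtSys_sy, sy, C.single_mem_T]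
  exact C.sym_mem hf hc

end MCtx

end Fermat.Agent.S45lib.MThick
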