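/-
S45lib / MThick / TgtDim  (helper6)

Riemann–Roch bookkeeping for the symbol targets `C.T t a b` of `MThick/Tgt.lean`:

* `finiteDimensional_T`, `finrank_T`;
* `Stable a b` (all the targets are in the range of Riemann's THEOREM), `Stable.mono`,
  `exists_stable`;
* `mul_degree_Ad_le` : `e_σ · deg A_t ≤ − μ_t · s`;
* **`sum_finrank_T_le`** : in the stable range `Σ_{t < N} dim T t a b ≤ a d₁ + b d₂ + 1 − g`
  (this is where (COUNT) and the adjunction sum `2 Σ_t μ_t / e_{σ t} = Σ_{i ≠ j} e_j w_{ij}` enter);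
* `T_mono`, `T_inf_le`, `T_sup_eq`;
* `T_zero_zero_zero` (constants), `T_pos_zero_zero` (`= 0`).
-/
import Fermat.Agent.S45lib.MThick.Tgt

set_option autoImplicit false
set_option linter.unusedSectionVars false

noncomputable section

namespace Fermat.Agent.S45lib.MThick

open AlgebraicCurve Module
open Fermat.Agent.S18lib
open Fermat.Agent.LSb.Core (lin2 degree_lin2 lin2_zero_zero)
open Fermat.Agent.S36lib.Thick (DVal FiltSys divOf floorDiv floorDiv_apply mul_degree_floorDiv_le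
  rrFam mem_rrFam rrFam_mono rrFam_inf_le rrFam_sup_eq finrank_rrFam rrFam_eq_bot rrFam_zero_zero
  RRStable RRStable.mono exists_rrStable finiteDimensional_rrFam degree_add_lin2)

variable {K : Type*} [Field K] {R : ValuationSubring K}
variable {F : Type*} [Field F] [Algebra K F]
variable {ι : Type*} [Fintype ι] [DecidableEq ι] {Fk : ι → Type*} [∀ i, Field (Fk i)]
variable [∀ i, Algebra (IsLocalRing.ResidueField R) (Fk i)]

local notation "k" => IsLocalRing.ResidueField R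

omit [Fintype ι] in
theorem single_injective (i : ι) : Function.Injective (LinearMap.single k Fk i) :=
  Pi.single_injective i

namespace MCtx

variable {D : MDatum R F ι Fk} {g : ℕ} {gk : ι → ℕ} (C : MCtx D g gk)

include C

/-! ### finite dimensionality, dimensions through the embedding -/

theorem finiteDimensional_T (t a b : ℕ) : FiniteDimensional k (C.T t a b) := by
  have := finiteDimensional_rrFam (C.hF (D.sg t)) (C.Ad t) (D.Q₁ (D.sg t)) (D.Q₂ (D.sg t)) a b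
  rw [T]
  infer_instance

theorem finrank_T (t a b : ℕ) :
    finrank k (C.T t a b) = finrank k (rrFam (C.Ad t) (D.Q₁ (D.sg t)) (D.Q₂ (D.sg t)) a b) :=
  (Submodule.equivMapOfInjective (LinearMap.single k Fk (D.sg t)) (single_injective (D.sg t))
    (rrFam (C.Ad t) (D.Q₁ (D.sg t)) (D.Q₂ (D.sg t)) a b)).finrank_eq.symm

/-! ### the stable range -/

/-- all the targets are in the range of Riemann's theorem -/
def Stable (a b : ℕ) : Prop :=
  ∀ t < D.len, RRStable (gk (D.sg t)) (C.Ad t) (D.Q₁ (D.sg t)) (D.Q₂ (D.sg t)) a b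

variable {C} in
theorem Stable.mono {a b a' b' : ℕ} (ha : a ≤ a') (hb : b ≤ b') (h : C.Stable a b) :
    C.Stable a' b' :=
  fun t ht => (h t ht).mono (C.Q₁_nonneg _) (C.Q₂_nonneg _) ha hb

theorem exists_stable : ∃ m₀ : ℕ, ∀ a b : ℕ, m₀ ≤ a ∨ m₀ ≤ b → C.Stable a b := by
  choose m hm using fun t : ℕ => exists_rrStable (gk (D.sg t)) (C.Ad t)
    (C.deg_Q₁_pos (D.sg t)) (C.deg_Q₂_pos (D.sg t))
  refine ⟨(Finset.range D.len).sup m, fun a b hab t ht => ?_⟩
  have hj : m t ≤ (Finset.range D.len).sup m := Finset.le_sup (Finset.mem_range.2 ht)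
  exact hm t a b (hab.imp (le_trans hj) (le_trans hj))

/-! ### the degrees -/

/-- `e_σ · deg A_t ≤ − μ_t · s` -/
theorem mul_degree_Ad_le (t : ℕ) :
    (D.e (D.sg t) : ℤ) * Divisor.degree (C.Ad t) ≤ -(D.mu t * D.s) := by
  have h := mul_degree_floorDiv_le (C.hF (D.sg t)).deg_eq_one (C.e_pos (D.sg t)) 1 (C.Ed t)
  rw [C.degree_Ed] at h
  simpa [Ad] using h

/-- `deg A_t ≤ − s · ν_t` in `ℚ` -/
theorem degree_Ad_le (t : ℕ) :
    (Divisor.degree (C.Ad t) : ℚ) ≤ -((D.s : ℚ) * Sched.nu D.e D.i₀ D.w t) := by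
  have h := C.mul_degree_Ad_le t
  have he : (0 : ℚ) < D.e (D.sg t) := by exact_mod_cast C.e_pos (D.sg t)
  have h' : (D.e (D.sg t) : ℚ) * (Divisor.degree (C.Ad t) : ℚ) ≤ -((D.mu t : ℚ) * D.s) := by
    exact_mod_cast h
  rw [Sched.nu]
  have e1 : -((D.s : ℚ) * ((Sched.mu D.e D.i₀ D.w t : ℚ) / (D.e (Sched.sigma D.e D.i₀ t) : ℚ))) =
      (-((D.mu t : ℚ) * D.s)) / (D.e (D.sg t) : ℚ) := by
    rw [MDatum.mu, MDatum.sg]; ring
  rw [e1, le_div_iff₀ he]
  linarith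

theorem Ed_zero : C.Ed 0 = 0 := by
  have h1 : D.aln 0 (D.sg 0) = 0 := by simp [MDatum.aln]
  have h2 : D.mu 0 = 0 := Sched.mu_zero D.e D.i₀ D.w
  rw [Ed, h1, h2, zero_smul, zero_smul, sub_zero]

theorem Ad_zero : C.Ad 0 = 0 := by
  ext v
  rw [C.Ad_apply, C.Ed_zero]
  simp

theorem degree_Ad_neg {t : ℕ} (ht0 : 0 < t) (ht : t < D.len) : Divisor.degree (C.Ad t) < 0 := by
  have h := C.mul_degree_Ad_le t
  have hmu := C.mu_pos ht0 ht
  have hs : (0 : ℤ) < D.s := by exact_mod_cast C.s_pos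
  have he : (0 : ℤ) < D.e (D.sg t) := by exact_mod_cast C.e_pos (D.sg t)
  have : (D.e (D.sg t) : ℤ) * Divisor.degree (C.Ad t) < 0 := by nlinarith
  by_contra hcon
  push Not at hcon
  nlinarith

/-! ### the dimension sum -/

theorem finrank_T_eq {t a b : ℕ} (h : C.Stable a b) (ht : t < D.len) :
    (finrank k (C.T t a b) : ℤ) =
      Divisor.degree (C.Ad t) + a * Divisor.degree (D.Q₁ (D.sg t)) +
        b * Divisor.degree (D.Q₂ (D.sg t)) + 1 - gk (D.sg t) := by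
  rw [C.finrank_T, finrank_rrFam (C.hF (D.sg t)) (h t ht)]

/-- **the dimension sum**: in the stable range the targets have total dimension at most the
Riemann bound of the generic fibre. -/
theorem sum_finrank_T_le {a b : ℕ} (h : C.Stable a b) :
    ((∑ t ∈ Finset.range D.len, finrank k (C.T t a b) : ℕ) : ℤ) ≤
      a * D.d₁ + b * D.d₂ + 1 - g := by
  -- work in `ℚ`
  have hsum : ((∑ t ∈ Finset.range D.len, finrank k (C.T t a b) : ℕ) : ℚ) =
      ∑ t ∈ Finset.range D.len, (Divisor.degree (C.Ad t) : ℚ) +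
        ∑ t ∈ Finset.range D.len, ((a : ℚ) * (Divisor.degree (D.Q₁ (D.sg t)) : ℚ) +
          b * (Divisor.degree (D.Q₂ (D.sg t)) : ℚ) + 1 - gk (D.sg t)) := by
    rw [Nat.cast_sum, ← Finset.sum_add_distrib]
    refine Finset.sum_congr rfl fun t ht => ?_
    have := C.finrank_T_eq h (Finset.mem_range.1 ht)
    have h' : ((finrank k (C.T t a b) : ℤ) : ℚ) =
        ((Divisor.degree (C.Ad t) + a * Divisor.degree (D.Q₁ (D.sg t)) +
        b * Divisor.degree (D.Q₂ (D.sg t)) + 1 - gk (D.sg t) : ℤ) : ℚ) := by rw [this]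
    push_cast at h'
    rw [h']; ring
  -- the second sum
  have hsec : ∑ t ∈ Finset.range D.len, ((a : ℚ) * (Divisor.degree (D.Q₁ (D.sg t)) : ℚ) +
          b * (Divisor.degree (D.Q₂ (D.sg t)) : ℚ) + 1 - gk (D.sg t)) =
      ∑ i, (D.e i : ℚ) * ((a : ℚ) * (Divisor.degree (D.Q₁ i) : ℚ) +
          b * (Divisor.degree (D.Q₂ i) : ℚ) + 1 - gk i) := by
    have := Sched.sum_range_sigma (e := D.e) D.i₀ (fun i => (a : ℚ) * (Divisor.degree (D.Q₁ i) : ℚ) +
          b * (Divisor.degree (D.Q₂ i) : ℚ) + 1 - gk i) D.len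
    rw [MDatum.len, Sched.alpha_total D.i₀ C.e_pos] at this
    exact this
  -- the first sum
  have hfirst : 2 * ∑ t ∈ Finset.range D.len, (Divisor.degree (C.Ad t) : ℚ) ≤
      -((D.s : ℚ) * ∑ i, (Sched.cc D.e D.w i : ℚ)) := by
    have h1 : ∑ t ∈ Finset.range D.len, (Divisor.degree (C.Ad t) : ℚ) ≤
        ∑ t ∈ Finset.range D.len, -((D.s : ℚ) * Sched.nu D.e D.i₀ D.w t) :=
      Finset.sum_le_sum fun t _ => C.degree_Ad_le t
    have h2 := Sched.two_mul_sum_nu (e := D.e) D.i₀ C.e_pos (w := D.w) C.w_symm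
    rw [Finset.sum_neg_distrib, ← Finset.mul_sum] at h1
    have h3 : (D.s : ℚ) * (2 * ∑ t ∈ Finset.range D.len, Sched.nu D.e D.i₀ D.w t) =
        (D.s : ℚ) * ∑ i, (Sched.cc D.e D.w i : ℚ) := by
      rw [MDatum.len, h2]
    linarith
  -- (COUNT)
  have hcount : 2 * (g : ℚ) - 2 ≤ 2 * ∑ i, (D.e i : ℚ) * ((gk i : ℚ) - 1) +
      (D.s : ℚ) * ∑ i, (Sched.cc D.e D.w i : ℚ) := by
    have h0 := C.count
    have hcc : ∑ i, ∑ j, (if i = j then (0 : ℤ) else (D.e j : ℤ) * (D.w i j : ℤ)) =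
        ∑ i, Sched.cc D.e D.w i := by
      refine Finset.sum_congr rfl fun i _ => ?_
      rw [Sched.cc]
      refine Finset.sum_congr rfl fun j _ => ?_
      by_cases hij : i = j
      · rw [if_pos hij, if_pos hij.symm]
      · rw [if_neg hij, if_neg (Ne.symm hij)]
    rw [hcc] at h0
    have h0' : ((2 * (g : ℤ) - 2 : ℤ) : ℚ) ≤
        ((2 * ∑ i, (D.e i : ℤ) * ((gk i : ℤ) - 1) + (D.s : ℤ) * ∑ i, Sched.cc D.e D.w i : ℤ) : ℚ) := by
      exact_mod_cast h0
    push_cast at h0'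
    exact h0'
  -- the chart degrees
  have hQ₁ : ∑ i, (D.e i : ℚ) * (Divisor.degree (D.Q₁ i) : ℚ) ≤ D.d₁ := by
    have := C.deg_Q₁_le
    have h' : ((∑ i, (D.e i : ℤ) * Divisor.degree (D.Q₁ i) : ℤ) : ℚ) ≤ ((D.d₁ : ℤ) : ℚ) := by
      exact_mod_cast this
    push_cast at h'
    exact h'
  have hQ₂ : ∑ i, (D.e i : ℚ) * (Divisor.degree (D.Q₂ i) : ℚ) ≤ D.d₂ := by
    have := C.deg_Q₂_le
    have h' : ((∑ i, (D.e i : ℤ) * Divisor.degree (D.Q₂ i) : ℤ) : ℚ) ≤ ((D.d₂ : ℤ) : ℚ) := by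
      exact_mod_cast this
    push_cast at h'
    exact h'
  have hexp : ∑ i, (D.e i : ℚ) * ((a : ℚ) * (Divisor.degree (D.Q₁ i) : ℚ) +
          b * (Divisor.degree (D.Q₂ i) : ℚ) + 1 - gk i) =
      (a : ℚ) * ∑ i, (D.e i : ℚ) * (Divisor.degree (D.Q₁ i) : ℚ) +
        (b : ℚ) * ∑ i, (D.e i : ℚ) * (Divisor.degree (D.Q₂ i) : ℚ) -
          ∑ i, (D.e i : ℚ) * ((gk i : ℚ) - 1) := by
    rw [Finset.mul_sum, Finset.mul_sum, ← Finset.sum_add_distrib, ← Finset.sum_sub_distrib]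
    refine Finset.sum_congr rfl fun i _ => ?_
    ring
  have ha0 : (0 : ℚ) ≤ a := Nat.cast_nonneg a
  have hb0 : (0 : ℚ) ≤ b := Nat.cast_nonneg b
  have hfin : ((∑ t ∈ Finset.range D.len, finrank k (C.T t a b) : ℕ) : ℚ) ≤
      a * D.d₁ + b * D.d₂ + 1 - g := by
    rw [hsum, hsec, hexp]
    nlinarith [mul_le_mul_of_nonneg_left hQ₁ ha0, mul_le_mul_of_nonneg_left hQ₂ hb0]
  have hfin' : (((∑ t ∈ Finset.range D.len, finrank k (C.T t a b) : ℕ) : ℤ) : ℚ) ≤
      ((a * D.d₁ + b * D.d₂ + 1 - g : ℤ) : ℚ) := by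
    push_cast
    push_cast at hfin
    exact hfin
  exact_mod_cast hfin'

/-! ### monotonicity, intersections, sums -/

theorem T_mono (t : ℕ) {a b a' b' : ℕ} (ha : a ≤ a') (hb : b ≤ b') :
    C.T t a b ≤ C.T t a' b' :=
  Submodule.map_mono (rrFam_mono (C.Q₁_nonneg _) (C.Q₂_nonneg _) ha hb)

theorem T_inf_le (t a b a' b' : ℕ) :
    C.T t a b ⊓ C.T t a' b' ≤ C.T t (min a a') (min b b') := by
  rw [T, T, ← Submodule.map_inf _ (single_injective (D.sg t))]
  exact Submodule.map_mono (rrFam_inf_le (C.Q_disjoint _) a b a' b')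

/-- sums of targets in the stable range -/
theorem T_sup_eq {t : ℕ} (ht : t < D.len) {a b a' b' : ℕ}
    (hst : C.Stable (min a a') (min b b')) :
    C.T t a b ⊔ C.T t a' b' = C.T t (max a a') (max b b') := by
  rw [T, T, ← Submodule.map_sup,
    rrFam_sup_eq (C.hF _) (C.Q₁_nonneg _) (C.Q₂_nonneg _) (C.Q_disjoint _) (hst t ht)]
  rfl

/-! ### the chart `(0, 0)` -/

/-- at level `0` the chart `(0, 0)` consists of the constants -/
theorem T_zero_zero_zero {φ : ∀ i, Fk i} (hφ : φ ∈ C.T 0 0 0) :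
    ∃ α : k, φ = Pi.single (D.sg 0) (algebraMap k (Fk (D.sg 0)) α) := by
  rw [C.mem_T] at hφ
  obtain ⟨y, hy, rfl⟩ := hφ
  rw [C.Ad_zero] at hy
  obtain ⟨α, rfl⟩ := rrFam_zero_zero (C.hF _) _ _ hy
  exact ⟨α, rfl⟩

/-- at the positive levels the chart `(0, 0)` is trivial -/
theorem T_pos_zero_zero {t : ℕ} (ht0 : 0 < t) (ht : t < D.len) : C.T t 0 0 = ⊥ := by
  rw [T, rrFam_eq_bot (C.hF _), Submodule.map_bot]
  rw [degree_add_lin2]
  have := C.degree_Ad_neg ht0 ht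
  push_cast
  linarith

end MCtx

end Fermat.Agent.S45lib.MThick
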