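/-
S45lib / MThick / Count  (helper6)

The COUNT, `H⁰` and STABILISATION steps of the multi-component thick core.

* `TgtFamily C W` : a family `W a b` of finite dimensional `K`-subspaces satisfying Riemann's
  inequality whose symbol images lie in the targets `C.T t a b`; in the stable range the symbol
  images are then EQUAL to the targets (`symImage_eq`), target elements lift (`exists_lift`) and
  some `h ∈ W a b ∩ O` has `red_{i₀} h = 1` (`exists_red_eq_one`);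
* `C.tgtFamily_𝓛`, `C.tgtFamily_𝓔` : the base family and every Kummer family of a multi-unit are
  such families (NO twist is needed: the targets live on single components);
* `C.nondegStatement` : **Export 2**;
* `C.h0_chain`, `C.h0_pow` : the `H⁰`-principle of the base family modulo `I(al t)`, `π^N O`;
* `TgtFamily.stab_chain`, `TgtFamily.stab_pow` : stabilisation modulo `I(al t)`, `π^N O`.
-/
import Fermat.Agent.S45lib.MThick.TgtDim
import Fermat.Agent.S36lib.Thick.Torsion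

set_option autoImplicit false
set_option linter.unusedSectionVars false

noncomputable section

namespace Fermat.Agent.S45lib.MThick

open AlgebraicCurve Module
open Fermat.Agent.LSb.Core (lin2 lin2_nonneg)
open Fermat.Agent.S18lib.Cech (one_mem_rr)
open Fermat.Agent.S36lib.Thick (DVal FiltSys rrFam mem_rrFam)

variable {K : Type*} [Field K] {R : ValuationSubring K}
variable {F : Type*} [Field F] [Algebra K F]
variable {ι : Type*} [Fintype ι] [DecidableEq ι] {Fk : ι → Type*} [∀ i, Field (Fk i)]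
variable [∀ i, Algebra (IsLocalRing.ResidueField R) (Fk i)]

local notation "k" => IsLocalRing.ResidueField R

/-- a family of chart spaces whose symbol images lie in the targets -/
structure TgtFamily {D : MDatum R F ι Fk} {g : ℕ} {gk : ι → ℕ} (C : MCtx D g gk)
    (W : ℕ → ℕ → Submodule K F) : Prop where
  finiteDimensional : ∀ a b, FiniteDimensional K (W a b)
  mono : ∀ {a b a' b' : ℕ}, a ≤ a' → b ≤ b' → W a b ≤ W a' b'
  riemann : ∀ a b : ℕ, (a : ℤ) * D.d₁ + b * D.d₂ + 1 - g ≤ (finrank K (W a b) : ℤ)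
  incl : ∀ a b : ℕ, ∀ t < D.len, C.filtSys.symImage t (W a b) ≤ C.T t a b

namespace MCtx

variable {D : MDatum R F ι Fk} {g : ℕ} {gk : ι → ℕ} (C : MCtx D g gk)

include C

theorem len_pos : 0 < D.len := by
  have h : D.e D.i₀ ≤ ∑ i, D.e i :=
    Finset.single_le_sum (fun _ _ => Nat.zero_le _) (Finset.mem_univ D.i₀)
  have := C.e_pos D.i₀
  rw [MDatum.len, Sched.len]
  omega

/-- **the COUNT step**: equality of the symbol images with the targets in the stable range -/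
theorem symImage_eq_T {W : Submodule K F} [FiniteDimensional K W] {a b : ℕ}
    (hst : C.Stable a b)
    (hriem : (a : ℤ) * D.d₁ + b * D.d₂ + 1 - g ≤ (finrank K W : ℤ))
    (hle : ∀ t < D.len, C.filtSys.symImage t W ≤ C.T t a b) :
    ∀ t < D.len, C.filtSys.symImage t W = C.T t a b := by
  refine C.filtSys.symImage_eq_of_sum_le (C.hasBasis W) (fun t => C.T t a b)
    (fun t _ => C.finiteDimensional_T t a b) hle ?_
  have h1 := C.sum_finrank_T_le hst
  rw [filtSys_N]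
  exact_mod_cast h1.trans hriem

/-- bounded torsion -/
theorem exists_torsion_bound (W₁ W₂ : Submodule K F) [FiniteDimensional K W₁]
    [FiniteDimensional K W₂] :
    ∃ N₀ : ℕ, ∀ x ∈ D.O, ∀ u₁ ∈ W₁, ∀ u₂ ∈ W₂, x = u₁ - u₂ →
      ∃ m₁ ∈ W₁, ∃ m₂ ∈ W₂, m₁ ∈ D.O ∧ m₂ ∈ D.O ∧
        algebraMap K F D.π ^ N₀ * x = m₁ - m₂ := by
  have : FiniteDimensional K (W₁ ⊔ W₂ : Submodule K F) := Submodule.finiteDimensional_sup W₁ W₂
  obtain ⟨N₀, h⟩ := C.filtSys.exists_torsion_bound W₁ W₂ (C.hasBasis (W₁ ⊔ W₂))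
  refine ⟨N₀, fun x hx u₁ hu₁ u₂ hu₂ hxu => ?_⟩
  obtain ⟨m₁, ⟨hm₁, hm₁O⟩, m₂, ⟨hm₂, hm₂O⟩, e⟩ := h x hx u₁ hu₁ u₂ hu₂ hxu
  exact ⟨m₁, hm₁, m₂, hm₂, hm₁O, hm₂O, e⟩

theorem chartDiv_nonneg (i : ι) (a b : ℕ) (v : Place k (Fk i)) : 0 ≤ D.chartDiv i a b v :=
  lin2_nonneg (C.Q₁_nonneg i) (C.Q₂_nonneg i) (Int.natCast_nonneg a) (Int.natCast_nonneg b) v

/-- the constants lie in the level zero targets -/
theorem const_mem_rrFam_zero (a b : ℕ) (α : k) :
    algebraMap k (Fk (D.sg 0)) α ∈ rrFam (C.Ad 0) (D.Q₁ (D.sg 0)) (D.Q₂ (D.sg 0)) a b := by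
  rw [mem_rrFam, C.Ad_zero, zero_add]
  have h1 : (1 : Fk (D.sg 0)) ∈ riemannRochSpace (lin2 (D.Q₁ (D.sg 0)) (D.Q₂ (D.sg 0)) a b) :=
    one_mem_rr fun v => C.chartDiv_nonneg (D.sg 0) a b v
  have := (riemannRochSpace (lin2 (D.Q₁ (D.sg 0)) (D.Q₂ (D.sg 0)) (a : ℤ) (b : ℤ))).smul_mem α h1
  rwa [Algebra.smul_def, mul_one] at this

/-- the symbol at level zero is the reduction on the base component -/
theorem sy_zero_apply (f : F) : C.sy 0 f (D.sg 0) = D.redF (D.sg 0) f := by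
  rw [C.sy_apply_self, D.al_zero, Pi.zero_apply, DVal.sym_zero_eq, C.W_redF]

omit C in
theorem redF_base_of_sg_zero {f : F} {y : ∀ i, Fk i} (h : D.redF (D.sg 0) f = y (D.sg 0)) :
    D.redF D.i₀ f = y D.i₀ := by
  have key : ∀ i, D.sg 0 = i → D.redF (D.sg 0) f = y (D.sg 0) → D.redF i f = y i := by
    rintro i rfl h; exact h
  exact key D.i₀ D.sg_zero h

end MCtx

namespace TgtFamily

open MCtx

variable {D : MDatum R F ι Fk} {g : ℕ} {gk : ι → ℕ} {C : MCtx D g gk}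
variable {W : ℕ → ℕ → Submodule K F} (hW : TgtFamily C W)

include hW

theorem symImage_eq {a b : ℕ} (hst : C.Stable a b) {t : ℕ} (ht : t < D.len) :
    C.filtSys.symImage t (W a b) = C.T t a b := by
  have := hW.finiteDimensional a b
  exact C.symImage_eq_T hst (hW.riemann a b) (hW.incl a b) t ht

/-- lifting of target elements -/
theorem exists_lift {a b : ℕ} (hst : C.Stable a b) {t : ℕ} (ht : t < D.len)
    {φ : ∀ i, Fk i} (hφ : φ ∈ C.T t a b) : ∃ f ∈ W a b, C.I (D.al t) f ∧ C.sy t f = φ := by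
  rw [← hW.symImage_eq hst ht] at hφ
  exact hφ

/-- lifting of a symbol on the component `sg t` -/
theorem exists_lift_single {a b : ℕ} (hst : C.Stable a b) {t : ℕ} (ht : t < D.len)
    {y : Fk (D.sg t)} (hy : y ∈ rrFam (C.Ad t) (D.Q₁ (D.sg t)) (D.Q₂ (D.sg t)) a b) :
    ∃ f ∈ W a b, C.I (D.al t) f ∧ (C.W (D.sg t)).sym (D.al t (D.sg t)) f = y := by
  obtain ⟨f, hf, hI, hsy⟩ := hW.exists_lift hst ht (C.single_mem_T.2 hy)
  refine ⟨f, hf, hI, ?_⟩
  have := congrFun hsy (D.sg t)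
  rwa [C.sy_apply_self, Pi.single_eq_same] at this

/-- **nondegeneracy**: some `h ∈ W a b ∩ O` has `red_{i₀} h = 1` -/
theorem exists_red_eq_one {a b : ℕ} (hst : C.Stable a b) :
    ∃ h ∈ W a b, h ∈ D.O ∧ D.redF D.i₀ h = 1 := by
  have h1 := C.const_mem_rrFam_zero a b 1
  rw [map_one] at h1
  obtain ⟨h, hhW, hI, hsy⟩ := hW.exists_lift_single hst C.len_pos h1
  rw [D.al_zero] at hI hsy
  refine ⟨h, hhW, (C.I_zero_iff).1 hI, ?_⟩
  rw [Pi.zero_apply, DVal.sym_zero_eq, C.W_redF] at hsy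
  exact redF_base_of_sg_zero (y := fun _ => 1) hsy

/-- a generic two-term splitting along the chain -/
theorem split {a b a' b' : ℕ} (hst : C.Stable (min a a') (min b b')) {t₀ : ℕ}
    (ht₀ : t₀ ≤ D.len) {x : F} (hx : x ∈ W (max a a') (max b b')) (hxc : C.I (D.al t₀) x) :
    ∃ y' ∈ W a b, C.I (D.al t₀) y' ∧ ∃ y'' ∈ W a' b', C.I (D.al t₀) y'' ∧ x = y' + y'' := by
  have s1 : C.Stable a b := hst.mono (min_le_left a a') (min_le_left b b')
  have s2 : C.Stable a' b' := hst.mono (min_le_right a a') (min_le_right b b')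
  have s3 : C.Stable (max a a') (max b b') := s1.mono (le_max_left a a') (le_max_left b b')
  have := hW.finiteDimensional (max a a') (max b b')
  have hsym : ∀ t < C.filtSys.N, C.filtSys.symImage t (W (max a a') (max b b')) ≤
      C.filtSys.symImage t (W a b) ⊔ C.filtSys.symImage t (W a' b') := by
    intro t ht
    rw [filtSys_N] at ht
    rw [hW.symImage_eq s1 ht, hW.symImage_eq s2 ht, hW.symImage_eq s3 ht, C.T_sup_eq ht hst]
  exact C.filtSys.exists_add_of_symImage_le (C.hasBasis _)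
    (hW.mono (le_max_left a a') (le_max_left b b'))
    (hW.mono (le_max_right a a') (le_max_right b b')) hsym (by rw [filtSys_N]; exact ht₀) hx hxc

/-- **stabilisation along the chain** -/
theorem stab_chain {m M : ℕ} (hm₁ : C.Stable m 0) (hm₂ : C.Stable 0 m) (hmM : m ≤ M) {t₀ : ℕ}
    (ht₀ : t₀ ≤ D.len) {x : F} (hx : x ∈ W M M) (hxc : C.I (D.al t₀) x) :
    ∃ y₁ ∈ W M 0, C.I (D.al t₀) y₁ ∧ ∃ y₂ ∈ W 0 M, C.I (D.al t₀) y₂ ∧
      ∃ x' ∈ W m m, C.I (D.al t₀) x' ∧ x = y₁ + y₂ + x' := by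
  -- first split off the second chart
  have e1 : max M 0 = M := max_eq_left (Nat.zero_le M)
  have e2 : max m M = M := max_eq_right hmM
  have e3 : min M 0 = 0 := min_eq_right (Nat.zero_le M)
  have e4 : min m M = m := min_eq_left hmM
  obtain ⟨y', hy', hy'c, y₂, hy₂, hy₂c, hsum⟩ := hW.split (a := M) (b := m) (a' := 0) (b' := M)
    (by rw [e3, e4]; exact hm₂) ht₀ (by rw [e1, e2]; exact hx) hxc
  -- then the first chart
  have e5 : max M m = M := max_eq_left hmM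
  have e6 : max 0 m = m := max_eq_right (Nat.zero_le m)
  have e7 : min M m = m := min_eq_right hmM
  have e8 : min 0 m = 0 := min_eq_left (Nat.zero_le m)
  obtain ⟨y₁, hy₁, hy₁c, x', hx', hx'c, hsum'⟩ := hW.split (a := M) (b := 0) (a' := m) (b' := m)
    (by rw [e7, e8]; exact hm₁) ht₀ (by rw [e5, e6]; exact hy') hy'c
  exact ⟨y₁, hy₁, hy₁c, y₂, hy₂, hy₂c, x', hx', hx'c, by rw [hsum, hsum']; ring⟩

end TgtFamily

namespace MCtx

variable {D : MDatum R F ι Fk} {g : ℕ} {gk : ι → ℕ} (C : MCtx D g gk)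

include C

/-! ### the ideals `π^N O` in valuation form -/

theorem I_pow_iff (N : ℕ) {f : F} :
    C.I (eMul D N) f ↔ ∃ x ∈ D.O, f = algebraMap K F D.π ^ N * x := by
  have key := C.I_mul_π_zpow_iff (α := 0) (f := f * (algebraMap K F D.π ^ N)⁻¹) (N : ℤ)
  have hπ : algebraMap K F D.π ^ N ≠ 0 := pow_ne_zero _ C.πF_ne_zero
  have e1 : f * (algebraMap K F D.π ^ N)⁻¹ * algebraMap K F D.π ^ (N : ℤ) = f := by
    rw [zpow_natCast, mul_assoc, inv_mul_cancel₀ hπ, mul_one]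
  rw [e1, zero_add] at key
  rw [key, I_zero_iff]
  constructor
  · intro h
    exact ⟨_, h, by rw [mul_comm, mul_assoc, inv_mul_cancel₀ hπ, mul_one]⟩
  · rintro ⟨x, hx, rfl⟩
    rwa [mul_comm, ← mul_assoc, inv_mul_cancel₀ hπ, one_mul]

end MCtx

namespace TgtFamily

open MCtx

variable {D : MDatum R F ι Fk} {g : ℕ} {gk : ι → ℕ} {C : MCtx D g gk}
variable {W : ℕ → ℕ → Submodule K F} (hW : TgtFamily C W)

include hW

/-- **stabilisation modulo `π^N O`** -/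
theorem stab_pow {m : ℕ} (hm₁ : C.Stable m 0) (hm₂ : C.Stable 0 m) (N : ℕ) (M : ℕ) (hmM : m ≤ M)
    (x : F) (hx : x ∈ W M M) (hxI : C.I (eMul D N) x) :
    ∃ y₁ ∈ W M 0, C.I (eMul D N) y₁ ∧ ∃ y₂ ∈ W 0 M, C.I (eMul D N) y₂ ∧
        ∃ x' ∈ W m m, C.I (eMul D N) x' ∧ x = y₁ + y₂ + x' := by
  obtain ⟨x₀, hx₀O, rfl⟩ := (C.I_pow_iff N).1 hxI
  have hπ : algebraMap K F D.π ^ N ≠ 0 := pow_ne_zero _ C.πF_ne_zero
  have smulW : ∀ (a b : ℕ) (f : F), f ∈ W a b → algebraMap K F D.π ^ N * f ∈ W a b := by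
    intro a b f hf
    have := (W a b).smul_mem (D.π ^ N) hf
    rwa [Algebra.smul_def, map_pow] at this
  have hx₀W : x₀ ∈ W M M := by
    have := (W M M).smul_mem ((D.π ^ N)⁻¹) hx
    rwa [Algebra.smul_def, map_inv₀, map_pow, ← mul_assoc, inv_mul_cancel₀ hπ, one_mul] at this
  have hx₀c : C.I (D.al 0) x₀ := by rw [D.al_zero, I_zero_iff]; exact hx₀O
  obtain ⟨y₁, hy₁, hy₁c, y₂, hy₂, hy₂c, x', hx', hx'c, hsum⟩ :=
    hW.stab_chain hm₁ hm₂ hmM (t₀ := 0) (Nat.zero_le _) hx₀W hx₀c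
  rw [D.al_zero, I_zero_iff] at hy₁c hy₂c hx'c
  refine ⟨_, smulW _ _ _ hy₁, (C.I_pow_iff N).2 ⟨y₁, hy₁c, rfl⟩, _, smulW _ _ _ hy₂,
    (C.I_pow_iff N).2 ⟨y₂, hy₂c, rfl⟩, _, smulW _ _ _ hx', (C.I_pow_iff N).2 ⟨x', hx'c, rfl⟩, ?_⟩
  rw [hsum]; ring

end TgtFamily

namespace MCtx

variable {D : MDatum R F ι Fk} {g : ℕ} {gk : ι → ℕ} (C : MCtx D g gk)

include C

/-! ### the base family and the Kummer families -/

/-- the base family is a target family -/
theorem tgtFamily_𝓛 : TgtFamily C D.𝓛 :=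
  ⟨C.finiteDimensional, fun ha hb => C.mono ha hb, C.riemann,
    fun a b t _ => C.symImage_𝓛_le t a b⟩

omit C in
theorem IsMultiUnit.mem_O {z : F} {b : ι → k} (hz : IsMultiUnit D z b) : z ∈ D.O := by
  refine MDatum.mem_O.2 fun i => ?_
  by_contra h
  have h0 : D.redF i z = 0 := by
    classical
    rw [MDatum.redF, dif_neg h]
  rw [hz.red i] at h0
  exact hz.b_ne i ((map_eq_zero _).1 h0)

/-- `hⁿ z ∈ 𝓛 (n a) (n b)` for `h ∈ 𝓔 a b` -/
theorem kummer_pow_mem {n : ℕ} (hn : 0 < n) {z : F} (E : KummerFamily D g n z) {a b : ℕ} {h : F}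
    (hh : h ∈ E.𝓔 a b) : h ^ n * z ∈ D.𝓛 (n * a) (n * b) := by
  have hf := E.mixed_mem hh hh
  have hpow : h * h ^ (n - 1) = h ^ n := by
    rw [← pow_succ', Nat.sub_add_cancel hn]
  rw [hpow] at hf
  have e : ∀ a : ℕ, a + (n - 1) * a = n * a := by
    intro a
    obtain ⟨m, rfl⟩ : ∃ m, n = m + 1 := ⟨n - 1, by omega⟩
    rw [Nat.add_sub_cancel]; ring
  rwa [e, e] at hf

/-- every Kummer family of a multi-unit is a target family -/
theorem tgtFamily_𝓔 {n : ℕ} (hn : 0 < n) {z : F} (E : KummerFamily D g n z) {b : ι → k}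
    (hz : IsMultiUnit D z b) : TgtFamily C E.𝓔 := by
  refine ⟨E.finiteDimensional, fun ha hb => E.mono ha hb, E.riemann, fun a b' t _ => ?_⟩
  rintro φ ⟨f, hf, hc, rfl⟩
  rw [filtSys_𝔠, mem_chain] at hc
  rw [filtSys_sy, sy, C.single_mem_T]
  refine C.sym_mem_of_kummer hn (hz.b_ne (D.sg t)) (IsMultiUnit.mem_O hz) (hz.red (D.sg t)) ?_ hc
  exact C.pow_mem_𝓛 (C.kummer_pow_mem hn E hf) _

/-- **Export 2 of the multi-component thick core.** -/
theorem nondegStatement : NondegStatement D g := by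
  intro n hn z E b hz
  have hn0 : 0 < n := by
    rcases Nat.eq_zero_or_pos n with rfl | h
    · exact absurd (by simp) hn
    · exact h
  obtain ⟨m₀, hm₀⟩ := C.exists_stable
  exact ⟨m₀, fun a b' hab => (C.tgtFamily_𝓔 hn0 E hz).exists_red_eq_one (hm₀ a b' hab)⟩

/-! ### the `H⁰`-principle of the base family -/

theorem h0_const (j : ℕ) (φ : ∀ i, Fk i) (h' : φ ∈ C.T 0 j 0) (h'' : φ ∈ C.T 0 0 j) :
    ∃ a : R, φ = C.filtSys.sy 0 (algebraMap K F (a : K)) := by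
  have h := C.T_inf_le 0 j 0 0 j ⟨h', h''⟩
  rw [Nat.min_zero, Nat.zero_min] at h
  obtain ⟨α, rfl⟩ := C.T_zero_zero_zero h
  obtain ⟨a, rfl⟩ := IsLocalRing.residue_surjective α
  refine ⟨a, ?_⟩
  rw [filtSys_sy, sy, D.al_zero, Pi.zero_apply, DVal.sym_zero_eq, C.W_redF, C.redF_algebraMap]

theorem h0_zero (j : ℕ) (t : ℕ) (h0 : 0 < t) (ht : t < D.len) (φ : ∀ i, Fk i)
    (h' : φ ∈ C.T t j 0) (h'' : φ ∈ C.T t 0 j) : φ = 0 := by
  have h := C.T_inf_le t j 0 0 j ⟨h', h''⟩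
  rw [Nat.min_zero, Nat.zero_min, C.T_pos_zero_zero h0 ht] at h
  exact (Submodule.mem_bot _).1 h

/-- **the `H⁰`-principle modulo `I(al t)`** -/
theorem h0_chain {t : ℕ} (ht : t ≤ D.len) (j : ℕ) (y₁ : F) (h₁ : y₁ ∈ D.𝓛 j 0)
    (h₁O : y₁ ∈ D.O) (y₂ : F) (h₂ : y₂ ∈ D.𝓛 0 j) (h₂O : y₂ ∈ D.O)
    (hd : C.I (D.al t) (y₁ - y₂)) : ∃ a : R, C.I (D.al t) (y₁ - algebraMap K F (a : K)) := by
  exact C.filtSys.exists_const_sub_mem (C.one_mem_𝓛 j 0) (C.one_mem_𝓛 0 j)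
    (fun t => C.T t j 0) (fun t => C.T t 0 j)
    (fun t _ => C.symImage_𝓛_le t j 0) (fun t _ => C.symImage_𝓛_le t 0 j)
    (C.h0_const j) (C.h0_zero j) t (by rw [filtSys_N]; exact ht) y₁ h₁ h₁O y₂ h₂ h₂O hd

/-- **the `H⁰`-principle modulo `π^N O`** -/
theorem h0_pow (N : ℕ) (j : ℕ) (y₁ : F) (h₁ : y₁ ∈ D.𝓛 j 0) (h₁O : y₁ ∈ D.O) (y₂ : F)
    (h₂ : y₂ ∈ D.𝓛 0 j) (h₂O : y₂ ∈ D.O) (hd : C.I (eMul D N) (y₁ - y₂)) :
    ∃ a : R, C.I (eMul D N) (y₁ - algebraMap K F (a : K)) := by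
  rw [C.I_pow_iff N] at hd
  obtain ⟨a, ha⟩ := C.filtSys.exists_const_sub_eq_pow_mul (C.one_mem_𝓛 j 0) (C.one_mem_𝓛 0 j)
    (fun t => C.T t j 0) (fun t => C.T t 0 j)
    (fun t _ => C.symImage_𝓛_le t j 0) (fun t _ => C.symImage_𝓛_le t 0 j)
    (C.h0_const j) (C.h0_zero j) N y₁ h₁ h₁O y₂ h₂ h₂O hd
  exact ⟨a, (C.I_pow_iff N).2 ha⟩

end MCtx

end Fermat.Agent.S45lib.MThick
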