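/-
S45lib / MThick / Doubling  (helper6)

The NEWTON / DOUBLING step of the multi-component thick Čech argument, generic in a pair of
valuation ideals `𝔞 = I(α) ⊇ 𝔞' = I(α') ⊇ 𝔞²`  (`1 ≤ α ≤ α' ≤ 2 α` componentwise).

`Good E lam m α` : chart `n`-th roots `t₁ ∈ 𝓔 m 0`, `t₂ ∈ 𝓔 0 m` of `z⁻¹` (up to a constant) with
the reference reductions `lam` which agree modulo `I(α)`.

`doubling` : given the `H⁰`-principle of the base family modulo `𝔞` and the stabilisation of the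
Kummer family modulo `𝔞'`, `Good α → Good α'`.
-/
import Fermat.Agent.S45lib.MThick.Chain
import Fermat.Agent.S36lib.Thick.Doubling

set_option autoImplicit false
set_option linter.unusedSectionVars false

noncomputable section

namespace Fermat.Agent.S45lib.MThick

open AlgebraicCurve Module
open Fermat.Agent.S18lib.Cech (one_sub_pow_expand)
open Fermat.Agent.S36lib.Thick (DVal newton_step)

variable {K : Type*} [Field K] {R : ValuationSubring K}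
variable {F : Type*} [Field F] [Algebra K F]
variable {ι : Type*} [Fintype ι] [DecidableEq ι] {Fk : ι → Type*} [∀ i, Field (Fk i)]
variable [∀ i, Algebra (IsLocalRing.ResidueField R) (Fk i)]

local notation "k" => IsLocalRing.ResidueField R

theorem isUnit_of_residue_ne_zero_aux {a : R} (h : IsLocalRing.residue R a ≠ 0) : IsUnit a := by
  by_contra hu
  exact h ((IsLocalRing.residue_eq_zero_iff a).mpr ((IsLocalRing.mem_maximalIdeal a).mpr hu))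

namespace MCtx

variable {D : MDatum R F ι Fk} {g : ℕ} {gk : ι → ℕ} (C : MCtx D g gk)

/-- the data of the doubling argument -/
def Good {n : ℕ} {z : F} (E : KummerFamily D g n z) (lam : ι → k) (m : ℕ) (α : ι → ℤ) : Prop :=
  ∃ t₁ ∈ E.𝓔 m 0, ∃ t₂ ∈ E.𝓔 0 m, IsRef D lam t₁ ∧ IsRef D lam t₂ ∧ C.I α (t₁ - t₂)

include C

theorem isRef_add {lam : ι → k} {α : ι → ℤ} (hα : ∀ i, 1 ≤ α i) {t x : F}
    (ht : IsRef D lam t) (hx : C.I α x) : IsRef D lam (t + x) := by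
  obtain ⟨htO, hr⟩ := ht
  have hxO : x ∈ D.O := hx.mem_O fun i => by have := hα i; simp only [Pi.zero_apply]; omega
  refine ⟨D.O.add_mem htO hxO, fun i => ?_⟩
  rw [← hr i, ← C.W_redF, ← C.W_redF]
  exact (C.W i).redF_add_of_ge (hα i) (MDatum.mem_O.1 htO i) (hx i)

theorem isRef_sub {lam : ι → k} {α : ι → ℤ} (hα : ∀ i, 1 ≤ α i) {t x : F}
    (ht : IsRef D lam t) (hx : C.I α x) : IsRef D lam (t - x) := by
  rw [sub_eq_add_neg]; exact C.isRef_add hα ht hx.neg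

/-- two reference units agree modulo `I(1, …, 1)` -/
theorem isRef_sub_isRef {lam : ι → k} {t₁ t₂ : F} (h₁ : IsRef D lam t₁) (h₂ : IsRef D lam t₂) :
    C.I (fun _ => 1) (t₁ - t₂) := by
  intro i
  have a1 := MDatum.mem_O.1 h₁.1 i
  have b1 := MDatum.mem_O.1 h₂.1 i
  have : (C.W i).Ge (0 + 1) (t₁ - t₂) := (DVal.ge_succ_iff).2
    ⟨((C.W i).ge_zero_iff).2 ((D.V i).O.sub_mem a1 b1), by
      rw [DVal.sym_zero_eq, (C.W i).redF_sub a1 b1, C.W_redF, C.W_redF, h₁.2 i, h₂.2 i, sub_self]⟩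
  simpa using this

/-- an element all of whose reductions are nonzero is a unit of `O` -/
theorem inv_mem_O {y : F} (h : ∀ i, D.redF i y ≠ 0) : y⁻¹ ∈ D.O :=
  MDatum.mem_O.2 fun i => (C.W i).inv_mem_of_redF_ne_zero (h i)

omit C in
theorem isMultiUnit_mem_O {z : F} {b : ι → k} (hz : IsMultiUnit D z b) : z ∈ D.O := by
  refine MDatum.mem_O.2 fun i => ?_
  by_contra h
  have h0 : D.redF i z = 0 := by
    classical
    rw [MDatum.redF, dif_neg h]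
  rw [hz.red i] at h0
  exact hz.b_ne i ((map_eq_zero _).1 h0)

/-- reduction of `z · Σ t₁^i t₂^(s-i)` for reference units `t₁ t₂` -/
theorem redF_mul_geom_sum {z : F} {b : ι → k} (hz : IsMultiUnit D z b) {lam : ι → k}
    {t₁ t₂ : F} (h₁ : IsRef D lam t₁) (h₂ : IsRef D lam t₂) (s : ℕ) (i : ι) :
    D.redF i (z * ∑ l ∈ Finset.range (s + 1), t₁ ^ l * t₂ ^ (s - l)) =
      algebraMap k (Fk i) (b i * (((s + 1 : ℕ) : k) * lam i ^ s)) := by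
  have hzO := MDatum.mem_O.1 (isMultiUnit_mem_O hz) i
  have h₁O := MDatum.mem_O.1 h₁.1 i
  have h₂O := MDatum.mem_O.1 h₂.1 i
  have hσ : (∑ l ∈ Finset.range (s + 1), t₁ ^ l * t₂ ^ (s - l)) ∈ (D.V i).O :=
    (D.V i).O.sum_mem fun l _ => (D.V i).O.mul_mem _ _ ((D.V i).O.pow_mem h₁O l)
      ((D.V i).O.pow_mem h₂O _)
  have cast : ((s + 1 : ℕ) : Fk i) = algebraMap k (Fk i) ((s + 1 : ℕ) : k) := by simp
  have hg := (C.W i).redF_geom_sum h₁O h₂O (h₁.2 i) (h₂.2 i) s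
  rw [C.redF_mul hzO hσ, hz.red i, ← C.W_redF i (∑ l ∈ Finset.range (s + 1), t₁ ^ l * t₂ ^ (s - l)),
    hg, cast, map_mul, map_mul, map_pow]

/-- `z · Σ t₁^i t₂^(s-i)` is a unit of `O` for reference units `t₁ t₂` -/
theorem mul_geom_sum_inv_mem {z : F} {b : ι → k} (hz : IsMultiUnit D z b) {lam : ι → k}
    (hlam : ∀ i, lam i ≠ 0) {t₁ t₂ : F} (h₁ : IsRef D lam t₁) (h₂ : IsRef D lam t₂) (s : ℕ)
    (hs : ((s + 1 : ℕ) : k) ≠ 0) :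
    (z * ∑ l ∈ Finset.range (s + 1), t₁ ^ l * t₂ ^ (s - l))⁻¹ ∈ D.O := by
  refine C.inv_mem_O fun i => ?_
  rw [C.redF_mul_geom_sum hz h₁ h₂ s i]
  exact (map_ne_zero _).2 (mul_ne_zero (hz.b_ne i) (mul_ne_zero hs (pow_ne_zero _ (hlam i))))

/-- **The doubling step.** -/
theorem doubling {n : ℕ} (hn : (n : k) ≠ 0) {z : F} (E : KummerFamily D g n z) {b : ι → k}
    (hz : IsMultiUnit D z b) {lam : ι → k} (hlam : ∀ i, lam i ≠ 0) (hbase : lam D.i₀ = 1)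
    {α α' : ι → ℤ} (hα : ∀ i, 1 ≤ α i) (hαα' : ∀ i, α i ≤ α' i) (hα' : ∀ i, α' i ≤ 2 * α i)
    (m : ℕ)
    (H0 : ∀ j : ℕ, ∀ y₁ ∈ D.𝓛 j 0, y₁ ∈ D.O → ∀ y₂ ∈ D.𝓛 0 j, y₂ ∈ D.O → C.I α (y₁ - y₂) →
      ∃ a : R, C.I α (y₁ - algebraMap K F (a : K)))
    (STAB : ∀ M : ℕ, m ≤ M → ∀ x ∈ E.𝓔 M M, C.I α' x →
      ∃ y₁ ∈ E.𝓔 M 0, C.I α' y₁ ∧ ∃ y₂ ∈ E.𝓔 0 M, C.I α' y₂ ∧
        ∃ x' ∈ E.𝓔 m m, C.I α' x' ∧ x = y₁ + y₂ + x')
    (hG : C.Good E lam m α) : C.Good E lam m α' := by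
  classical
  obtain ⟨t₁, ht₁E, t₂, ht₂E, hr₁, hr₂, hdiff⟩ := hG
  obtain ⟨s, rfl⟩ : ∃ s, n = s + 1 := by
    rcases n with _ | s
    · exact absurd (by simp) hn
    · exact ⟨s, rfl⟩
  have hα0 : (0 : ι → ℤ) ≤ α := fun i => by have := hα i; simp only [Pi.zero_apply]; omega
  have hα'1 : ∀ i, 1 ≤ α' i := fun i => (hα i).trans (hαα' i)
  have hzO : z ∈ D.O := isMultiUnit_mem_O hz
  have ht₁O : t₁ ∈ D.O := hr₁.1
  have ht₂O : t₂ ∈ D.O := hr₂.1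
  set j : ℕ := m + s * m with hj
  -- the functions `β_i = t_i^n z`
  have hβ₁𝓛 : t₁ ^ (s + 1) * z ∈ D.𝓛 j 0 := by
    have h := E.mixed_mem ht₁E ht₁E
    rwa [Nat.add_sub_cancel, ← pow_succ', Nat.mul_zero, Nat.add_zero] at h
  have hβ₂𝓛 : t₂ ^ (s + 1) * z ∈ D.𝓛 0 j := by
    have h := E.mixed_mem ht₂E ht₂E
    rwa [Nat.add_sub_cancel, ← pow_succ', Nat.mul_zero, Nat.add_zero] at h
  set β₁ := t₁ ^ (s + 1) * z with hβ₁
  set β₂ := t₂ ^ (s + 1) * z with hβ₂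
  have hβ₁O : β₁ ∈ D.O := D.O.mul_mem (D.O.pow_mem ht₁O _) hzO
  have hβ₂O : β₂ ∈ D.O := D.O.mul_mem (D.O.pow_mem ht₂O _) hzO
  -- `β₁ - β₂ ∈ 𝔞`
  set σ₀ := ∑ i ∈ Finset.range (s + 1), t₁ ^ i * t₂ ^ (s - i) with hσ₀
  have hσ₀O : σ₀ ∈ D.O :=
    D.O.sum_mem fun i _ => D.O.mul_mem (D.O.pow_mem ht₁O i) (D.O.pow_mem ht₂O _)
  have hgeom : σ₀ * (t₁ - t₂) = t₁ ^ (s + 1) - t₂ ^ (s + 1) := by
    have := (Commute.all t₁ t₂).geom_sum₂_mul (s + 1)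
    simpa using this
  have hββ : C.I α (β₁ - β₂) := by
    have e : β₁ - β₂ = (t₁ - t₂) * (σ₀ * z) := by
      rw [hβ₁, hβ₂, ← sub_mul, ← hgeom]; ring
    rw [e]
    exact hdiff.mul_mem_O (D.O.mul_mem hσ₀O hzO)
  -- the constant
  obtain ⟨a₀, hw₁⟩ := H0 j β₁ hβ₁𝓛 hβ₁O β₂ hβ₂𝓛 hβ₂O hββ
  set a₀F := algebraMap K F (a₀ : K) with ha₀F
  set w₁ := β₁ - a₀F with hw₁def
  set w₂ := β₂ - a₀F with hw₂def
  have hw₂ : C.I α w₂ := by
    have e : w₂ = w₁ - (β₁ - β₂) := by rw [hw₁def, hw₂def]; ring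
    rw [e]; exact hw₁.sub hββ
  have hw₁O : w₁ ∈ D.O := hw₁.mem_O hα0
  have hw₂O : w₂ ∈ D.O := hw₂.mem_O hα0
  have ha₀O : a₀F ∈ D.O := algebraMap_mem_O a₀
  -- `a₀` is a unit
  have hres : IsLocalRing.residue R a₀ = b D.i₀ := by
    have hzi := MDatum.mem_O.1 hzO D.i₀
    have hti := MDatum.mem_O.1 ht₁O D.i₀
    have h1 : D.redF D.i₀ β₁ = algebraMap k (Fk D.i₀) (b D.i₀) := by
      rw [hβ₁, C.redF_mul ((D.V D.i₀).O.pow_mem hti _) hzi, C.redF_pow hti, hr₁.2 D.i₀, hz.red D.i₀,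
        hbase, map_one, one_pow, one_mul]
    have h2 : D.redF D.i₀ β₁ = algebraMap k (Fk D.i₀) (IsLocalRing.residue R a₀) := by
      have e : β₁ = a₀F + w₁ := by rw [hw₁def]; ring
      rw [e, ← C.W_redF, (C.W D.i₀).redF_add_of_ge (hα D.i₀) (MDatum.mem_O.1 ha₀O D.i₀)
        (hw₁ D.i₀), C.W_redF, C.redF_algebraMap]
    rw [h1] at h2
    exact ((algebraMap k (Fk D.i₀)).injective h2).symm
  have ha₀unit : IsUnit a₀ :=
    isUnit_of_residue_ne_zero_aux (by rw [hres]; exact hz.b_ne D.i₀)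
  have hsunit : IsUnit (((s + 1 : ℕ) : R)) := isUnit_of_residue_ne_zero_aux (by
    rw [map_natCast]; exact hn)
  obtain ⟨u, hu⟩ := hsunit.mul ha₀unit
  set d : R := ((u⁻¹ : Rˣ) : R) with hd
  set dF := algebraMap K F (d : K) with hdF
  have hdO : dF ∈ D.O := algebraMap_mem_O d
  have hsad : ((s + 1 : ℕ) : F) * a₀F * dF = 1 := by
    have h1 : (u : R) * d = 1 := by rw [hd]; simp
    have h2 := congrArg (fun x : R => algebraMap K F (x : K)) h1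
    simp only [MulMemClass.coe_mul, OneMemClass.coe_one, map_mul, map_one] at h2
    rw [← h2, hu]
    simp [ha₀F, hdF]
  -- the Newton step on both charts
  have one𝓛 : ∀ a b : ℕ, (1 : F) ∈ D.𝓛 a b := fun a b =>
    C.mono (Nat.zero_le a) (Nat.zero_le b) C.one_mem
  have const𝓛 : ∀ (a b : ℕ) (c : K), algebraMap K F c ∈ D.𝓛 a b := fun a b c => by
    have := (D.𝓛 a b).smul_mem c (one𝓛 a b)
    rwa [Algebra.smul_def, mul_one] at this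
  have smul𝓛 : ∀ (a b : ℕ) (c : K) (f : F), f ∈ D.𝓛 a b → algebraMap K F c * f ∈ D.𝓛 a b :=
    fun a b c f hf => by
      have := (D.𝓛 a b).smul_mem c hf
      rwa [Algebra.smul_def] at this
  have hw₁𝓛 : w₁ ∈ D.𝓛 j 0 := (D.𝓛 j 0).sub_mem hβ₁𝓛 (const𝓛 _ _ _)
  have hw₂𝓛 : w₂ ∈ D.𝓛 0 j := (D.𝓛 0 j).sub_mem hβ₂𝓛 (const𝓛 _ _ _)
  have hone₁ : 1 - dF * w₁ ∈ D.𝓛 j 0 := (D.𝓛 j 0).sub_mem (one𝓛 _ _) (smul𝓛 _ _ _ _ hw₁𝓛)
  have hone₂ : 1 - dF * w₂ ∈ D.𝓛 0 j := (D.𝓛 0 j).sub_mem (one𝓛 _ _) (smul𝓛 _ _ _ _ hw₂𝓛)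
  set t₁' := t₁ * (1 - dF * w₁) with ht₁'
  set t₂' := t₂ * (1 - dF * w₂) with ht₂'
  have ht₁'E : t₁' ∈ E.𝓔 (j + m) 0 := by
    have := E.mul_mem hone₁ ht₁E
    rwa [mul_comm, Nat.add_zero 0] at this
  have ht₂'E : t₂' ∈ E.𝓔 0 (j + m) := by
    have := E.mul_mem hone₂ ht₂E
    rwa [mul_comm, Nat.zero_add 0] at this
  have hr₁' : IsRef D lam t₁' := by
    have e : t₁' = t₁ - w₁ * (t₁ * dF) := by rw [ht₁']; ring
    rw [e]
    exact C.isRef_sub hα hr₁ (hw₁.mul_mem_O (D.O.mul_mem ht₁O hdO))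
  have hr₂' : IsRef D lam t₂' := by
    have e : t₂' = t₂ - w₂ * (t₂ * dF) := by rw [ht₂']; ring
    rw [e]
    exact C.isRef_sub hα hr₂ (hw₂.mul_mem_O (D.O.mul_mem ht₂O hdO))
  have ht₁'O : t₁' ∈ D.O := hr₁'.1
  have ht₂'O : t₂' ∈ D.O := hr₂'.1
  -- `t_i'^n z = a₀ + w_i² ρ_i`
  have newton : ∀ (t w : F), w ∈ D.O → t ^ (s + 1) * z = a₀F + w →
      ∃ ρ ∈ D.O, (t * (1 - dF * w)) ^ (s + 1) * z = a₀F + w ^ 2 * ρ := by
    intro t w hwO htw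
    obtain ⟨p, hp⟩ := one_sub_pow_expand (s + 1) (⟨dF * w, D.O.mul_mem hdO hwO⟩ : D.O)
    have hp' : (1 - dF * w) ^ (s + 1) =
        1 - ((s + 1 : ℕ) : F) * (dF * w) + (dF * w) ^ 2 * (p : F) := by
      have := congrArg (D.O.subtype) hp
      simpa using this
    refine ⟨-(((s + 1 : ℕ) : F) * dF) + (a₀F + w) * dF ^ 2 * (p : F), ?_, ?_⟩
    · refine D.O.add_mem (D.O.neg_mem (D.O.mul_mem (natCast_mem D.O _) hdO)) ?_
      exact D.O.mul_mem (D.O.mul_mem (D.O.add_mem ha₀O hwO) (D.O.pow_mem hdO 2)) p.2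
    · rw [mul_pow, mul_right_comm, htw, hp']
      exact newton_step a₀F w dF (p : F) ((s + 1 : ℕ) : F) hsad
  obtain ⟨ρ₁, hρ₁O, hρ₁⟩ := newton t₁ w₁ hw₁O (by rw [hw₁def]; ring)
  obtain ⟨ρ₂, hρ₂O, hρ₂⟩ := newton t₂ w₂ hw₂O (by rw [hw₂def]; ring)
  -- `t₁' - t₂' ∈ 𝔞'`
  set σ := ∑ i ∈ Finset.range (s + 1), t₁' ^ i * t₂' ^ (s - i) with hσ
  have hgeom' : σ * (t₁' - t₂') = t₁' ^ (s + 1) - t₂' ^ (s + 1) := by
    have := (Commute.all t₁' t₂').geom_sum₂_mul (s + 1)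
    simpa using this
  have hinv : (z * σ)⁻¹ ∈ D.O := C.mul_geom_sum_inv_mem hz hlam hr₁' hr₂' s hn
  have hzσ0 : z * σ ≠ 0 := by
    intro h
    have h1 : D.redF D.i₀ (z * σ) = 0 := by
      rw [h, ← C.W_redF]
      exact (C.W D.i₀).redF_eq_zero_of_ge le_rfl (DVal.Ge.zero _ _)
    rw [C.redF_mul_geom_sum hz hr₁' hr₂' s D.i₀] at h1
    exact mul_ne_zero (hz.b_ne D.i₀) (mul_ne_zero hn (pow_ne_zero _ (hlam D.i₀)))
      ((map_eq_zero _).1 h1)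
  set x' := t₁' - t₂' with hx'
  have hx'I : C.I α' x' := by
    have h1 : (z * σ) * x' = w₁ ^ 2 * ρ₁ - w₂ ^ 2 * ρ₂ := by
      rw [hx', mul_assoc, hgeom', mul_sub, mul_comm z, mul_comm z, hρ₁, hρ₂]; ring
    have h2 : x' = (w₁ ^ 2 * ρ₁ - w₂ ^ 2 * ρ₂) * (z * σ)⁻¹ := by
      rw [← h1, mul_comm (z * σ) x', mul_assoc, mul_inv_cancel₀ hzσ0, mul_one]
    rw [h2]
    have hsq₁ : C.I α' (w₁ ^ 2 * ρ₁) := by
      have := ((hw₁.mul hw₁).mul_mem_O hρ₁O).mono (α' := α')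
        (fun i => by have := hα' i; simp only [Pi.add_apply]; omega)
      rwa [← pow_two] at this
    have hsq₂ : C.I α' (w₂ ^ 2 * ρ₂) := by
      have := ((hw₂.mul hw₂).mul_mem_O hρ₂O).mono (α' := α')
        (fun i => by have := hα' i; simp only [Pi.add_apply]; omega)
      rwa [← pow_two] at this
    exact (hsq₁.sub hsq₂).mul_mem_O hinv
  -- stabilisation
  set M := j + m with hM
  have hmM : m ≤ M := Nat.le_add_left m j
  have hx'E : x' ∈ E.𝓔 M M :=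
    (E.𝓔 M M).sub_mem (E.mono le_rfl (Nat.zero_le _) ht₁'E) (E.mono (Nat.zero_le _) le_rfl ht₂'E)
  obtain ⟨y₁, hy₁E, hy₁I, y₂, hy₂E, hy₂I, x'', hx''E, hx''I, hsum⟩ := STAB M hmM x' hx'E hx'I
  set t₁'' := t₁' - y₁ with ht₁''
  set t₂'' := t₂' + y₂ with ht₂''
  have hdiff'' : t₁'' - t₂'' = x'' := by
    have : x'' = x' - y₁ - y₂ := by rw [hsum]; ring
    rw [this, ht₁'', ht₂'', hx']; ring
  have ht₁''big : t₁'' ∈ E.𝓔 M 0 := (E.𝓔 M 0).sub_mem ht₁'E hy₁E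
  have ht₂''big : t₂'' ∈ E.𝓔 0 M := (E.𝓔 0 M).add_mem ht₂'E hy₂E
  have ht₁''E : t₁'' ∈ E.𝓔 m 0 := by
    have h1 : t₁'' = t₂'' + x'' := by rw [← hdiff'']; ring
    have h2 : t₁'' ∈ E.𝓔 m M := by
      rw [h1]
      exact (E.𝓔 m M).add_mem (E.mono (Nat.zero_le _) le_rfl ht₂''big) (E.mono le_rfl hmM hx''E)
    have := E.inter M 0 m M ⟨ht₁''big, h2⟩
    rwa [min_eq_right hmM, min_eq_left (Nat.zero_le M)] at this
  have ht₂''E : t₂'' ∈ E.𝓔 0 m := by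
    have h1 : t₂'' = t₁'' - x'' := by rw [← hdiff'']; ring
    have h2 : t₂'' ∈ E.𝓔 M m := by
      rw [h1]
      exact (E.𝓔 M m).sub_mem (E.mono le_rfl (Nat.zero_le _) ht₁''big) (E.mono hmM le_rfl hx''E)
    have := E.inter 0 M M m ⟨ht₂''big, h2⟩
    rwa [min_eq_left (Nat.zero_le M), min_eq_right hmM] at this
  refine ⟨t₁'', ht₁''E, t₂'', ht₂''E, C.isRef_sub hα'1 hr₁' hy₁I,
    C.isRef_add hα'1 hr₂' hy₂I, ?_⟩
  rw [hdiff'']; exact hx''I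

end MCtx

end Fermat.Agent.S45lib.MThick
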