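/-
S45lib / MThick / Core  (helper6)

**The multi-component thick Čech core, modulo the START.**  For a multi-component thick datum
satisfying `MCtx`: if every Kummer family of a multi-unit with CONSTANT twist `lam₀` has, in every
stable chart, a section with the reference reductions `lam₀ i / lam₀ i₀` (the START,
`StartStatement`), then `CoreStatement D g` holds: `𝓔 0 0 ≠ 0`.

Proof: start with chart sections `t₁ ∈ 𝓔 m 0`, `t₂ ∈ 𝓔 0 m` with the reference reductions; they
agree modulo `I(1, …, 1) = I(al (card ι))`.  Improve the congruence by the doubling step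
(`MThick/Doubling`): phase 1 goes ONE step of the balanced chain at a time from `al (card ι)` to
`al len = e` (legal since `al t ≤ al (t+1) ≤ 2 · al t` once `al t ≥ 1`), phase 2 along `π^N O`,
`N = 1, 2, 4, …`; finish with the bounded torsion of `H¹`.
-/
import Fermat.Agent.S45lib.MThick.Count
import Fermat.Agent.S45lib.MThick.Doubling

set_option autoImplicit false
set_option linter.unusedSectionVars false

noncomputable section

namespace Fermat.Agent.S45lib.MThick

open AlgebraicCurve Module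
open Fermat.Agent.S36lib.Thick (DVal)

variable {K : Type*} [Field K] {R : ValuationSubring K}
variable {F : Type*} [Field F] [Algebra K F]
variable {ι : Type*} [Fintype ι] [DecidableEq ι] {Fk : ι → Type*} [∀ i, Field (Fk i)]
variable [∀ i, Algebra (IsLocalRing.ResidueField R) (Fk i)]

local notation "k" => IsLocalRing.ResidueField R

namespace MCtx

variable {D : MDatum R F ι Fk} {g : ℕ} {gk : ι → ℕ} (C : MCtx D g gk)

/-- **the START of the deformation**: a Kummer family of a multi-unit with constant twist `lam₀`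
has, in every stable chart, a section with the reference reductions `lam₀ i / lam₀ i₀`. -/
def StartStatement : Prop :=
  ∀ (n : ℕ), (n : k) ≠ 0 → ∀ (z : F) (E : KummerFamily D g n z) (b : ι → k),
    IsMultiUnit D z b → ∀ lam₀ : ι → k, IsTwist D E (fun _ => lam₀) →
    ∀ a b' : ℕ, C.Stable a b' →
      lam₀ D.i₀ ≠ 0 ∧ (∀ i, lam₀ i ≠ 0) ∧
        ∃ t ∈ E.𝓔 a b', IsRef D (fun i => lam₀ i / lam₀ D.i₀) t

include C

/-- **Export 3 of the multi-component thick core, from the START.** -/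
theorem coreStatement_of_start (hstart : C.StartStatement) : CoreStatement D g := by
  intro n hn z E b hz lam₀ hT
  classical
  have hn0 : 0 < n := by
    rcases Nat.eq_zero_or_pos n with rfl | h
    · exact absurd (by simp) hn
    · exact h
  obtain ⟨m, hm⟩ := C.exists_stable
  have hm₁ : C.Stable m 0 := hm m 0 (Or.inl le_rfl)
  have hm₂ : C.Stable 0 m := hm 0 m (Or.inr le_rfl)
  -- the structure of the Kummer family
  have hW : TgtFamily C E.𝓔 := C.tgtFamily_𝓔 hn0 E hz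
  -- the start
  obtain ⟨hl₀, hl, t₁, ht₁E, hr₁⟩ := hstart n hn z E b hz lam₀ hT m 0 hm₁
  obtain ⟨_, _, t₂, ht₂E, hr₂⟩ := hstart n hn z E b hz lam₀ hT 0 m hm₂
  set lam : ι → k := fun i => lam₀ i / lam₀ D.i₀ with hlamdef
  have hlam : ∀ i, lam i ≠ 0 := fun i => div_ne_zero (hl i) hl₀
  have hbase : lam D.i₀ = 1 := div_self hl₀
  have hG1 : C.Good E lam m (D.al (Fintype.card ι)) := by
    rw [C.al_card]
    exact ⟨t₁, ht₁E, t₂, ht₂E, hr₁, hr₂, C.isRef_sub_isRef hr₁ hr₂⟩
  -- phase 1: along the balanced chain, one step at a time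
  have phase1 : ∀ t, Fintype.card ι ≤ t → t ≤ D.len → C.Good E lam m (D.al t) := by
    intro t ht
    induction t, ht using Nat.le_induction with
    | base => intro _; exact hG1
    | succ t ht ih =>
      intro htl
      have ih' := ih (by omega)
      refine C.doubling hn E hz hlam hbase (α := D.al t) (α' := D.al (t + 1))
        (fun i => C.one_le_al ht i) (fun i => D.al_le_succ t i) (fun i => ?_) m
        (C.h0_chain (by omega)) (fun M hmM x hx hxI => hW.stab_chain hm₁ hm₂ hmM htl hx hxI) ih'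
      have h1 := C.one_le_al ht i
      by_cases hi : i = D.sg t
      · subst hi
        rw [D.al_succ_self]; omega
      · rw [D.al_succ_of_ne t hi]; omega
  -- phase 2: along the powers of `π`
  have phase2 : ∀ L : ℕ, C.Good E lam m (eMul D ((2 ^ L : ℕ) : ℤ)) := by
    intro L
    induction L with
    | zero =>
      have h := phase1 D.len C.card_le_len le_rfl
      rw [C.al_len] at h
      have e : eMul D ((2 ^ 0 : ℕ) : ℤ) = fun i => (D.e i : ℤ) := by
        funext i; simp [eMul_apply]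
      rw [e]; exact h
    | succ L ih =>
      have h1 : (1 : ℤ) ≤ ((2 ^ L : ℕ) : ℤ) := by exact_mod_cast Nat.one_le_two_pow
      have e2 : ((2 ^ (L + 1) : ℕ) : ℤ) = 2 * ((2 ^ L : ℕ) : ℤ) := by push_cast; ring
      have he' : ∀ i, (1 : ℤ) ≤ (D.e i : ℤ) := fun i => by exact_mod_cast C.e_pos i
      refine C.doubling hn E hz hlam hbase (α := eMul D ((2 ^ L : ℕ) : ℤ))
        (α' := eMul D ((2 ^ (L + 1) : ℕ) : ℤ)) (fun i => ?_) (fun i => ?_) (fun i => ?_) m
        (C.h0_pow (2 ^ L)) (hW.stab_pow hm₁ hm₂ (2 ^ (L + 1))) ih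
      · rw [eMul_apply]; have := he' i; nlinarith
      · rw [eMul_apply, eMul_apply, e2]; have := he' i; nlinarith
      · rw [eMul_apply, eMul_apply, e2]; apply le_of_eq; ring
  -- the torsion bound
  have := E.finiteDimensional m 0
  have := E.finiteDimensional 0 m
  obtain ⟨N₀, hN₀⟩ := C.exists_torsion_bound (E.𝓔 m 0) (E.𝓔 0 m)
  set N := 2 ^ (N₀ + 1) with hN
  have hNN₀ : N₀ < N := (Nat.lt_succ_self N₀).trans Nat.lt_two_pow_self
  obtain ⟨d, hd⟩ : ∃ d, N = N₀ + d := ⟨N - N₀, by omega⟩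
  have hd1 : 1 ≤ d := by omega
  obtain ⟨τ₁, hτ₁E, τ₂, hτ₂E, hρ₁, hρ₂, hdiff⟩ := phase2 (N₀ + 1)
  rw [← hN] at hdiff
  obtain ⟨x, hxO, hx⟩ := (C.I_pow_iff N).1 hdiff
  set πF := algebraMap K F D.π with hπF
  have hπN : πF ^ N ≠ 0 := pow_ne_zero _ C.πF_ne_zero
  have hu₁ : (πF ^ N)⁻¹ * τ₁ ∈ E.𝓔 m 0 := by
    have := (E.𝓔 m 0).smul_mem ((D.π ^ N)⁻¹) hτ₁E
    rwa [Algebra.smul_def, map_inv₀, map_pow] at this
  have hu₂ : (πF ^ N)⁻¹ * τ₂ ∈ E.𝓔 0 m := by
    have := (E.𝓔 0 m).smul_mem ((D.π ^ N)⁻¹) hτ₂E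
    rwa [Algebra.smul_def, map_inv₀, map_pow] at this
  have hxu : x = (πF ^ N)⁻¹ * τ₁ - (πF ^ N)⁻¹ * τ₂ := by
    rw [← mul_sub, hx, ← mul_assoc, inv_mul_cancel₀ hπN, one_mul]
  obtain ⟨m₁, hm₁E, m₂, hm₂E, hm₁O, hm₂O, hmm⟩ := hN₀ x hxO _ hu₁ _ hu₂ hxu
  -- the common element
  have hkey : τ₁ - πF ^ d * m₁ = τ₂ - πF ^ d * m₂ := by
    have h1 : τ₁ - τ₂ = πF ^ d * (m₁ - m₂) := by
      rw [hx, hd, pow_add, ← hmm]; ring
    linear_combination h1
  set t := τ₁ - πF ^ d * m₁ with ht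
  have smulE : ∀ (a b : ℕ) (f : F), f ∈ E.𝓔 a b → πF ^ d * f ∈ E.𝓔 a b := by
    intro a b f hf
    have := (E.𝓔 a b).smul_mem (D.π ^ d) hf
    rwa [Algebra.smul_def, map_pow] at this
  have ht₁ : t ∈ E.𝓔 m 0 := (E.𝓔 m 0).sub_mem hτ₁E (smulE _ _ _ hm₁E)
  have ht₂ : t ∈ E.𝓔 0 m := by
    rw [hkey]; exact (E.𝓔 0 m).sub_mem hτ₂E (smulE _ _ _ hm₂E)
  have ht00 : t ∈ E.𝓔 0 0 := by
    have := E.inter m 0 0 m ⟨ht₁, ht₂⟩
    rwa [Nat.min_zero, Nat.zero_min] at this
  have htref : IsRef D lam t := by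
    refine C.isRef_sub (α := eMul D (d : ℤ)) (fun i => ?_) hρ₁ ((C.I_pow_iff d).2 ⟨m₁, hm₁O, rfl⟩)
    rw [eMul_apply]
    have he' : (1 : ℤ) ≤ (D.e i : ℤ) := by exact_mod_cast C.e_pos i
    have hd1' : (1 : ℤ) ≤ (d : ℤ) := by exact_mod_cast hd1
    nlinarith
  refine ⟨t, ?_, ht00⟩
  intro h0
  have h1 : D.redF D.i₀ t = algebraMap k (Fk D.i₀) (lam D.i₀) := htref.2 D.i₀
  rw [hbase, map_one, h0, ← C.W_redF,
    (C.W D.i₀).redF_eq_zero_of_ge le_rfl (DVal.Ge.zero _ _)] at h1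
  exact zero_ne_one h1

end MCtx

end Fermat.Agent.S45lib.MThick
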