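/-
S45lib / MThick / Main  (helper6)

**THE MULTI-COMPONENT THICK ČECH CORE.**  For a multi-component thick datum satisfying `MCtx`:
* `MCtx.existsTwistStatement` : Export 1 (helper3's `G.existsTwistStatement_of_mctx`);
* `MCtx.nondegStatement`      : Export 2 (`MThick/Count.lean`);
* `MCtx.coreStatement`        : Export 3: a Kummer multi-unit whose twist is constant has
  `𝓔 0 0 ≠ 0` (it is, up to a constant, an `n`-th power).

This file supplies the START (`MCtx.startStatement`) of `MThick/Core.lean` from helper3's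
`G.start_step` (one step of the start, given the lifting along the first layer `G.LayerLift`): the
first `card ι` steps of the balanced schedule raise every component exactly once, and at the step
`t < card ι` (component `σ = sg t`, `al t σ = 0`, `al t ≤ 1`) the target is
`L(a Q₁ + b Q₂ − (Σ_{j ∈ S_t} w σ j) · Σ_c x_σ c)`, `S_t = {j | al t j = 1}`, so the lifting along
the first layer IS the COUNT-equality `TgtFamily.exists_lift_single`.
-/
import Fermat.Agent.S45lib.MThick.Core
import Fermat.Agent.S45lib.G.Start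

set_option autoImplicit false
set_option linter.unusedSectionVars false

noncomputable section

namespace Fermat.Agent.S45lib.MThick

open AlgebraicCurve Module
open Fermat.Agent.S18lib.Cech (mem_rr_of_ne)
open Fermat.Agent.S36lib.Thick (DVal rrFam mem_rrFam)

variable {K : Type*} [Field K] {R : ValuationSubring K}
variable {F : Type*} [Field F] [Algebra K F]
variable {ι : Type*} [Fintype ι] [DecidableEq ι] {Fk : ι → Type*} [∀ i, Field (Fk i)]
variable [∀ i, Algebra (IsLocalRing.ResidueField R) (Fk i)]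

local notation "k" => IsLocalRing.ResidueField R

namespace MDatum

/-- the components already raised before the step `t` of the first round -/
def done (D : MDatum R F ι Fk) (t : ℕ) : Finset ι := Finset.univ.filter fun j => 1 ≤ D.al t j

theorem mem_done {D : MDatum R F ι Fk} {t : ℕ} {j : ι} : j ∈ D.done t ↔ 1 ≤ D.al t j := by
  rw [done, Finset.mem_filter]
  exact ⟨fun h => h.2, fun h => ⟨Finset.mem_univ j, h⟩⟩

end MDatum

namespace MCtx

variable {D : MDatum R F ι Fk} {g : ℕ} {gk : ι → ℕ} (C : MCtx D g gk)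

include C

theorem base_mem_done {t : ℕ} (ht : 1 ≤ t) : D.i₀ ∈ D.done t := by
  rw [MDatum.mem_done]
  simp only [MDatum.al]
  exact_mod_cast Sched.one_le_alpha_base (e := D.e) D.i₀ ht

theorem sg_not_mem_done {t : ℕ} (ht : t < Fintype.card ι) : D.sg t ∉ D.done t := by
  rw [MDatum.mem_done, C.al_sg_eq_zero ht]
  norm_num

theorem done_succ_subset (t : ℕ) : D.done (t + 1) ⊆ insert (D.sg t) (D.done t) := by
  intro j hj
  rw [MDatum.mem_done] at hj
  by_cases hjs : j = D.sg t
  · rw [hjs]; exact Finset.mem_insert_self _ _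
  · rw [D.al_succ_of_ne t hjs] at hj
    exact Finset.mem_insert_of_mem (MDatum.mem_done.2 hj)

/-- the degree defect of a step of the first round -/
theorem mu_first_round {t : ℕ} (ht : t < Fintype.card ι) :
    D.mu t = (D.e (D.sg t) : ℤ) * ∑ j ∈ D.done t, (D.w (D.sg t) j : ℤ) := by
  rw [← C.sum_bet t, Finset.mul_sum, MDatum.done, Finset.sum_filter]
  refine Finset.sum_congr rfl fun j _ => ?_
  rw [C.bet_cast, C.al_sg_eq_zero ht, zero_mul, sub_zero]
  have h1 := C.al_le_one ht.le j
  have h0 : 0 ≤ D.al t j := D.al_nonneg t j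
  by_cases hj : 1 ≤ D.al t j
  · rw [if_pos hj]
    have : D.al t j = 1 := le_antisymm h1 hj
    rw [this, mul_one]
  · rw [if_neg hj]
    have : D.al t j = 0 := by omega
    rw [this, mul_zero, zero_mul]

/-- **the lifting along the first layer** is the COUNT-equality at the step `t < card ι` -/
theorem layerLift {n : ℕ} (hn : 0 < n) {z : F} (E : KummerFamily D g n z) {b : ι → k}
    (hz : IsMultiUnit D z b) {a a' : ℕ} (hst : C.Stable a a') {t : ℕ}
    (ht : t < Fintype.card ι) : G.LayerLift D E a a' (D.done t) (D.sg t) := by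
  intro ψ hψ hord
  have hW : TgtFamily C E.𝓔 := C.tgtFamily_𝓔 hn E hz
  have htl : t < D.len := lt_of_lt_of_le ht C.card_le_len
  have hal0 : D.al t (D.sg t) = 0 := C.al_sg_eq_zero ht
  -- the symbol lies in the target
  have hy : ψ ∈ rrFam (C.Ad t) (D.Q₁ (D.sg t)) (D.Q₂ (D.sg t)) a a' := by
    rcases eq_or_ne ψ 0 with h0 | h0
    · rw [h0]; exact Submodule.zero_mem _
    refine C.mem_rrFam_of_bounds (fun v => ?_) (fun c => ?_)
    · rw [hal0, zero_mul, add_zero]
      have h1 := (mem_rr_of_ne h0).1 hψ v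
      have he : (0 : ℤ) ≤ D.e (D.sg t) := Int.natCast_nonneg _
      nlinarith
    · rw [hal0, zero_mul, add_zero, C.mu_first_round ht]
      rcases hord c with h | h
      · exact absurd h h0
      · exact mul_le_mul_of_nonneg_left h (Int.natCast_nonneg _)
  -- lift
  obtain ⟨h, hhE, hhI, hhsy⟩ := hW.exists_lift_single hst htl hy
  refine ⟨h, hhE, hhI.mem_O (D.al_nonneg t), fun j hj => ?_, ?_⟩
  · rw [← C.W_redF]
    exact (C.W j).redF_eq_zero_of_ge (MDatum.mem_done.1 hj) (hhI j)
  · rw [hal0, DVal.sym_zero_eq, C.W_redF] at hhsy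
    exact hhsy

/-- **the START** (`MThick/Core.lean`) -/
theorem startStatement : C.StartStatement := by
  intro n hn z E b hz lam₀ hT a a' hst
  classical
  have hn0 : n ≠ 0 := by rintro rfl; exact hn (by simp)
  have hnpos : 0 < n := Nat.pos_of_ne_zero hn0
  have hW : TgtFamily C E.𝓔 := C.tgtFamily_𝓔 hnpos E hz
  have hdeg : ∀ i c, (D.x i c).deg = 1 := fun i _ => (C.hF i).deg_eq_one _
  -- a nondegenerate function
  obtain ⟨t₀, ht₀E, ht₀O, ht₀⟩ := hW.exists_red_eq_one hst
  have hone : ∃ a a' : ℕ, ∃ f ∈ E.𝓔 a a', f ∈ D.O ∧ D.redF D.i₀ f = 1 :=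
    ⟨a, a', t₀, ht₀E, ht₀O, ht₀⟩
  have c₀ : Fin D.s := ⟨0, C.s_pos⟩
  have hlam : lam₀ D.i₀ ≠ 0 := by
    obtain ⟨α, hα⟩ := hT a a' t₀ ht₀E ht₀O c₀
    have h1 := hα D.i₀
    rw [ht₀] at h1
    have e : lam₀ D.i₀ * α = 1 := h1.unique Fermat.Agent.LSb.hasValueAt_one
    intro h0
    rw [h0, zero_mul] at e
    exact zero_ne_one e
  have hpow : ∀ i, b i * (lam₀ i / lam₀ D.i₀) ^ n = b D.i₀ := fun i =>
    G.twist_pow_n_of_exists_one hdeg C.glue hn0 hz hT hone c₀ i
  have hlam' : ∀ i, lam₀ i ≠ 0 := by
    intro i h0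
    have := hpow i
    rw [h0, zero_div, zero_pow hn0, mul_zero] at this
    exact hz.b_ne D.i₀ this.symm
  refine ⟨hlam, hlam', ?_⟩
  -- the induction along the first round
  have hcard : 1 ≤ Fintype.card ι := Fintype.card_pos_iff.2 ⟨D.i₀⟩
  have key : ∀ t, 1 ≤ t → t ≤ Fintype.card ι → ∃ τ ∈ E.𝓔 a a', τ ∈ D.O ∧
      ∀ j ∈ D.done t, D.redF j τ = algebraMap k (Fk j) (lam₀ j / lam₀ D.i₀) := by
    intro t ht1
    induction t, ht1 using Nat.le_induction with
    | base =>
      intro _
      refine ⟨t₀, ht₀E, ht₀O, fun j hj => ?_⟩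
      have hj' : j = D.i₀ := by
        by_contra hne
        rw [MDatum.mem_done] at hj
        have h1 : D.al (0 + 1) j = D.al 0 j :=
          D.al_succ_of_ne 0 (by rw [D.sg_zero]; exact hne)
        rw [zero_add] at h1
        rw [h1, D.al_zero] at hj
        simp at hj
      subst hj'
      rw [ht₀, div_self hlam, map_one]
    | succ t ht1 ih =>
      intro htc
      obtain ⟨τ, hτE, hτO, hτ⟩ := ih (by omega)
      have htc' : t < Fintype.card ι := by omega
      obtain ⟨τ', hτ'E, hτ'O, hτ'⟩ := G.start_step C hn E hz hT hpow (C.base_mem_done ht1)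
        (C.sg_not_mem_done htc') (C.layerLift hnpos E hz hst htc') hτE hτO hτ
      exact ⟨τ', hτ'E, hτ'O, fun j hj => hτ' j (C.done_succ_subset t hj)⟩
  obtain ⟨τ, hτE, hτO, hτ⟩ := key (Fintype.card ι) hcard le_rfl
  refine ⟨τ, hτE, hτO, fun i => hτ i ?_⟩
  rw [MDatum.mem_done, C.al_card]

/-- **Export 3: the multi-component thick Čech core.** -/
theorem coreStatement : CoreStatement D g := C.coreStatement_of_start C.startStatement

/-- **Export 1** (helper3, `G/Twist.lean`) -/
theorem existsTwistStatement : ExistsTwistStatement D g := G.existsTwistStatement_of_mctx C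

end MCtx

end Fermat.Agent.S45lib.MThick
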