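/-
S45lib / MThick / Mult  (helper6)

**Derivation of (MULT)** (the field `MCtx.mult`) from a TABLE OF GLOBAL UNITS — "(M2)".

Input (`UnitTable D m E`): functions `E j` (`j : ι`) in a chart space and in `O` with
* `v_j (E j) ≥ m e_j`,
* `∏_j E j = π^m`,
* `ord_{x_i c} red_i (E j) ≥ m e_j w_{ij}` for `i ≠ j` (the local intersection numbers);
(so `E j` is a "local equation of `m e_j Z_j`" which is a unit off `Z_j`).

Then for `f ∈ 𝓛 a b` with `v_j f ≥ β_j` for all `j` and `β_i = 0`: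
`ord_{x_i c} red_i f ≥ Σ_j β_j w_{ij}`.

Proof: with `L = ∏ e_l`, `N_j = β_j L / e_j`, `M = Σ N_j`, the function
`h = f^{mL} · ∏_j (E j)^{M − N_j} · π^{−mM}` lies in a chart space and in `O`, so its reduction on
`Z_i` is regular at the multi-points by (CHART); on `Z_i` one has
`red_i h = (red_i f)^{mL} · ∏_{j ≠ i} (red_i E j)^{−N_j}`.

Only the following part of `MCtx` is used (`MultBase`): `π ≠ 0`, `e_pos`, `unif_pow`, the
multiplicative structure of the chart spaces, `x_not_mem` and (CHART).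
-/
import Fermat.Agent.S45lib.MThick.Datum
import Fermat.Agent.S18lib.Cech.CurveBasics

set_option autoImplicit false
set_option linter.unusedSectionVars false

noncomputable section

namespace Fermat.Agent.S45lib.MThick

open AlgebraicCurve Module
open Fermat.Agent.LSb.Core (lin2 lin2_apply_of_not_mem)
open Fermat.Agent.S18lib.Cech (mem_rr_of_ne ord_pow)
open Fermat.Agent.S36lib.Thick (DVal)

variable {K : Type*} [Field K] {R : ValuationSubring K}
variable {F : Type*} [Field F] [Algebra K F]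
variable {ι : Type*} [Fintype ι] [DecidableEq ι] {Fk : ι → Type*} [∀ i, Field (Fk i)]
variable [∀ i, Algebra (IsLocalRing.ResidueField R) (Fk i)]

local notation "k" => IsLocalRing.ResidueField R

/-- the statement of the field `MCtx.mult` -/
def MultStatement (D : MDatum R F ι Fk) : Prop :=
  ∀ (i : ι) (a b : ℕ) (f : F), f ∈ D.𝓛 a b → ∀ β : ι → ℕ, β i = 0 →
    (∀ j, D.Ge j (β j) f) → ∀ c, D.redF i f = 0 ∨
      (∑ j, (β j : ℤ) * (D.w i j : ℤ)) ≤ (D.x i c).ord (D.redF i f)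

/-- the part of `MCtx` used by the derivation of (MULT) -/
structure MultBase (D : MDatum R F ι Fk) : Prop where
  π_ne_zero : D.π ≠ 0
  e_pos : ∀ i, 0 < D.e i
  unif_pow : ∀ i, ∃ u : (D.V i).Oˣ, D.ϖ i ^ D.e i = algebraMap K F D.π * ((u : (D.V i).O) : F)
  mono : ∀ {a b a' b' : ℕ}, a ≤ a' → b ≤ b' → D.𝓛 a b ≤ D.𝓛 a' b'
  mul_mem : ∀ {a b a' b' : ℕ} {f f' : F}, f ∈ D.𝓛 a b → f' ∈ D.𝓛 a' b' →
    f * f' ∈ D.𝓛 (a + a') (b + b')
  one_mem : (1 : F) ∈ D.𝓛 0 0
  x_not_mem : ∀ i c, D.x i c ∉ (D.Q₁ i).support ∧ D.x i c ∉ (D.Q₂ i).support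
  chart : ∀ (i : ι) (a b : ℕ) (f : F), f ∈ D.𝓛 a b → f ∈ D.O →
    D.redF i f ∈ riemannRochSpace (D.chartDiv i a b)

/-- **(M2)**: a table of global units `E j` (`= ` local equations of `m e_j Z_j`) -/
structure UnitTable (D : MDatum R F ι Fk) (m : ℕ) (E : ι → F) : Prop where
  m_pos : 0 < m
  mem_𝓛 : ∃ a₀ b₀ : ℕ, ∀ j, E j ∈ D.𝓛 a₀ b₀
  mem_O : ∀ j, E j ∈ D.O
  /-- `v_j (E j) ≥ m e_j` -/
  ge : ∀ j, D.Ge j ((m * D.e j : ℕ) : ℤ) (E j)
  /-- `∏_j E j = π^m` -/
  prod : ∏ j, E j = algebraMap K F (D.π ^ m)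
  /-- `ord_{x_i c} red_i (E j) ≥ m e_j w_{ij}` for `i ≠ j` -/
  ord : ∀ i j, i ≠ j → ∀ c,
    ((m * (D.e j * D.w i j) : ℕ) : ℤ) ≤ (D.x i c).ord (D.redF i (E j))

namespace MultAux

variable {Fκ : Type*} [Field Fκ] (V : DVal F Fκ)

theorem redF_prod {κ' : Type*} (s : Finset κ') (f : κ' → F) (hf : ∀ l ∈ s, f l ∈ V.O) :
    V.redF (∏ l ∈ s, f l) = ∏ l ∈ s, V.redF (f l) := by
  classical
  induction s using Finset.induction_on with
  | empty =>
    rw [Finset.prod_empty, Finset.prod_empty, V.redF_of_mem V.O.one_mem]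
    exact map_one _
  | insert a s ha ih =>
    rw [Finset.prod_insert ha, Finset.prod_insert ha,
      V.redF_mul (hf a (Finset.mem_insert_self a s))
        (V.O.prod_mem fun l hl => hf l (Finset.mem_insert_of_mem hl)),
      ih fun l hl => hf l (Finset.mem_insert_of_mem hl)]

theorem ord_prod {k₀ F₀ : Type*} [Field k₀] [Field F₀] [Algebra k₀ F₀] (x : Place k₀ F₀)
    {κ' : Type*} (s : Finset κ') (f : κ' → F₀) (hf : ∀ l ∈ s, f l ≠ 0) :
    x.ord (∏ l ∈ s, f l) = ∑ l ∈ s, x.ord (f l) := by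
  classical
  induction s using Finset.induction_on with
  | empty => simp
  | insert a s ha ih =>
    rw [Finset.prod_insert ha, Finset.sum_insert ha,
      x.ord_mul (hf a (Finset.mem_insert_self a s))
        (Finset.prod_ne_zero_iff.2 fun l hl => hf l (Finset.mem_insert_of_mem hl)),
      ih fun l hl => hf l (Finset.mem_insert_of_mem hl)]

end MultAux

namespace MultBase

variable {D : MDatum R F ι Fk} (B : MultBase D)

include B

theorem πF_ne_zero : algebraMap K F D.π ≠ 0 := (map_ne_zero _).2 B.π_ne_zero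

theorem ϖ_ne_zero (i : ι) : D.ϖ i ≠ 0 := by
  obtain ⟨u, hu⟩ := B.unif_pow i
  intro h
  have h1 : D.ϖ i ^ D.e i = 0 := by rw [h, zero_pow (B.e_pos i).ne']
  rw [hu] at h1
  rcases mul_eq_zero.1 h1 with h2 | h2
  · exact B.πF_ne_zero h2
  · have : (u : (D.V i).O) = 0 := Subtype.ext h2
    exact u.ne_zero this

/-- the valuation `v_i` -/
def W (i : ι) : DVal F (Fk i) where
  O := (D.V i).O
  red := (D.V i).red
  red_surjective := (D.V i).red_surjective
  unif := (D.V i).unif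
  unif_ne_zero := B.ϖ_ne_zero i
  unif_mem := (D.V i).unif_mem
  red_unif := (D.V i).red_unif
  exists_zpow_mul_isUnit := (D.V i).exists_zpow_mul_isUnit

theorem W_redF (i : ι) (y : F) : (B.W i).redF y = D.redF i y := rfl

theorem W_ge_iff (i : ι) (j : ℤ) (f : F) : (B.W i).Ge j f ↔ D.Ge i j f := Iff.rfl

/-- `v_i(π⁻¹) ≥ -e_i` -/
theorem ge_π_inv (i : ι) : (B.W i).Ge (-(D.e i : ℤ)) (algebraMap K F D.π)⁻¹ := by
  obtain ⟨u, hu⟩ := B.unif_pow i
  rw [DVal.Ge, neg_neg, zpow_natCast]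
  show (algebraMap K F D.π)⁻¹ * D.ϖ i ^ D.e i ∈ (D.V i).O
  rw [hu, ← mul_assoc, inv_mul_cancel₀ B.πF_ne_zero, one_mul]
  exact (u : (D.V i).O).2

theorem smul_mem_𝓛 {a b : ℕ} (c : K) {f : F} (hf : f ∈ D.𝓛 a b) :
    f * algebraMap K F c ∈ D.𝓛 a b := by
  rw [mul_comm, ← Algebra.smul_def]; exact (D.𝓛 a b).smul_mem c hf

theorem pow_mem_𝓛 {a b : ℕ} {f : F} (hf : f ∈ D.𝓛 a b) (n : ℕ) : f ^ n ∈ D.𝓛 (n * a) (n * b) := by
  induction n with
  | zero => simpa using B.one_mem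
  | succ n ih =>
    rw [pow_succ]
    have := B.mul_mem ih hf
    convert this using 2 <;> ring

theorem prod_pow_mem_𝓛 {a₀ b₀ : ℕ} {E : ι → F} (hE : ∀ j, E j ∈ D.𝓛 a₀ b₀) (n : ι → ℕ)
    (s : Finset ι) :
    ∏ l ∈ s, E l ^ n l ∈ D.𝓛 ((∑ l ∈ s, n l) * a₀) ((∑ l ∈ s, n l) * b₀) := by
  classical
  induction s using Finset.induction_on with
  | empty => simpa using B.one_mem
  | insert a s ha ih =>
    rw [Finset.prod_insert ha, Finset.sum_insert ha]
    have := B.mul_mem (B.pow_mem_𝓛 (hE a) (n a)) ih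
    convert this using 2 <;> ring

/-- **(MULT) from a table of global units.** -/
theorem mult_of_unitTable {m : ℕ} {E : ι → F} (T : UnitTable D m E) : MultStatement D := by
  classical
  intro i a b f hf β hβ hge c
  by_cases hφ : D.redF i f = 0
  · exact Or.inl hφ
  right
  obtain ⟨a₀, b₀, hE𝓛⟩ := T.mem_𝓛
  have hm : 0 < m := T.m_pos
  -- the constants
  set L : ℕ := ∏ l, D.e l with hL
  have hLpos : 0 < L := Finset.prod_pos fun l _ => B.e_pos l
  have hdvd : ∀ l, D.e l ∣ L := fun l => Finset.dvd_prod_of_mem _ (Finset.mem_univ l)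
  set N : ι → ℕ := fun l => β l * (L / D.e l) with hN
  have hNe : ∀ l, N l * D.e l = β l * L := fun l => by
    rw [hN]; simp only
    rw [mul_assoc, Nat.div_mul_cancel (hdvd l)]
  have hNi : N i = 0 := by rw [hN]; simp only; rw [hβ, zero_mul]
  set M : ℕ := ∑ l, N l with hM
  have hNM : ∀ l, N l ≤ M := fun l =>
    Finset.single_le_sum (fun _ _ => Nat.zero_le _) (Finset.mem_univ l)
  set n : ι → ℕ := fun l => M - N l with hn
  have hni : n i = M := by rw [hn]; simp only; rw [hNi, Nat.sub_zero]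
  set πi : F := (algebraMap K F D.π)⁻¹ with hπi
  -- the auxiliary function
  set h : F := f ^ (m * L) * (∏ l, E l ^ n l) * πi ^ (m * M) with hh
  -- `h` lies in a chart space
  have hh𝓛 : ∃ A B' : ℕ, h ∈ D.𝓛 A B' := by
    have h1 := B.pow_mem_𝓛 hf (m * L)
    have h2 := B.prod_pow_mem_𝓛 hE𝓛 n Finset.univ
    have h3 := B.mul_mem h1 h2
    have h4 := B.smul_mem_𝓛 ((D.π⁻¹) ^ (m * M)) h3
    rw [map_pow, map_inv₀] at h4
    exact ⟨_, _, h4⟩
  -- `h ∈ O`
  have hπge : ∀ l, (B.W l).Ge (((m * M : ℕ) : ℤ) * (-(D.e l : ℤ))) (πi ^ (m * M)) :=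
    fun l => (B.ge_π_inv l).pow _
  have hEO : ∀ l j, E j ∈ (D.V l).O := fun l j => MDatum.mem_O.1 (T.mem_O j) l
  have hhO : h ∈ D.O := by
    refine MDatum.mem_O.2 fun l => ?_
    have h1 : (B.W l).Ge (((m * L : ℕ) : ℤ) * (β l : ℤ)) (f ^ (m * L)) :=
      ((B.W_ge_iff l _ _).2 (hge l)).pow _
    have h2 : (B.W l).Ge (((n l : ℕ) : ℤ) * ((m * D.e l : ℕ) : ℤ)) (∏ j, E j ^ n j) := by
      rw [← Finset.mul_prod_erase Finset.univ (fun j => E j ^ n j) (Finset.mem_univ l)]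
      refine DVal.Ge.mul_mem (((B.W_ge_iff l _ _).2 (T.ge l)).pow _) ?_
      exact (D.V l).O.prod_mem fun j _ => (D.V l).O.pow_mem (hEO l j) _
    have h3 := (h1.mul h2).mul (hπge l)
    refine h3.mem (le_of_eq ?_)
    have e1 : ((n l : ℕ) : ℤ) = (M : ℤ) - (N l : ℤ) := by
      rw [hn]; simp only; rw [Nat.cast_sub (hNM l)]
    have e2 : ((N l : ℕ) : ℤ) * (D.e l : ℤ) = (β l : ℤ) * (L : ℤ) := by exact_mod_cast hNe l
    rw [e1]
    push_cast
    linear_combination (m : ℤ) * e2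
  -- the component `i`
  set U : F := E i * πi ^ m with hU
  have hUO : U ∈ (D.V i).O := by
    have h1 : (B.W i).Ge (((m : ℕ) : ℤ) * (-(D.e i : ℤ))) (πi ^ m) := (B.ge_π_inv i).pow _
    have h2 := ((B.W_ge_iff i _ _).2 (T.ge i)).mul h1
    exact h2.mem (le_of_eq (by push_cast; ring))
  set P' : F := ∏ j ∈ Finset.univ.erase i, E j with hP'
  have hP'O : P' ∈ (D.V i).O := (D.V i).O.prod_mem fun j _ => hEO i j
  have hUP : U * P' = 1 := by
    have h1 : E i * P' = algebraMap K F (D.π ^ m) := by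
      rw [hP', Finset.mul_prod_erase Finset.univ E (Finset.mem_univ i)]; exact T.prod
    have h2 : U * P' = (E i * P') * πi ^ m := by rw [hU]; ring
    rw [h2, h1, map_pow, hπi, inv_pow, mul_inv_cancel₀ (pow_ne_zero _ B.πF_ne_zero)]
  have hredUP : D.redF i U * ∏ j ∈ Finset.univ.erase i, D.redF i (E j) = 1 := by
    have h1 := (B.W i).redF_mul hUO hP'O
    rw [hUP, (B.W i).redF_of_mem (D.V i).O.one_mem] at h1
    have h2 : (B.W i).red ⟨1, (D.V i).O.one_mem⟩ = 1 := map_one _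
    rw [h2, hP', MultAux.redF_prod (B.W i) _ _ (fun j _ => hEO i j)] at h1
    exact h1.symm
  have hρ : ∀ j ∈ Finset.univ.erase i, D.redF i (E j) ≠ 0 := by
    intro j hj h0
    have : ∏ j ∈ Finset.univ.erase i, D.redF i (E j) = 0 := Finset.prod_eq_zero hj h0
    rw [this, mul_zero] at hredUP
    exact zero_ne_one hredUP
  have hredU : D.redF i U ≠ 0 := by
    intro h0
    rw [h0, zero_mul] at hredUP
    exact zero_ne_one hredUP
  -- the reduction of `h` on `Z_i`
  have hhsplit : h = f ^ (m * L) * (U ^ M * ∏ j ∈ Finset.univ.erase i, E j ^ n j) := by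
    rw [hh, ← Finset.mul_prod_erase Finset.univ (fun j => E j ^ n j) (Finset.mem_univ i), hni, hU,
      mul_pow, ← pow_mul]
    ring
  have hfO : f ∈ (D.V i).O := by
    have := (B.W_ge_iff i _ _).2 (hge i)
    rw [hβ] at this
    exact ((B.W i).ge_zero_iff).1 (by simpa using this)
  have hQO : ∏ j ∈ Finset.univ.erase i, E j ^ n j ∈ (D.V i).O :=
    (D.V i).O.prod_mem fun j _ => (D.V i).O.pow_mem (hEO i j) _
  have hredh : D.redF i h = D.redF i f ^ (m * L) *
      (D.redF i U ^ M * ∏ j ∈ Finset.univ.erase i, D.redF i (E j) ^ n j) := by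
    rw [hhsplit, ← B.W_redF, (B.W i).redF_mul ((D.V i).O.pow_mem hfO _)
      ((D.V i).O.mul_mem _ _ ((D.V i).O.pow_mem hUO _) hQO), (B.W i).redF_pow hfO,
      (B.W i).redF_mul ((D.V i).O.pow_mem hUO _) hQO, (B.W i).redF_pow hUO,
      MultAux.redF_prod (B.W i) _ _ (fun j _ => (D.V i).O.pow_mem (hEO i j) _)]
    congr 2
    refine Finset.prod_congr rfl fun j _ => ?_
    rw [(B.W i).redF_pow (hEO i j)]
    rfl
  have hQne : ∏ j ∈ Finset.univ.erase i, D.redF i (E j) ^ n j ≠ 0 :=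
    Finset.prod_ne_zero_iff.2 fun j hj => pow_ne_zero _ (hρ j hj)
  have hredh0 : D.redF i h ≠ 0 := by
    rw [hredh]
    exact mul_ne_zero (pow_ne_zero _ hφ) (mul_ne_zero (pow_ne_zero _ hredU) hQne)
  -- (CHART) at the multi-point
  obtain ⟨A, B', hhAB⟩ := hh𝓛
  have hch := B.chart i A B' h hhAB hhO
  have hord0 := (mem_rr_of_ne hredh0).1 hch (D.x i c)
  have hx0 : D.chartDiv i A B' (D.x i c) = 0 :=
    lin2_apply_of_not_mem (B.x_not_mem i c).1 (B.x_not_mem i c).2 A B'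
  rw [hx0, neg_zero] at hord0
  -- the orders
  set x := D.x i c with hx
  have hordU : x.ord (D.redF i U) = -∑ j ∈ Finset.univ.erase i, x.ord (D.redF i (E j)) := by
    have h1 := congrArg x.ord hredUP
    rw [x.ord_mul hredU (Finset.prod_ne_zero_iff.2 hρ), MultAux.ord_prod x _ _ hρ] at h1
    have h2 : x.ord (1 : Fk i) = 0 := by
      have := Fermat.Agent.S18lib.Cech.ord_const x (1 : k)
      rwa [map_one] at this
    rw [h2] at h1
    linarith
  have hordh : x.ord (D.redF i h) = ((m * L : ℕ) : ℤ) * x.ord (D.redF i f) -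
      ∑ j ∈ Finset.univ.erase i, (N j : ℤ) * x.ord (D.redF i (E j)) := by
    rw [hredh, x.ord_mul (pow_ne_zero _ hφ) (mul_ne_zero (pow_ne_zero _ hredU) hQne),
      x.ord_mul (pow_ne_zero _ hredU) hQne, ord_pow, ord_pow, hordU,
      MultAux.ord_prod x _ _ (fun j hj => pow_ne_zero _ (hρ j hj))]
    have e1 : ∑ j ∈ Finset.univ.erase i, x.ord (D.redF i (E j) ^ n j) =
        ∑ j ∈ Finset.univ.erase i, ((M : ℤ) - (N j : ℤ)) * x.ord (D.redF i (E j)) := by
      refine Finset.sum_congr rfl fun j _ => ?_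
      rw [ord_pow, hn]; simp only
      rw [Nat.cast_sub (hNM j)]
    rw [e1]
    simp only [sub_mul, Finset.sum_sub_distrib, ← Finset.mul_sum]
    ring
  -- the lower bound
  have hlow : ∑ j ∈ Finset.univ.erase i, ((m * L : ℕ) : ℤ) * ((β j : ℤ) * (D.w i j : ℤ)) ≤
      ∑ j ∈ Finset.univ.erase i, (N j : ℤ) * x.ord (D.redF i (E j)) := by
    refine Finset.sum_le_sum fun j hj => ?_
    have hji : i ≠ j := (Finset.ne_of_mem_erase hj).symm
    have h1 := T.ord i j hji c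
    have e2 : ((N j : ℕ) : ℤ) * (D.e j : ℤ) = (β j : ℤ) * (L : ℤ) := by exact_mod_cast hNe j
    have h3 : (N j : ℤ) * ((m * (D.e j * D.w i j) : ℕ) : ℤ) ≤
        (N j : ℤ) * x.ord (D.redF i (E j)) :=
      mul_le_mul_of_nonneg_left h1 (Int.natCast_nonneg _)
    refine le_trans (le_of_eq ?_) h3
    push_cast
    linear_combination (-(m : ℤ) * (D.w i j : ℤ)) * e2
  have hsum : ∑ j, (β j : ℤ) * (D.w i j : ℤ) =
      ∑ j ∈ Finset.univ.erase i, (β j : ℤ) * (D.w i j : ℤ) := by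
    rw [← Finset.add_sum_erase Finset.univ (fun j => (β j : ℤ) * (D.w i j : ℤ))
      (Finset.mem_univ i), hβ]
    simp
  rw [hsum]
  rw [hordh] at hord0
  rw [← Finset.mul_sum] at hlow
  have hmL : (0 : ℤ) < ((m * L : ℕ) : ℤ) := by exact_mod_cast Nat.mul_pos hm hLpos
  have hfin : ((m * L : ℕ) : ℤ) * ∑ j ∈ Finset.univ.erase i, (β j : ℤ) * (D.w i j : ℤ) ≤
      ((m * L : ℕ) : ℤ) * x.ord (D.redF i f) := by linarith
  exact le_of_mul_le_mul_left hfin hmL

end MultBase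

/-- the part of an `MCtx` used by the derivation of (MULT) -/
theorem MCtx.multBase {D : MDatum R F ι Fk} {g : ℕ} {gk : ι → ℕ} (C : MCtx D g gk) :
    MultBase D where
  π_ne_zero := by
    intro h
    apply C.π_not_unit
    rw [h, inv_zero]
    exact R.zero_mem
  e_pos := C.e_pos
  unif_pow := C.unif_pow
  mono := fun ha hb => C.mono ha hb
  mul_mem := fun hf hf' => C.mul_mem hf hf'
  one_mem := C.one_mem
  x_not_mem := C.x_not_mem
  chart := C.chart

end Fermat.Agent.S45lib.MThick
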