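/-
S45lib / MThick / TowerCore  (helper6)  --  Project J, the Tower seam

**THE ONE TOWER-SIDE STRUCTURE.**  `TowerCore hqM hA` records, for ALL levels `M q^k` (`k ≥ 0`,
spelled `Tower.lev M q k`) at once, the `K`-rational places `V k b` (`b : Fin (k+1)` = the number of
`V`-steps of the component `(a, b) = (k - b, b)` of the reduction of level `M q^k`), normalised with
residue field `κ = FRes A M`, and

* `base`, `one_F`, `one_V` : the places of level `M`, `M q` contain main's Gauss places
  `gaussMK`, `gaussOneK` (`v₁₀`), `gaussTwoK` (`v₀₁`) with the same reductions;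
* `alpha_row`, `beta_row` : the restriction rows between CONSECUTIVE levels along
  `alphaFixT j`, `betaFixT j : fixF (lev j) → fixF (lev (j+1))` (helper2's `Tower/NormFix`):
  the top component `b` lies over the low component `aAlpha j b = b - 1`, resp. `aBeta j b = min b j`
  (helper2's `Chain/Table`), with residue embedding `VqR` when `fAlpha q j b = q`
  (`j + 2 ≤ 2 b`), resp. `fBeta q j b = q` (`2 b ≤ j`), and the identity otherwise;
* `ram` : `v_b (q) = v_b (ϖ_b) ^ eK q k b` (helper5's multiplicities `φ(q^min(b, k-b))`);
* `ne`  : the `k + 1` places of a level are pairwise different.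

Everything the three consumers of the Tower need (helper9's `Inst.TowerReq`, helper4's `SS.RowsK`,
helper8/helper3/helper7's `KMval.TowerRam` / `Chain.StepDataK`) is DERIVED from this record in
`MThick/TowerRows.lean`, `MThick/TowerOut.lean`.

This file also contains the arithmetic of the twist exponents: `dT k b i` (the `b`-indexed form of
helper4's `SS.dTw k (k - b) i`), and the two identities which make the rows compose.
-/
import Mathlib
import Fermat.Agent.S45lib.Tower.NormFix
import Fermat.Agent.S45lib.Chain.Table
import Fermat.Agent.S45lib.CountK.Weights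
import Fermat.Agent.S36lib.Reg.Rows
import Fermat.Agent.S36lib.Desc2.Places
import Fermat.Agent.S36lib.Norm.Bridge
import Fermat.Agent.S36lib.Norm.ThickBridge
import Fermat.Agent.S36lib.Inst.Base
import Fermat.Agent.S36lib.Inst.Datum
import Fermat.Agent.LSb.Unit.Instance

set_option autoImplicit false
set_option linter.unusedSectionVars false
set_option linter.unusedVariables false

noncomputable section

namespace Fermat.Agent.S45lib.MThick

open ModularCurve
open Fermat.Agent.S18lib Fermat.Agent.ProgramR
open Fermat.Agent.S36lib
open Fermat.Agent.S36lib.Thick (RamGaussDatum)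
open Fermat.Agent.S36lib.Desc Fermat.Agent.S36lib.Desc2
open Fermat.Agent.S36lib.Inst (HI qK)
open Fermat.Agent.S36lib.Norm (ofGauss ofRamGauss)
open Fermat.Agent.LSb.Unit (VqR)
open Fermat.Agent.S45lib.Tower (lev alphaFixT betaFixT)
open Fermat.Agent.S45lib.Chain (aAlpha aBeta fAlpha fBeta)
open Fermat.Agent.S45lib.CountK (eK)

local notation "Qb" => AlgebraicClosure ℚ

/-! ### the twist exponents, indexed by the number `b` of `V`-steps -/

/-- twist exponent of the position `i` on the component `b` (`a = k - b`) of level `M q^k`: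
`red_b (y(q^i z)) = V^(dT k b i) (red_M y)`; this is helper4's `SS.dTw k (k - b) i`. -/
def dT (k b i : ℕ) : ℕ :=
  if 2 * b ≤ k then (if i + b ≤ k then i else 2 * (k - b) - i)
  else (if i + b ≤ k then i + (2 * b - k) else k - i)

/-- the exponent of the residue embedding of the `α`-row -/
def epsA (j b : ℕ) : ℕ := if j + 2 ≤ 2 * b then 1 else 0

/-- the exponent of the residue embedding of the `β`-row -/
def epsB (j b : ℕ) : ℕ := if 2 * b ≤ j then 1 else 0

/-- at the bottom end: `dT k b 0 = (2b - k)⁺` -/
theorem dT_zero (k b : ℕ) (hb : b ≤ k) : dT k b 0 = 2 * b - k := by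
  unfold dT
  split_ifs <;> omega

/-- at the top end: `dT k b k = (k - 2b)⁺` -/
theorem dT_top (k b : ℕ) (hb : b ≤ k) : dT k b k = k - 2 * b := by
  unfold dT
  split_ifs <;> omega

/-- **composition along `α`** : position `i ≤ j` of the top component `b` (level `j + 1`) -/
theorem dT_alpha (j b i : ℕ) (hb : b ≤ j + 1) (hi : i ≤ j) :
    dT (j + 1) b i = epsA j b + dT j (b - 1) i := by
  unfold dT epsA
  split_ifs <;> omega

/-- **composition along `β`** : position `i + 1` of the top component `b` (level `j + 1`) -/
theorem dT_beta (j b i : ℕ) (hb : b ≤ j + 1) (hi : i ≤ j) :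
    dT (j + 1) b (i + 1) = epsB j b + dT j (min b j) i := by
  unfold dT epsB
  rcases Nat.lt_or_ge j b with h | h
  · rw [min_eq_right h.le]
    split_ifs <;> omega
  · rw [min_eq_left h]
    split_ifs <;> omega

theorem dT_level_zero (i : ℕ) : dT 0 0 i = 0 := by
  unfold dT
  split_ifs <;> omega

/-! ### the record -/

section Core

variable (M q : ℕ) [NeZero M] [NeZero q] [hq : Fact q.Prime] (A : ValuationSubring Qb)

/-- **THE TOWER RECORD**: the `K`-rational normalised places of all the levels `M q^k`, their
restriction rows between consecutive levels, their ramification indices and their distinctness. -/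
structure TowerCore (hqM : ¬ q ∣ M) (hA : A.LiesOverPrime q) where
  /-- the component `b` (= number of `V`-steps) of the reduction of level `M q^k` -/
  V : ∀ k : ℕ, Fin (k + 1) → RamGaussDatum (Wfix A) (fixF (lev M q k) (HI A)) (FRes A M)
  /-- level `M`: the place contains main's Gauss place, same reduction -/
  base : Reg.Row (RingHom.id (fixF M (HI A))) (RingHom.id (FRes A M))
    (ofGauss (gaussMK M A hqM hA)) (ofRamGauss (V 0 0))
  /-- level `M q`, component `(1, 0)`: main's `v₁₀` -/
  one_F : Reg.Row (RingHom.id (fixF (M * q) (HI A))) (RingHom.id (FRes A M))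
    (ofGauss (gaussOneK M q A hqM hA)) (ofRamGauss (V 1 0))
  /-- level `M q`, component `(0, 1)`: main's `v₀₁` -/
  one_V : Reg.Row (RingHom.id (fixF (M * q) (HI A))) (RingHom.id (FRes A M))
    (ofGauss (gaussTwoK M q A hqM hA)) (ofRamGauss (V 1 1))
  /-- the rows along `α` (`y ↦ y(z)`), level `j → j + 1` -/
  alpha_row : ∀ (j : ℕ) (b : Fin (j + 2)),
    Reg.Row (alphaFixT M q (HI A) j)
      (if j + 2 ≤ 2 * (b : ℕ) then VqR (M := M) hA else RingHom.id (FRes A M))
      (ofRamGauss (V j (aAlpha j b))) (ofRamGauss (V (j + 1) b))
  /-- the rows along `β` (`y ↦ y(q z)`), level `j → j + 1` -/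
  beta_row : ∀ (j : ℕ) (b : Fin (j + 2)),
    Reg.Row (betaFixT M q (HI A) j)
      (if 2 * (b : ℕ) ≤ j then VqR (M := M) hA else RingHom.id (FRes A M))
      (ofRamGauss (V j (aBeta j b))) (ofRamGauss (V (j + 1) b))
  /-- the ramification indices -/
  ram : ∀ (k : ℕ) (b : Fin (k + 1)),
    (V k b).O.valuation (algebraMap (Kfix A) (fixF (lev M q k) (HI A)) (qK A q)) =
      (V k b).O.valuation (V k b).unif ^ eK q k b
  /-- the places of a level are pairwise different -/
  ne : ∀ (k : ℕ) (b b' : Fin (k + 1)), b ≠ b' → (V k b).O ≠ (V k b').O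

end Core

end Fermat.Agent.S45lib.MThick
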