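/-
S45lib / MThick / TowerRows  (helper6)  --  Project J, the Tower seam

**ALL THE ABSOLUTE ROWS OF THE TOWER FROM THE CONSECUTIVE ONES.**  For `T : TowerCore M q A hqM hA`
(`MThick/TowerCore`), with `posT k i : fixF M → fixF (lev k)` (`y ↦ y(q^i z)`) and
`stepT k i : fixF (M q) → fixF (lev (k+1))` (`g ↦ g(q^i z)`) of `Tower/PosStep` (helper9):

* `TowerCore.pos_row`   : `Row (posT k i) (V ^ dT k b i) WM (P k b)`      (`i ≤ k`);
* `TowerCore.stepF_row` : `Row (stepT k i) (V ^ dT (k+1) b i) W₁ (P (k+1) b)`      (`i + b ≤ k`,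
                           the `i`-th step of the component `b` is an `F`-step);
* `TowerCore.stepV_row` : `Row (stepT k i) (V ^ dT (k+1) b (i+1)) W₂ (P (k+1) b)`  (`k < i + b`,
                           `i ≤ k`, a `V`-step);
* **`TowerCore.rowsK`**  : helper4's `SS.RowsK (k+1) V (posT (k+1)) (stepT k) WM W₁ W₂
                           (fun a => ramPlace (T.V (k+1) (Fin.rev a)))`  (`dT_eq_dTw`).
-/
import Mathlib
import Fermat.Agent.S45lib.MThick.TowerCore
import Fermat.Agent.S45lib.Tower.PosStep
import Fermat.Agent.S45lib.SS.RowsK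

set_option autoImplicit false
set_option linter.unusedSectionVars false
set_option linter.unusedVariables false

noncomputable section

namespace Fermat.Agent.S45lib.MThick

open ModularCurve
open Fermat.Agent.S18lib Fermat.Agent.ProgramR
open Fermat.Agent.S36lib
open Fermat.Agent.S36lib.Thick (RamGaussDatum)
open Fermat.Agent.S36lib.Desc Fermat.Agent.S36lib.Desc2
open Fermat.Agent.S36lib.Inst (HI qK)
open Fermat.Agent.S36lib.Norm (ofGauss ofRamGauss)
open Fermat.Agent.LSb.Unit (VqR)
open Fermat.Agent.S45lib.Tower (lev alphaFixT betaFixT posT stepT)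
open Fermat.Agent.S45lib.Chain (aAlpha aBeta fAlpha fBeta)
open Fermat.Agent.S45lib.CountK (eK)

local notation "Qb" => AlgebraicClosure ℚ

/-! ### arithmetic: the `a`-indexed exponents of helper4 -/

/-- the `b`-indexed exponent is helper4's `a`-indexed one (`a + b = k`) -/
theorem dT_eq_dTw (k a i : ℕ) (ha : a ≤ k) : dT k (k - a) i = SS.dTw k a i := by
  unfold dT SS.dTw
  split_ifs <;> omega

/-! ### rows and powers of an endomorphism of the residue field -/

section RowPow

variable {F' G F : Type*} [Field F'] [Field G] [Field F] {κ : Type*} [Field κ]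

/-- composition of rows whose residue embeddings are powers of one endomorphism -/
theorem row_comp_pow {V : κ →+* κ} {ψ₂ : G →+* F} {ψ₁ : F' →+* G} {P'' : Norm.Place F' κ}
    {P' : Norm.Place G κ} {P : Norm.Place F κ} {e d n : ℕ}
    (h₂ : Reg.Row ψ₂ (V ^ e) P' P) (h₁ : Reg.Row ψ₁ (V ^ d) P'' P') (hn : n = e + d) :
    Reg.Row (ψ₂.comp ψ₁) (V ^ n) P'' P := by
  have h := h₂.comp h₁
  have e1 : (V ^ e).comp (V ^ d) = V ^ n := by
    rw [hn, pow_add]
    rfl
  rw [e1] at h
  exact h

theorem ite_eq_pow (V : κ →+* κ) (p : Prop) [Decidable p] :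
    (if p then V else RingHom.id κ) = V ^ (if p then 1 else 0) := by
  split_ifs
  · rw [pow_one]
  · rw [pow_zero]
    rfl

theorem row_id_pow_zero {V : κ →+* κ} {P' P : Norm.Place F κ}
    (h : Reg.Row (RingHom.id F) (RingHom.id κ) P' P) {n : ℕ} (hn : n = 0) :
    Reg.Row (RingHom.id F) (V ^ n) P' P := by
  rw [hn, pow_zero]
  exact h

end RowPow

namespace TowerCore

variable {M q : ℕ} [NeZero M] [NeZero q] [hq : Fact q.Prime] {A : ValuationSubring Qb}
variable {hqM : ¬ q ∣ M} {hA : A.LiesOverPrime q} (T : TowerCore M q A hqM hA)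

/-- the bare place of the component `b` of level `M q^k` -/
abbrev P (k : ℕ) (b : Fin (k + 1)) : Norm.Place (fixF (lev M q k) (HI A)) (FRes A M) :=
  ofRamGauss (T.V k b)

/-- the `α`-row with the residue embedding written as a power of `V` -/
theorem alpha_row' (j : ℕ) (b : Fin (j + 2)) :
    Reg.Row (alphaFixT M q (HI A) j) (VqR (M := M) hA ^ epsA j b)
      (T.P j (aAlpha j b)) (T.P (j + 1) b) := by
  have h := T.alpha_row j b
  rw [ite_eq_pow] at h
  exact h

/-- the `β`-row with the residue embedding written as a power of `V` -/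
theorem beta_row' (j : ℕ) (b : Fin (j + 2)) :
    Reg.Row (betaFixT M q (HI A) j) (VqR (M := M) hA ^ epsB j b)
      (T.P j (aBeta j b)) (T.P (j + 1) b) := by
  have h := T.beta_row j b
  rw [ite_eq_pow] at h
  exact h

/-- **the rows of the positions**: `red_b (y(q^i z)) = V^(dT k b i) (red_M y)` -/
theorem pos_row : ∀ (k i : ℕ), i ≤ k → ∀ b : Fin (k + 1),
    Reg.Row (posT M q (HI A) k i) (VqR (M := M) hA ^ dT k b i)
      (ofGauss (gaussMK M A hqM hA)) (T.P k b) := by
  intro k
  induction k with
  | zero =>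
    intro i hi b
    have hb : b = 0 := Fin.ext (by have := b.2; simp)
    subst hb
    rw [Tower.posT_zero]
    exact row_id_pow_zero T.base (dT_level_zero i)
  | succ k ih =>
    intro i hi b
    have hb : (b : ℕ) ≤ k + 1 := by have := b.2; omega
    rcases Nat.lt_or_ge k i with h | h
    · have hik : i = k + 1 := by omega
      subst hik
      rw [Tower.posT_succ_last]
      refine row_comp_pow (T.beta_row' k b) (ih k le_rfl (aBeta k b)) ?_
      rw [Chain.aBeta_val]
      exact dT_beta k b k hb le_rfl
    · rw [Tower.posT_succ_of_le M q (HI A) h]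
      refine row_comp_pow (T.alpha_row' k b) (ih i h (aAlpha k b)) ?_
      rw [Chain.aAlpha_val]
      exact dT_alpha k b i hb h

/-- **the rows of the steps, `F`-steps**: the `i`-th step of the component `b` of level
`M q^(k+1)` is an `F`-step iff `i + b ≤ k` -/
theorem stepF_row : ∀ (k i : ℕ) (b : Fin (k + 2)), i + (b : ℕ) ≤ k →
    Reg.Row (stepT M q (HI A) k i) (VqR (M := M) hA ^ dT (k + 1) b i)
      (ofGauss (gaussOneK M q A hqM hA)) (T.P (k + 1) b) := by
  intro k
  induction k with
  | zero =>
    intro i b h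
    have hb : b = 0 := Fin.ext (by simp; omega)
    have hi : i = 0 := by omega
    subst hb hi
    rw [Tower.stepT_zero]
    refine row_id_pow_zero T.one_F ?_
    unfold dT
    simp
  | succ k ih =>
    intro i b h
    have hb : (b : ℕ) ≤ k + 2 := by have := b.2; omega
    rcases Nat.lt_or_ge k i with hki | hki
    · -- the last step: `i = k + 1`, `b = 0`
      have hik : i = k + 1 := by omega
      have hb0 : (b : ℕ) = 0 := by omega
      subst hik
      rw [Tower.stepT_succ_last]
      refine row_comp_pow (T.beta_row' (k + 1) b) (ih k (aBeta (k + 1) b) ?_) ?_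
      · rw [Chain.aBeta_val, hb0]
        simp
      · rw [Chain.aBeta_val]
        exact dT_beta (k + 1) b k hb (by omega)
    · rw [Tower.stepT_succ_of_le M q (HI A) hki]
      refine row_comp_pow (T.alpha_row' (k + 1) b) (ih i (aAlpha (k + 1) b) ?_) ?_
      · rw [Chain.aAlpha_val]
        omega
      · rw [Chain.aAlpha_val]
        exact dT_alpha (k + 1) b i hb (by omega)

/-- **the rows of the steps, `V`-steps**: `k < i + b`, `i ≤ k` -/
theorem stepV_row : ∀ (k i : ℕ) (b : Fin (k + 2)), k < i + (b : ℕ) → i ≤ k →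
    Reg.Row (stepT M q (HI A) k i) (VqR (M := M) hA ^ dT (k + 1) b (i + 1))
      (ofGauss (gaussTwoK M q A hqM hA)) (T.P (k + 1) b) := by
  intro k
  induction k with
  | zero =>
    intro i b h hi
    have hi0 : i = 0 := by omega
    subst hi0
    have hb1 : (b : ℕ) = 1 := by have := b.2; omega
    have hb : b = 1 := Fin.ext (by simpa using hb1)
    subst hb
    rw [Tower.stepT_zero]
    refine row_id_pow_zero T.one_V ?_
    unfold dT
    simp
  | succ k ih =>
    intro i b h hi
    have hb : (b : ℕ) ≤ k + 2 := by have := b.2; omega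
    rcases Nat.lt_or_ge k i with hki | hki
    · -- the last step: `i = k + 1`, `1 ≤ b`
      have hik : i = k + 1 := by omega
      subst hik
      rw [Tower.stepT_succ_last]
      refine row_comp_pow (T.beta_row' (k + 1) b) (ih k (aBeta (k + 1) b) ?_ le_rfl) ?_
      · rw [Chain.aBeta_val]
        have : 1 ≤ min (b : ℕ) (k + 1) := by
          rw [Nat.le_min]; omega
        omega
      · rw [Chain.aBeta_val]
        exact dT_beta (k + 1) b (k + 1) hb le_rfl
    · rw [Tower.stepT_succ_of_le M q (HI A) hki]
      refine row_comp_pow (T.alpha_row' (k + 1) b) (ih i (aAlpha (k + 1) b) ?_ hki) ?_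
      · rw [Chain.aAlpha_val]
        omega
      · rw [Chain.aAlpha_val]
        exact dT_alpha (k + 1) b (i + 1) hb (by omega)

/-- **helper4's restriction rows `SS.RowsK` at every level `M q^(k+1)`** (`a`-indexed through
`Fin.rev`, as in `SS/Table`, `SS/GlueB`). -/
theorem rowsK (k : ℕ) :
    SS.RowsK (k + 1) (VqR (M := M) hA) (posT M q (HI A) (k + 1)) (stepT M q (HI A) k)
      (ofGauss (gaussMK M A hqM hA)) (ofGauss (gaussOneK M q A hqM hA))
      (ofGauss (gaussTwoK M q A hqM hA))
      (fun a => J.ramPlace (T.V (k + 1) (Fin.rev a))) where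
  pos_row i hi a := by
    have ha : (a : ℕ) ≤ k + 1 := by have := a.2; omega
    have h := T.pos_row (k + 1) i hi (Fin.rev a)
    rw [Fin.val_rev, show k + 1 + 1 - ((a : ℕ) + 1) = k + 1 - a by omega,
      dT_eq_dTw (k + 1) a i ha] at h
    exact h
  stepF_row i a hia := by
    have ha : (a : ℕ) ≤ k + 1 := by have := a.2; omega
    have h := T.stepF_row k i (Fin.rev a) (by rw [Fin.val_rev]; omega)
    rw [Fin.val_rev, show k + 1 + 1 - ((a : ℕ) + 1) = k + 1 - a by omega,
      dT_eq_dTw (k + 1) a i ha] at h
    exact h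
  stepV_row i a hai hik := by
    have ha : (a : ℕ) ≤ k + 1 := by have := a.2; omega
    have h := T.stepV_row k i (Fin.rev a) (by rw [Fin.val_rev]; omega) (by omega)
    rw [Fin.val_rev, show k + 1 + 1 - ((a : ℕ) + 1) = k + 1 - a by omega,
      dT_eq_dTw (k + 1) a (i + 1) ha] at h
    exact h

end TowerCore

end Fermat.Agent.S45lib.MThick
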