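/-
S45lib / MThick / TowerOut  (helper6)  --  Project J, the Tower seam

**FROM THE TOWER RECORD `TowerCore` TO THE CONSUMERS.**

For `T : TowerCore M q A hqM hA` and every level `k`:

* `TowerCore.isUnif`, `TowerCore.isArch`, `TowerCore.unif_pow` : the places are rank one, discrete,
  `ϖ_b ^ eK q k b = q · unit` (field `unif_pow` of `MCtx`, input of helper8's/helper3's (STEP));
* **`TowerCore.towerReq`** : helper9's `Inst.TowerReq hqM hA (lev M q k) (T.V k) (eK q k)
  (posT k 0) (fun b => V ^ (2 b - k))` (`lies` = the row of `posT k 0` + `ram`; `deg_sum` from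
  `finrankHom (posT k 0) = (q + 1) q^(k-1)` and helper5's `sum_fin_eK_mul_f`), and
  `TowerCore.ιs_jK` : `(V ^ (2 b - k)) j̄ = j̄ ^ q ^ (2 b - k)` (`hιj` of `Inst.mctx_modLX`);
* `TowerCore.step_alpha`, `TowerCore.step_beta` : the rows of helper8's `KMval.StepMod`
  (`ιresK`-form) -- the only Tower input of (STEP) besides `ne` and `unif_pow`.

The absolute rows (`SS.RowsK`) are in `MThick/TowerRows`.
-/
import Mathlib
import Fermat.Agent.S45lib.MThick.TowerRows
import Fermat.Agent.S45lib.Inst.TowerReq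
import Fermat.Agent.S45lib.KMval.StepRes
import Fermat.Agent.S36lib.Mid.Three

set_option autoImplicit false
set_option linter.unusedSectionVars false
set_option linter.unusedVariables false
set_option linter.style.haveILetI false

noncomputable section

namespace Fermat.Agent.S45lib.MThick

open ModularCurve IsLocalRing
open Fermat.Agent.S18lib Fermat.Agent.ProgramR
open Fermat.Agent.S36lib
open Fermat.Agent.S36lib.Thick (RamGaussDatum)
open Fermat.Agent.S36lib.Desc Fermat.Agent.S36lib.Desc2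
open Fermat.Agent.S36lib.Inst (HI qK)
open Fermat.Agent.S36lib.Norm (ofGauss ofRamGauss FiniteHom finrankHom IsUnif IsArch RamOverAlong)
open Fermat.Agent.S36lib.Mid (qFix)
open Fermat.Agent.LSb.Unit (VqR)
open Fermat.Agent.S45lib.Tower (lev alphaFixT betaFixT posT stepT)
open Fermat.Agent.S45lib.Chain (aAlpha aBeta fAlpha fBeta)
open Fermat.Agent.S45lib.CountK (eK)

local notation "Qb" => AlgebraicClosure ℚ

/-! ### powers of `V` -/

section VPow

variable {M q : ℕ} [NeZero M] [NeZero q] [hq : Fact q.Prime] {A : ValuationSubring Qb}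

local notation "kW" => IsLocalRing.ResidueField (Wfix A)

theorem VqR_pow_succ (hA : A.LiesOverPrime q) (n : ℕ) :
    VqR (M := M) hA ^ (n + 1) = (VqR hA).comp (VqR hA ^ n) := by
  rw [pow_succ']
  rfl

/-- `V ^ n` fixes the constants `kW` -/
theorem VqR_pow_const (hA : A.LiesOverPrime q) (n : ℕ) (c : kW) :
    (VqR (M := M) hA ^ n) (algebraMap kW (FRes A M) c) = algebraMap kW (FRes A M) c := by
  induction n with
  | zero => rw [pow_zero]; rfl
  | succ n ih =>
    rw [VqR_pow_succ, RingHom.comp_apply, ih]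
    exact KMval.VqR_algebraMap_resW hA c

theorem finiteHom_VqR_pow (hqM : ¬ q ∣ M) (hA : A.LiesOverPrime q) (n : ℕ) :
    FiniteHom (VqR (M := M) hA ^ n) := by
  induction n with
  | zero => rw [pow_zero]; exact Mid.finiteHom_id
  | succ n ih =>
    rw [VqR_pow_succ]
    exact Mid.finiteHom_comp _ _ ih (J.finiteHom_VqR hqM hA)

/-- `[κ : V^n κ] = q^n` -/
theorem finrankHom_VqR_pow (hqM : ¬ q ∣ M) (hA : A.LiesOverPrime q) (n : ℕ) :
    finrankHom (VqR (M := M) hA ^ n) = q ^ n := by
  induction n with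
  | zero => rw [pow_zero, pow_zero]; exact Mid.finrankHom_id
  | succ n ih =>
    rw [VqR_pow_succ, Mid.finrankHom_comp, ih, J.finrankHom_VqR hqM hA, pow_succ]

/-- `(V ^ n) j̄ = j̄ ^ q ^ n` -/
theorem VqR_pow_jK (hA : A.LiesOverPrime q) (n : ℕ) :
    (VqR (M := M) hA ^ n) (Gink.jK A M) = Gink.jK A M ^ q ^ n :=
  SS.pow_apply_of_pow (VqR hA) (LSb.Unit.VqR_jK hA) n

end VPow

namespace TowerCore

variable {M q : ℕ} [NeZero M] [NeZero q] [hq : Fact q.Prime] {A : ValuationSubring Qb}
variable {hqM : ¬ q ∣ M} {hA : A.LiesOverPrime q} (T : TowerCore M q A hqM hA)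

local notation "kW" => IsLocalRing.ResidueField (Wfix A)

/-! ### the valuation theory of the places -/

/-- the base is a discrete valuation ring with uniformizer `q` -/
theorem baseDVR (hA : A.LiesOverPrime q) : J.BaseDVR (Wfix A) (qK A q) :=
  ⟨Inst.qK_mem A q, Inst.qK_inv_not_mem hq.out hA, Inst.exists_zpow_mul_unit hq.out hA⟩

theorem unif_ne_zero (k : ℕ) (b : Fin (k + 1)) : (T.V k b).unif ≠ 0 :=
  J.ram_unif_ne_zero (baseDVR hA) (T.V k b)

theorem isUnif (k : ℕ) (b : Fin (k + 1)) : IsUnif (T.V k b).O (T.V k b).unif :=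
  Norm.isUnif_ofRamGauss (T.V k b) (T.unif_ne_zero k b)

theorem isArch (k : ℕ) (b : Fin (k + 1)) : IsArch (T.V k b).O :=
  Norm.isArch_ofRamGauss (T.V k b) (T.unif_ne_zero k b)

/-- **`ϖ_b ^ e_b = q · unit`** -/
theorem unif_pow (k : ℕ) (b : Fin (k + 1)) : ∃ u : (T.V k b).Oˣ,
    (T.V k b).unif ^ eK q k b =
      algebraMap (Kfix A) (fixF (lev M q k) (HI A)) (qK A q) * ((u : (T.V k b).O) : _) := by
  refine Inst.exists_unit_of_valuation_eq (T.V k b).O ?_ ?_
  · exact (map_ne_zero _).2 (Inst.qK_ne_zero hq.out)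
  · rw [map_pow, T.ram k b]

/-! ### helper9's `TowerReq` -/

/-- `(V ^ (2 b - k)) j̄ = j̄ ^ q ^ (2 b - k)` : the hypothesis `hιj` of `Inst.mctx_modLX` -/
theorem ιs_jK (k : ℕ) (b : Fin (k + 1)) :
    (VqR (M := M) hA ^ (2 * (b : ℕ) - k)) (Gink.jK A M) =
      Gink.jK A M ^ q ^ (2 * (b : ℕ) - k) :=
  VqR_pow_jK hA _

/-- the row of `posT k 0` with the exponent `(2 b - k)⁺` -/
theorem pos_zero_row (k : ℕ) (b : Fin (k + 1)) :
    Reg.Row (posT M q (HI A) k 0) (VqR (M := M) hA ^ (2 * (b : ℕ) - k))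
      (ofGauss (gaussMK M A hqM hA)) (T.P k b) := by
  have h := T.pos_row k 0 (Nat.zero_le k) b
  rw [dT_zero k b (by have := b.2; omega)] at h
  exact h

/-- **helper9's `Inst.TowerReq` at every level `M q^k`, `1 ≤ k`**, from the tower record (the
function-field facts on `posT k 0` are helper9's `Tower/PosStep`). -/
theorem towerReq (k : ℕ) (hk : 1 ≤ k) :
    Inst.TowerReq hqM hA (lev M q k) (T.V k) (fun b => eK q k b) (posT M q (HI A) k 0)
      (fun b => VqR (M := M) hA ^ (2 * (b : ℕ) - k)) where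
  ψ_const := Tower.posT_algebraMap M q (HI A) k 0
  ψ_j := Subtype.ext (Tower.coe_posT_zero_jFixM M q (HI A) k)
  lies b := by
    refine ⟨(T.pos_zero_row k b).mem, (T.pos_zero_row k b).red, T.isArch k b, T.isUnif k b, ?_⟩
    have h := T.ram k b
    rw [show qFix A q M = algebraMap (Kfix A) (fixF M (HI A)) (qK A q) from rfl,
      Tower.posT_algebraMap M q (HI A) k 0]
    exact h
  ne b b' h := T.ne k b b' h
  fin := Tower.finiteHom_posT M q (HI A) hq.out hqM k 0
  fin_ιs b := finiteHom_VqR_pow hqM hA _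
  deg_sum := by
    rw [Tower.finrankHom_posT M q (HI A) hq.out hqM k 0 hk, ← CountK.sum_fin_eK_mul_f hq.out hk]
    refine Finset.sum_congr rfl fun b _ => ?_
    rw [finrankHom_VqR_pow hqM hA]
  ιs_const b c := VqR_pow_const hA _ c
  e_pos b := CountK.eK_pos hq.out.pos k b

/-! ### the rows of (STEP) -/

/-- the `α`-rows in the form of helper8's `KMval.stepDataK_alpha_of_rows` -/
theorem step_alpha (j : ℕ) (b : Fin (j + 2)) :
    Reg.Row (alphaFixT M q (HI A) j) (KMval.ιresK (M := M) hA (j + 2 ≤ 2 * (b : ℕ)))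
      (J.ramPlace (T.V j (aAlpha j b))) (J.ramPlace (T.V (j + 1) b)) :=
  T.alpha_row j b

/-- the `β`-rows in the form of helper8's `KMval.stepDataK_beta_of_rows` -/
theorem step_beta (j : ℕ) (b : Fin (j + 2)) :
    Reg.Row (betaFixT M q (HI A) j) (KMval.ιresK (M := M) hA (2 * (b : ℕ) ≤ j))
      (J.ramPlace (T.V j (aBeta j b))) (J.ramPlace (T.V (j + 1) b)) :=
  T.beta_row j b

end TowerCore

end Fermat.Agent.S45lib.MThick
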