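/-
S45lib / MThick / CuspK  (helper6)  --  Project J, the Tower seam

**The cusp homomorphisms of ALL the levels, cast-free.**  helper1's `Tower/Cusp` gives
`cuspHom M q hqM a b ζ hζ : FT (a + b) →+* ℚ̄((t))`; the tower needs them indexed by the level `n`
and the component `b ≤ n` (`a = n - b`).  To avoid casts along `n = (n - b) + b` we characterise
them by their VALUES on the generators of `FT n` (`Tower.ringHom_ext_FT`):

* `IsCuspK n b ζ φ` : `φ (f(t)) = f(t^(q^b))` for `f ∈ FT 0`, `φ (j(t^(q^i))) = cuspVal q (n-b) b ζ i`;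
* `isCuspK_of_isCuspHom`, `IsCuspK.unique`, `IsCuspK.isCuspHom` (so that after
  `obtain ⟨a, rfl⟩ : ∃ a, n = a + b` all of `Tower/Cusp`, `CuspRes`, `CuspGauss`, `CuspUnif` applies);
* `exists_isCuspK`, `cuspK M q hqM n b hb ζ hζ`;
* the single-level formulas `IsCuspK.degT_low`, `IsCuspK.degT_high`, `IsCuspK.map_algebraMap`;
* for a COMPATIBLE system of roots of unity `ζ b` (primitive of order `q^b`, `ζ (b+1)^q = ζ b`) the
  hom identities of the tower: `cuspK_alpha_zero`, `cuspK_alpha_succ`, `cuspK_beta_le`,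
  `cuspK_beta_top`, `cuspK_incl`, `cuspK_top`.
-/
import Mathlib
import Fermat.Agent.S45lib.Tower.CuspRes
import Fermat.Agent.S45lib.Tower.NormFix

set_option autoImplicit false
set_option linter.unusedSectionVars false
set_option linter.unusedVariables false
set_option linter.style.haveILetI false

noncomputable section

namespace Fermat.Agent.S45lib.MThick

open ModularCurve Polynomial Module Fermat.Agent.S18lib Fermat.Agent.S18lib.V Fermat.Agent.S28lib
open Fermat.Agent.LSb.Val Fermat.Agent.S36lib.AL Fermat.Agent.S36lib.Eis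
open Fermat.Agent.S45lib.Tower

local notation "Qb" => AlgebraicClosure ℚ

variable (M q : ℕ) [NeZero M] [NeZero q] [hqF : Fact q.Prime]

/-- **the cusp homomorphism of the level `M q^n`, component `b`** (type `(n - b, b)`), characterised
by its values on the generators -/
structure IsCuspK (n b : ℕ) (ζ : Qbˣ) (φ : FT M q n →+* LaurentSeries Qb) : Prop where
  incl : ∀ f : FT M q 0, φ (inclT M q n f) = qExpand Qb (q ^ b) (f : LaurentSeries Qb)
  jT : ∀ (i : ℕ) (hi : i ≤ n), φ (Tower.jT M q n i hi) = cuspVal q (n - b) b ζ i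

variable {M q}

theorem isCuspK_of_isCuspHom {a b : ℕ} {ζ : Qbˣ} {φ : FT M q (a + b) →+* LaurentSeries Qb}
    (h : IsCuspHom M q a b ζ φ) : IsCuspK M q (a + b) b ζ φ where
  incl f := by
    rw [inclT_eq_degT, h.degT_low 0 0 (by omega) f]
    exact qExpand_congr (by rw [add_zero]) _
  jT i hi := by
    rw [h.map_jT i hi, Nat.add_sub_cancel]

theorem IsCuspK.unique (hqM : ¬ q ∣ M) {n b : ℕ} {ζ : Qbˣ} {φ φ' : FT M q n →+* LaurentSeries Qb}
    (h : IsCuspK M q n b ζ φ) (h' : IsCuspK M q n b ζ φ') : φ = φ' := by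
  apply ringHom_ext_FT M q hqM n
  · intro f
    rw [h.incl, h'.incl]
  · intro i hi
    rw [h.jT, h'.jT]

theorem IsCuspK.isCuspHom (hqM : ¬ q ∣ M) {a b : ℕ} {ζ : Qbˣ} (hζ : IsPrimitiveRoot ζ (q ^ b))
    {φ : FT M q (a + b) →+* LaurentSeries Qb} (h : IsCuspK M q (a + b) b ζ φ) :
    IsCuspHom M q a b ζ φ := by
  have e : φ = cuspHom M q hqM a b ζ hζ :=
    h.unique hqM (isCuspK_of_isCuspHom (isCuspHom_cuspHom M q hqM a b ζ hζ))
  rw [e]
  exact isCuspHom_cuspHom M q hqM a b ζ hζ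

theorem exists_isCuspK (hqM : ¬ q ∣ M) (n b : ℕ) (hb : b ≤ n) (ζ : Qbˣ)
    (hζ : IsPrimitiveRoot ζ (q ^ b)) : ∃ φ : FT M q n →+* LaurentSeries Qb, IsCuspK M q n b ζ φ := by
  obtain ⟨a, rfl⟩ : ∃ a, n = a + b := ⟨n - b, by omega⟩
  exact ⟨cuspHom M q hqM a b ζ hζ, isCuspK_of_isCuspHom (isCuspHom_cuspHom M q hqM a b ζ hζ)⟩

variable (M q)

/-- **the cusp homomorphism of level `M q^n`, component `b ≤ n`** -/
def cuspK (hqM : ¬ q ∣ M) (n b : ℕ) (hb : b ≤ n) (ζ : Qbˣ) (hζ : IsPrimitiveRoot ζ (q ^ b)) :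
    FT M q n →+* LaurentSeries Qb :=
  (exists_isCuspK hqM n b hb ζ hζ).choose

theorem isCuspK_cuspK (hqM : ¬ q ∣ M) (n b : ℕ) (hb : b ≤ n) (ζ : Qbˣ)
    (hζ : IsPrimitiveRoot ζ (q ^ b)) : IsCuspK M q n b ζ (cuspK M q hqM n b hb ζ hζ) :=
  (exists_isCuspK hqM n b hb ζ hζ).choose_spec

variable {M q}

/-! ### single-level formulas -/

theorem IsCuspK.map_algebraMap (hqM : ¬ q ∣ M) {n b : ℕ} (hb : b ≤ n) {ζ : Qbˣ}
    (hζ : IsPrimitiveRoot ζ (q ^ b)) {φ : FT M q n →+* LaurentSeries Qb}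
    (h : IsCuspK M q n b ζ φ) (c : Qb) :
    φ (algebraMap Qb (FT M q n) c) = HahnSeries.C c := by
  obtain ⟨a, rfl⟩ : ∃ a, n = a + b := ⟨n - b, by omega⟩
  exact (h.isCuspHom hqM hζ).map_algebraMap c

/-- on functions of level `≤ n - b` : the standard expansion followed by `t ↦ t^(q^b)` -/
theorem IsCuspK.degT_low (hqM : ¬ q ∣ M) {n b : ℕ} {ζ : Qbˣ} (hζ : IsPrimitiveRoot ζ (q ^ b))
    {φ : FT M q n →+* LaurentSeries Qb} (h : IsCuspK M q n b ζ φ) (m s : ℕ)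
    (hms : m + s + b ≤ n) (f : FT M q m) :
    φ (degT M q m n s (by omega) f) = qExpand Qb (q ^ (b + s)) (f : LaurentSeries Qb) := by
  obtain ⟨a, rfl⟩ : ∃ a, n = a + b := ⟨n - b, by omega⟩
  exact (h.isCuspHom hqM hζ).degT_low m s (by omega) f

/-- on the `V`-part -/
theorem IsCuspK.degT_high (hqM : ¬ q ∣ M) {n b : ℕ} {ζ : Qbˣ} (hζ : IsPrimitiveRoot ζ (q ^ b))
    {φ : FT M q n →+* LaurentSeries Qb} (h : IsCuspK M q n b ζ φ) (a : ℕ) (ha : a + b = n)
    (m s : ℕ) (has : a ≤ s) (hms : m + s ≤ n) (f : FT M q m) :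
    φ (degT M q m n s hms f) =
      qExpand Qb (q ^ a) (twist ζ (qExpand Qb (q ^ (n - m - s))
        ((wT M q hqF.out hqM m f : FT M q m) : LaurentSeries Qb))) := by
  subst ha
  exact (h.isCuspHom hqM hζ).degT_high hqM hζ.pow_eq_one m s has hms f

/-! ### `β` and the degeneracy maps -/

theorem bT_eq_degT (n : ℕ) (f : FT M q n) : bT M q n f = degT M q n (n + 1) 1 (by omega) f := by
  apply Subtype.ext
  rw [coe_bT, coe_degT]
  exact qExpand_congr (pow_one q).symm _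

theorem bT_inclT (n : ℕ) (f : FT M q 0) :
    bT M q n (inclT M q n f) = degT M q 0 (n + 1) 1 (by omega) f := by
  apply Subtype.ext
  rw [coe_bT, coe_inclT, coe_degT]
  exact qExpand_congr (pow_one q).symm _

/-! ### the tower identities for a compatible system of roots of unity -/

section Sys

variable (hqM : ¬ q ∣ M) (ζ : ℕ → Qbˣ) (hζ : ∀ b, IsPrimitiveRoot (ζ b) (q ^ b))

/-- the cusp homomorphism of level `M q^n`, component `b ≤ n`, for the system `ζ` -/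
def cK (n b : ℕ) (hb : b ≤ n) : FT M q n →+* LaurentSeries Qb :=
  cuspK M q hqM n b hb (ζ b) (hζ b)

theorem isCuspK_cK (n b : ℕ) (hb : b ≤ n) : IsCuspK M q n b (ζ b) (cK hqM ζ hζ n b hb) :=
  isCuspK_cuspK M q hqM n b hb (ζ b) (hζ b)

theorem qExpand_pow_zero (f : LaurentSeries Qb) : qExpand Qb (q ^ 0) f = f := by
  rw [qExpand_congr (pow_zero q), qExpand_one_apply]

theorem cuspVal_zero (a : ℕ) (ξ : Qbˣ) (i : ℕ) :
    cuspVal q a 0 ξ i = qExpand Qb (q ^ i) (jqModC Qb) := by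
  rw [cuspVal]

/-- the component `b = 0` is the standard expansion -/
theorem cK_zero (n : ℕ) : cK hqM ζ hζ n 0 (Nat.zero_le _) = stdT M q n := by
  have h : IsCuspK M q (n + 0) 0 (ζ 0) (cK hqM ζ hζ n 0 (Nat.zero_le _)) :=
    isCuspK_cK hqM ζ hζ n 0 (Nat.zero_le _)
  have h2 := h.isCuspHom hqM (hζ 0)
  rw [IsCuspHom] at h2
  exact h2

/-- the `α`-row at the pure-`F` end `b = 0` -/
theorem cK_alpha_zero (j : ℕ) :
    (cK hqM ζ hζ (j + 1) 0 (Nat.zero_le _)).comp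
      ((aT M q j : FT M q j →ₐ[Qb] FT M q (j + 1)) : FT M q j →+* FT M q (j + 1)) =
      cK hqM ζ hζ j 0 (Nat.zero_le _) := by
  apply ringHom_ext_FT M q hqM j
  · intro f
    simp only [RingHom.comp_apply, RingHom.coe_coe]
    rw [aT_inclT, (isCuspK_cK hqM ζ hζ _ _ _).incl, (isCuspK_cK hqM ζ hζ _ _ _).incl]
  · intro i hi
    simp only [RingHom.comp_apply, RingHom.coe_coe]
    rw [aT_jT, (isCuspK_cK hqM ζ hζ _ _ _).jT, (isCuspK_cK hqM ζ hζ _ _ _).jT, cuspVal_zero,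
      cuspVal_zero]

variable (hζq : ∀ b, ζ (b + 1) ^ q = ζ b)

include hζq in
/-- the `α`-row, `b = b' + 1 ≥ 1` : `ι_{j+1,b'+1} ∘ α = (t ↦ t^q) ∘ ι_{j,b'}` -/
theorem cK_alpha_succ (j b' : ℕ) (hb : b' ≤ j) :
    (cK hqM ζ hζ (j + 1) (b' + 1) (Nat.succ_le_succ hb)).comp
      ((aT M q j : FT M q j →ₐ[Qb] FT M q (j + 1)) : FT M q j →+* FT M q (j + 1)) =
      (qExpand Qb q).comp (cK hqM ζ hζ j b' hb) := by
  apply ringHom_ext_FT M q hqM j
  · intro f
    simp only [RingHom.comp_apply, RingHom.coe_coe]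
    rw [aT_inclT, (isCuspK_cK hqM ζ hζ _ _ _).incl, (isCuspK_cK hqM ζ hζ _ _ _).incl,
      qExpand_qExpand]
    exact qExpand_congr (pow_succ' q b') _
  · intro i hi
    simp only [RingHom.comp_apply, RingHom.coe_coe]
    rw [aT_jT, (isCuspK_cK hqM ζ hζ _ _ _).jT, (isCuspK_cK hqM ζ hζ _ _ _).jT, cuspVal,
      if_neg (by omega), hζq, Nat.add_sub_add_right]

/-- the `β`-row, `b ≤ j` : `ι_{j+1,b} ∘ β = (t ↦ t^q) ∘ ι_{j,b}` -/
theorem cK_beta_le (j b : ℕ) (hb : b ≤ j) :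
    (cK hqM ζ hζ (j + 1) b (Nat.le_succ_of_le hb)).comp
      ((bT M q j : FT M q j →ₐ[Qb] FT M q (j + 1)) : FT M q j →+* FT M q (j + 1)) =
      (qExpand Qb q).comp (cK hqM ζ hζ j b hb) := by
  apply ringHom_ext_FT M q hqM j
  · intro f
    simp only [RingHom.comp_apply, RingHom.coe_coe]
    rw [bT_inclT, (isCuspK_cK hqM ζ hζ _ _ _).degT_low hqM (hζ b) 0 1 (by omega),
      (isCuspK_cK hqM ζ hζ _ _ _).incl, qExpand_qExpand]
    exact qExpand_congr (pow_succ' q b) _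
  · intro i hi
    simp only [RingHom.comp_apply, RingHom.coe_coe]
    rw [bT_jT, (isCuspK_cK hqM ζ hζ _ _ _).jT, (isCuspK_cK hqM ζ hζ _ _ _).jT,
      Nat.succ_sub hb, cuspVal_succ_left]

/-- the `β`-row at the pure-`V` end `b = j + 1` :
`ι_{j+1,j+1} ∘ β = (t ↦ (ζ_{j+1}/ζ_j) t) ∘ ι_{j,j}` -/
theorem cK_beta_top (j : ℕ) :
    (cK hqM ζ hζ (j + 1) (j + 1) le_rfl).comp
      ((bT M q j : FT M q j →ₐ[Qb] FT M q (j + 1)) : FT M q j →+* FT M q (j + 1)) =
      (twist (ζ (j + 1) * (ζ j)⁻¹)).comp (cK hqM ζ hζ j j le_rfl) := by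
  have hpow : (ζ (j + 1) * (ζ j)⁻¹) ^ (q ^ j) = ζ (j + 1) ^ (q ^ j) := by
    rw [mul_pow, inv_pow, (hζ j).pow_eq_one, inv_one, mul_one]
  apply ringHom_ext_FT M q hqM j
  · intro f
    simp only [RingHom.comp_apply, RingHom.coe_coe]
    rw [bT_inclT, (isCuspK_cK hqM ζ hζ _ _ _).degT_high hqM (hζ (j + 1)) 0 (by omega) 0 1
      (by omega) (by omega), (isCuspK_cK hqM ζ hζ _ _ _).incl, wT_zero,
      qExpand_pow_zero, qExpand_congr (show q ^ (j + 1 - 0 - 1) = q ^ j by congr 1),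
      twist_qExpand, twist_qExpand, hpow]
  · intro i hi
    simp only [RingHom.comp_apply, RingHom.coe_coe]
    rw [bT_jT, (isCuspK_cK hqM ζ hζ _ _ _).jT, (isCuspK_cK hqM ζ hζ _ _ _).jT, Nat.sub_self,
      Nat.sub_self, cuspVal_high q 0 (j + 1) (hζ (j + 1)).pow_eq_one (i + 1) (by omega) (by omega),
      cuspVal_high q 0 j (hζ j).pow_eq_one i (by omega) (by omega),
      qExpand_pow_zero, qExpand_pow_zero, ← twist_mul_unit, inv_mul_cancel_right]
    exact congrArg _ (qExpand_congr (by congr 1; omega) _)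

/-- the position `y ↦ y(z)` : `ι_{k,b} (f(t)) = f(t^(q^b))` -/
theorem cK_incl (k b : ℕ) (hb : b ≤ k) :
    (cK hqM ζ hζ k b hb).comp
      ((inclT M q k : FT M q 0 →ₐ[Qb] FT M q k) : FT M q 0 →+* FT M q k) =
      (qExpand Qb (q ^ b)).comp (stdT M q 0) := by
  refine RingHom.ext fun f => ?_
  simp only [RingHom.comp_apply, RingHom.coe_coe]
  rw [(isCuspK_cK hqM ζ hζ _ _ _).incl, stdT_apply]

/-- the position `y ↦ y(q^k z)` : `ι_{k,b} (f(t^(q^k))) = f(ζ_b t^(q^(k-b)))` -/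
theorem cK_top (k b : ℕ) (hb : b ≤ k) :
    (cK hqM ζ hζ k b hb).comp
      ((degT M q 0 k k (by omega) : FT M q 0 →ₐ[Qb] FT M q k) : FT M q 0 →+* FT M q k) =
      (qExpand Qb (q ^ (k - b))).comp ((twist (ζ b)).comp (stdT M q 0)) := by
  refine RingHom.ext fun f => ?_
  simp only [RingHom.comp_apply, RingHom.coe_coe]
  rw [(isCuspK_cK hqM ζ hζ _ _ _).degT_high hqM (hζ b) (k - b) (by omega) 0 k
      (by omega) (by omega), wT_zero, stdT_apply]
  have e : q ^ (k - 0 - k) = 1 := by rw [Nat.sub_zero, Nat.sub_self, pow_zero]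
  rw [qExpand_congr e, qExpand_one_apply]

end Sys

end Fermat.Agent.S45lib.MThick
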