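/-
S45lib / MThick / GaussRow  (helper6)  --  Project J, the Tower seam

**The abstract raw row of Gauss places.**  `ι : F →+* L((t))`, `ι' : G →+* L((t))`, `ψ : F →+* G`
with `ι' ∘ ψ = T ∘ ι`, where `T` is an endomorphism of `L((t))` compatible with `A((t))` and
`k((t))` (helper2's `Gauss.CoeffCompat A T TA Tk`, e.g. `t ↦ ζ t^m`).  Then `ψ` maps the Gauss
subring of `ι` into the one of `ι'` and the raw reductions satisfy `red' (ψ y) = Tk (red y)`:

* `gaussRow_mem`, `gaussRow_red` : for the subrings / `gaussRed`;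
* `gaussRow_place_mem`, `gaussRow_place_red` : for `Gauss.gaussPlace`;
* `gaussRow_valuation` : `v' (ψ y) = 1 ↔ …` is not needed; instead `gaussRow_lt_one` :
  `v (y) < 1 → v' (ψ y) < 1`.
-/
import Mathlib
import Fermat.Agent.S45lib.Gauss.Subst

set_option autoImplicit false
set_option linter.unusedSectionVars false
set_option linter.unusedVariables false

noncomputable section

namespace Fermat.Agent.S45lib.MThick

open HahnSeries IsLocalRing Fermat.Agent.S45lib.Gauss Fermat.Agent.S36lib.Norm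

section Row

variable {L : Type*} [Field L] (A : ValuationSubring L)
variable {F G : Type*} [Field F] [Field G]
variable (ι : F →+* LaurentSeries L) (ι' : G →+* LaurentSeries L) (ψ : F →+* G)
variable {T : LaurentSeries L →+* LaurentSeries L} {TA : LaurentSeries A →+* LaurentSeries A}
  {Tk : LaurentSeries (ResidueField A) →+* LaurentSeries (ResidueField A)}
  (hT : CoeffCompat A T TA Tk) (hcomp : ι'.comp ψ = T.comp ι)

include hT hcomp in
/-- a presentation of `y` gives a presentation of `ψ y` -/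
theorem gaussRow_pres {y : F} {g h : LaurentSeries A} (e : ι y * incl A h = incl A g) :
    ι' (ψ y) * incl A (TA h) = incl A (TA g) := by
  have h1 : ι' (ψ y) = T (ι y) := congrArg (fun φ : F →+* LaurentSeries L => φ y) hcomp
  rw [h1, hT.incl, hT.incl, ← map_mul, e]

include hT hcomp in
/-- `ψ` maps the Gauss subring of `ι` into the Gauss subring of `ι'` -/
theorem gaussRow_mem {y : F} (hy : y ∈ gaussSubring A ι) : ψ y ∈ gaussSubring A ι' := by
  obtain ⟨g, h, hh, e⟩ := hy
  exact ⟨TA g, TA h, red_compat_ne_zero A hT hh, gaussRow_pres A ι ι' ψ hT hcomp e⟩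

include hT hcomp in
/-- **the raw row**: `red' (ψ y) = Tk (red y)` -/
theorem gaussRow_red (y : gaussSubring A ι) :
    gaussRed A ι' ⟨ψ y, gaussRow_mem A ι ι' ψ hT hcomp y.2⟩ = Tk (gaussRed A ι y) := by
  obtain ⟨g, h, hh, e⟩ := y.2
  rw [gaussRed_eq A ι y hh e,
    gaussRed_eq A ι' ⟨ψ y, gaussRow_mem A ι ι' ψ hT hcomp y.2⟩ (red_compat_ne_zero A hT hh)
      (gaussRow_pres A ι ι' ψ hT hcomp e), hT.red, hT.red, map_div₀]

variable (hι : ∀ x : F, x ≠ 0 → HasGaussRatio A ι x)
  (hι' : ∀ x : G, x ≠ 0 → HasGaussRatio A ι' x)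

include hT hcomp in
theorem gaussRow_place_mem {y : F} (hy : y ∈ (gaussPlace A ι hι).O) :
    ψ y ∈ (gaussPlace A ι' hι').O :=
  gaussRow_mem A ι ι' ψ hT hcomp hy

include hT hcomp in
/-- **the raw row of the Gauss places** -/
theorem gaussRow_place_red {y : F} (hy : y ∈ (gaussPlace A ι hι).O) :
    (((gaussPlace A ι' hι').redF (ψ y) : gaussResidue A ι' hι') :
        LaurentSeries (ResidueField A)) =
      Tk (((gaussPlace A ι hι).redF y : gaussResidue A ι hι) :
        LaurentSeries (ResidueField A)) := by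
  have hy' : y ∈ gaussSubring A ι := hy
  rw [gaussPlace_redF_coe A ι hι hy',
    gaussPlace_redF_coe A ι' hι' (gaussRow_mem A ι ι' ψ hT hcomp hy')]
  exact gaussRow_red A ι ι' ψ hT hcomp ⟨y, hy'⟩

include hT hcomp in
/-- the two valuation rings correspond: `ψ y ∈ O' ↔ y ∈ O` -/
theorem gaussRow_mem_iff (y : F) : ψ y ∈ gaussVS A ι' hι' ↔ y ∈ gaussVS A ι hι := by
  constructor
  · intro hy'
    by_contra hy
    have hv : 1 < (gaussVS A ι hι).valuation y := by
      rw [← not_le, ValuationSubring.valuation_le_one_iff]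
      exact hy
    have hy0 : y ≠ 0 := by
      rintro rfl
      exact hy (gaussVS A ι hι).zero_mem
    have hinv : (gaussVS A ι hι).valuation y⁻¹ < 1 := by
      rw [map_inv₀]
      exact inv_lt_one_of_one_lt₀ hv
    have hmem : y⁻¹ ∈ gaussSubring A ι :=
      ((gaussVS A ι hι).valuation_le_one_iff _).1 hinv.le
    have h0 : gaussRed A ι ⟨y⁻¹, hmem⟩ = 0 := (gaussRed_eq_zero_iff A ι hι ⟨y⁻¹, hmem⟩).2 hinv
    have h1 := gaussRow_red A ι ι' ψ hT hcomp ⟨y⁻¹, hmem⟩
    rw [h0, map_zero] at h1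
    have h2 := (gaussRed_eq_zero_iff A ι' hι' ⟨ψ y⁻¹, _⟩).1 h1
    have h3 : (gaussVS A ι' hι').valuation (ψ y) ≤ 1 :=
      ((gaussVS A ι' hι').valuation_le_one_iff _).2 hy'
    have h4 : (gaussVS A ι' hι').valuation (ψ y⁻¹ * ψ y) < 1 := by
      rw [map_mul]
      exact mul_lt_one_of_nonneg_of_lt_one_left zero_le h2 h3
    rw [← map_mul, inv_mul_cancel₀ hy0, map_one, map_one] at h4
    exact lt_irrefl _ h4
  · intro hy
    exact gaussRow_mem A ι ι' ψ hT hcomp hy

end Row

end Fermat.Agent.S45lib.MThick
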