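/-
S45lib / MThick / TowerData  (helper6)  --  Project J, the Tower seam

**THE CONCRETE RAW PLACES OF THE TOWER**: for a compatible system of roots of unity `ζ b`
(`Tower/ZetaSys`), the Gauss places of the cusp homomorphisms `cK n b` (`MThick/CuspK`) restricted to
the inertia-fixed fields:

* `cF n b hb : fixF (lev M q n) (HI A) →+* ℚ̄((t))`, `hasGaussRatio_cF`;
* `Qp n b hb := Gauss.gaussPlace A (cF n b hb) _`, residue field `Sp n b hb ⊆ kA((t))`;
* the hom identities on the fixed fields `cF_alpha_zero`, `cF_alpha_succ`, `cF_beta_le`,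
  `cF_beta_top`, `cF_pos_zero`, `cF_pos_top`;
* the raw rows `alpha_row_zero/succ`, `beta_row_le/top` (`GaussRow`), the position rows
  `pos_zero_row`, `pos_top_row` relative to the Gauss place `Qp 0 0` of the standard expansion of
  level `M`;
* `exists_unif` : the candidate uniformizers with `unif_ne/unif_lt/ram_le` (helper2's `CuspUnif`);
* `const_mem_Qp` (helper2's `Attain`), `isArch_Qp` (helper8's `GaussArch`).
-/
import Mathlib
import Fermat.Agent.S45lib.MThick.TowerRaw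
import Fermat.Agent.S45lib.MThick.GaussRow
import Fermat.Agent.S45lib.MThick.CuspK
import Fermat.Agent.S45lib.Tower.CuspGauss
import Fermat.Agent.S45lib.Tower.CuspUnif
import Fermat.Agent.S45lib.Gauss.Attain
import Fermat.Agent.S45lib.KMval.GaussArch

set_option autoImplicit false
set_option linter.unusedSectionVars false
set_option linter.unusedVariables false
set_option linter.style.haveILetI false

noncomputable section

namespace Fermat.Agent.S45lib.MThick

open ModularCurve IsLocalRing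
open Fermat.Agent.S18lib Fermat.Agent.ProgramR Fermat.Agent.S28lib
open Fermat.Agent.S36lib
open Fermat.Agent.S36lib.Desc Fermat.Agent.S36lib.Desc2
open Fermat.Agent.S36lib.Inst (HI qK)
open Fermat.Agent.S36lib.Norm (ofGauss IsArch)
open Fermat.Agent.S45lib.Tower
open Fermat.Agent.S45lib.Gauss
open Fermat.Agent.S45lib.CountK (eK)

local notation "Qb" => AlgebraicClosure ℚ

section Data

variable {M q : ℕ} [NeZero M] [NeZero q] [hq : Fact q.Prime] (A : ValuationSubring Qb)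
variable (hqM : ¬ q ∣ M) (hA : A.LiesOverPrime q)
variable (ζ : ℕ → Qbˣ) (hζ : ∀ b, IsPrimitiveRoot (ζ b) (q ^ b))

local notation "kA" => IsLocalRing.ResidueField A

/-- the cusp homomorphism of level `M q^n`, component `b`, on the inertia-fixed field -/
def cF (n b : ℕ) (hb : b ≤ n) : fixF (lev M q n) (HI A) →+* LaurentSeries Qb :=
  cuspFix (HI A) n (cK hqM ζ hζ n b hb)

theorem cF_apply (n b : ℕ) (hb : b ≤ n) (x : fixF (lev M q n) (HI A)) :
    cF A hqM ζ hζ n b hb x = cK hqM ζ hζ n b hb (x : FT M q n) := rfl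

include hA in
theorem hasGaussRatio_cF (n b : ℕ) (hb : b ≤ n) :
    ∀ x : fixF (lev M q n) (HI A), x ≠ 0 → HasGaussRatio A (cF A hqM ζ hζ n b hb) x := by
  obtain ⟨a, rfl⟩ : ∃ a, n = a + b := ⟨n - b, by omega⟩
  exact hasGaussRatio_cuspFix hqM A hA (hζ b) ((isCuspK_cK hqM ζ hζ _ _ hb).isCuspHom hqM (hζ b))

/-- the raw residue field of the component `b` of level `M q^n` -/
def Sp (n b : ℕ) (hb : b ≤ n) : Subfield (LaurentSeries kA) :=
  gaussResidue A (cF A hqM ζ hζ n b hb) (hasGaussRatio_cF A hqM hA ζ hζ n b hb)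

/-- **the raw place of the component `b` of level `M q^n`** -/
def Qp (n b : ℕ) (hb : b ≤ n) :
    Norm.Place (fixF (lev M q n) (HI A)) (Sp A hqM hA ζ hζ n b hb) :=
  gaussPlace A (cF A hqM ζ hζ n b hb) (hasGaussRatio_cF A hqM hA ζ hζ n b hb)

theorem Qp_O (n b : ℕ) (hb : b ≤ n) :
    (Qp A hqM hA ζ hζ n b hb).O =
      gaussVS A (cF A hqM ζ hζ n b hb) (hasGaussRatio_cF A hqM hA ζ hζ n b hb) := rfl

theorem isArch_Qp (n b : ℕ) (hb : b ≤ n) : IsArch (Qp A hqM hA ζ hζ n b hb).O :=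
  KMval.isArch_gaussPlace_of_liesOverPrime A hA _ _

/-! ### the hom identities on the fixed fields -/

theorem cF_alpha_zero (j : ℕ) :
    (cF A hqM ζ hζ (j + 1) 0 (Nat.zero_le _)).comp (alphaFixT M q (HI A) j) =
      (RingHom.id _).comp (cF A hqM ζ hζ j 0 (Nat.zero_le _)) := by
  refine RingHom.ext fun y => ?_
  exact congrArg (fun φ : FT M q j →+* LaurentSeries Qb => φ (y : FT M q j))
    (cK_alpha_zero hqM ζ hζ j)

theorem cF_alpha_succ (hζq : ∀ b, ζ (b + 1) ^ q = ζ b) (j b' : ℕ) (hb : b' ≤ j) :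
    (cF A hqM ζ hζ (j + 1) (b' + 1) (Nat.succ_le_succ hb)).comp (alphaFixT M q (HI A) j) =
      (qExpand Qb q).comp (cF A hqM ζ hζ j b' hb) := by
  refine RingHom.ext fun y => ?_
  exact congrArg (fun φ : FT M q j →+* LaurentSeries Qb => φ (y : FT M q j))
    (cK_alpha_succ hqM ζ hζ hζq j b' hb)

theorem cF_beta_le (j b : ℕ) (hb : b ≤ j) :
    (cF A hqM ζ hζ (j + 1) b (Nat.le_succ_of_le hb)).comp (betaFixT M q (HI A) j) =
      (qExpand Qb q).comp (cF A hqM ζ hζ j b hb) := by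
  refine RingHom.ext fun y => ?_
  exact congrArg (fun φ : FT M q j →+* LaurentSeries Qb => φ (y : FT M q j))
    (cK_beta_le hqM ζ hζ j b hb)

theorem cF_beta_top (j : ℕ) :
    (cF A hqM ζ hζ (j + 1) (j + 1) le_rfl).comp (betaFixT M q (HI A) j) =
      (twist (ζ (j + 1) * (ζ j)⁻¹)).comp (cF A hqM ζ hζ j j le_rfl) := by
  refine RingHom.ext fun y => ?_
  exact congrArg (fun φ : FT M q j →+* LaurentSeries Qb => φ (y : FT M q j))
    (cK_beta_top hqM ζ hζ j)

/-! ### the positions -/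

/-- `posT` with its source spelled at the level `lev M q 0` (`= M` by `rfl`) -/
def posT' (k i : ℕ) : fixF (lev M q 0) (HI A) →+* fixF (lev M q k) (HI A) :=
  posT M q (HI A) k i

theorem posT'_apply (k i : ℕ) (y : fixF (lev M q 0) (HI A)) :
    posT' (M := M) (q := q) A k i y = posT M q (HI A) k i y := rfl

theorem coe_posT'_zero (k : ℕ) (y : fixF (lev M q 0) (HI A)) :
    ((posT' (M := M) (q := q) A k 0 y : fixF (lev M q k) (HI A)) : FT M q k) =
      inclT M q k (y : FT M q 0) := by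
  induction k with
  | zero =>
    exact (Subtype.ext (coe_inclT M q 0 (y : FT M q 0)) :
      inclT M q 0 (y : FT M q 0) = (y : FT M q 0)).symm
  | succ k ih =>
    have e : posT' (M := M) (q := q) A (k + 1) 0 y =
        alphaFixT M q (HI A) k (posT' (M := M) (q := q) A k 0 y) := by
      show posT M q (HI A) (k + 1) 0 y = _
      rw [posT_succ_of_le M q (HI A) (Nat.zero_le k)]
      rfl
    rw [e, coe_alphaFixT, ih]
    exact aT_inclT M q k _

theorem coe_posT'_top (k : ℕ) (y : fixF (lev M q 0) (HI A)) :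
    ((posT' (M := M) (q := q) A k k y : fixF (lev M q k) (HI A)) : FT M q k) =
      degT M q 0 k k (by omega) (y : FT M q 0) := by
  induction k with
  | zero => exact (degT_zero_self M q 0 (y : FT M q 0)).symm
  | succ k ih =>
    have e : posT' (M := M) (q := q) A (k + 1) (k + 1) y =
        betaFixT M q (HI A) k (posT' (M := M) (q := q) A k k y) := by
      show posT M q (HI A) (k + 1) (k + 1) y = _
      rw [posT_succ_last]
      rfl
    rw [e, coe_betaFixT, ih]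
    apply Subtype.ext
    show ((bT M q k (degT M q 0 k k (by omega) (y : FT M q 0)) : FT M q (k + 1)) :
      LaurentSeries Qb) = _
    rw [coe_bT, coe_degT, coe_degT, qExpand_qExpand]
    exact qExpand_congr (pow_succ' q k).symm _

theorem cF_zero_zero (y : fixF (lev M q 0) (HI A)) :
    cF A hqM ζ hζ 0 0 le_rfl y = ((y : FT M q 0) : LaurentSeries Qb) := by
  rw [cF_apply, cK_zero]
  rfl

theorem cF_pos_zero (k b : ℕ) (hb : b ≤ k) :
    (cF A hqM ζ hζ k b hb).comp (posT' (M := M) (q := q) A k 0) =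
      (qExpand Qb (q ^ b)).comp (cF A hqM ζ hζ 0 0 le_rfl) := by
  refine RingHom.ext fun y => ?_
  rw [RingHom.comp_apply, RingHom.comp_apply, cF_apply, coe_posT'_zero,
    (isCuspK_cK hqM ζ hζ k b hb).incl, cF_zero_zero]

theorem cF_pos_top (k b : ℕ) (hb : b ≤ k) :
    (cF A hqM ζ hζ k b hb).comp (posT' (M := M) (q := q) A k k) =
      ((qExpand Qb (q ^ (k - b))).comp (twist (ζ b))).comp (cF A hqM ζ hζ 0 0 le_rfl) := by
  refine RingHom.ext fun y => ?_
  rw [RingHom.comp_apply, RingHom.comp_apply, RingHom.comp_apply, cF_apply, coe_posT'_top,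
    cF_zero_zero]
  exact congrArg (fun φ : FT M q 0 →+* LaurentSeries Qb => φ (y : FT M q 0))
    (cK_top hqM ζ hζ k b hb)

/-! ### twists by roots of unity of `q`-power order are compatible, with trivial residue map -/

include hA in
theorem exists_compat_twist (ξ : Qbˣ) (m : ℕ) (hξ : ξ ^ (q ^ m) = 1) :
    ∃ TA : LaurentSeries A →+* LaurentSeries A, CoeffCompat A (twist ξ) TA (RingHom.id _) := by
  have hN : q ^ m ≠ 0 := pow_ne_zero m hq.out.ne_zero
  have hv : A.valuation (ξ : Qb) = 1 := valuation_unit_root_eq_one A hN hξ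
  have hv' : A.valuation ((ξ⁻¹ : Qbˣ) : Qb) = 1 :=
    valuation_unit_root_eq_one A hN (by rw [inv_pow, hξ, inv_one])
  have h1 : (ξ : Qb) ∈ A := (A.valuation_le_one_iff _).1 hv.le
  have h2 : ((ξ⁻¹ : Qbˣ) : Qb) ∈ A := (A.valuation_le_one_iff _).1 hv'.le
  let u : Aˣ := ⟨⟨(ξ : Qb), h1⟩, ⟨((ξ⁻¹ : Qbˣ) : Qb), h2⟩,
    Subtype.ext (by simp), Subtype.ext (by simp)⟩
  have hu : unitL A u = ξ := Units.ext rfl
  have hu1 : u ^ (q ^ m) = 1 := by
    apply Units.ext
    apply Subtype.ext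
    have := congrArg (fun x : Qbˣ => (x : Qb)) hξ
    simpa using this
  refine ⟨twist u, ?_⟩
  have h := compat_twist_of_pow A hq.out (valuation_q_lt_one hA) u hu1
  rwa [hu] at h

/-! ### the raw rows -/

/-- the `α`-row at `b = 0` (raw residue map `id`) -/
theorem alpha_row_zero (j : ℕ) (y : fixF (lev M q j) (HI A))
    (hy : y ∈ (Qp A hqM hA ζ hζ j 0 (Nat.zero_le _)).O) :
    alphaFixT M q (HI A) j y ∈ (Qp A hqM hA ζ hζ (j + 1) 0 (Nat.zero_le _)).O ∧
      (((Qp A hqM hA ζ hζ (j + 1) 0 (Nat.zero_le _)).redF (alphaFixT M q (HI A) j y) :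
        Sp A hqM hA ζ hζ (j + 1) 0 (Nat.zero_le _)) : LaurentSeries kA) =
      (((Qp A hqM hA ζ hζ j 0 (Nat.zero_le _)).redF y :
        Sp A hqM hA ζ hζ j 0 (Nat.zero_le _)) : LaurentSeries kA) :=
  ⟨gaussRow_place_mem A _ _ _ (compat_id A) (cF_alpha_zero A hqM ζ hζ j) _ _ hy,
    gaussRow_place_red A _ _ _ (compat_id A) (cF_alpha_zero A hqM ζ hζ j) _ _ hy⟩

/-- the `α`-row at `b = b' + 1` (raw residue map `t ↦ t^q`) -/
theorem alpha_row_succ (hζq : ∀ b, ζ (b + 1) ^ q = ζ b) (j b' : ℕ) (hb : b' ≤ j)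
    (y : fixF (lev M q j) (HI A)) (hy : y ∈ (Qp A hqM hA ζ hζ j b' hb).O) :
    alphaFixT M q (HI A) j y ∈ (Qp A hqM hA ζ hζ (j + 1) (b' + 1) (Nat.succ_le_succ hb)).O ∧
      (((Qp A hqM hA ζ hζ (j + 1) (b' + 1) (Nat.succ_le_succ hb)).redF
        (alphaFixT M q (HI A) j y) :
        Sp A hqM hA ζ hζ (j + 1) (b' + 1) (Nat.succ_le_succ hb)) : LaurentSeries kA) =
      qExpand kA q (((Qp A hqM hA ζ hζ j b' hb).redF y :
        Sp A hqM hA ζ hζ j b' hb) : LaurentSeries kA) :=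
  ⟨gaussRow_place_mem A _ _ _ (compat_qExpand A q) (cF_alpha_succ A hqM ζ hζ hζq j b' hb) _ _ hy,
    gaussRow_place_red A _ _ _ (compat_qExpand A q) (cF_alpha_succ A hqM ζ hζ hζq j b' hb) _ _ hy⟩

/-- the `β`-row at `b ≤ j` (raw residue map `t ↦ t^q`) -/
theorem beta_row_le (j b : ℕ) (hb : b ≤ j)
    (y : fixF (lev M q j) (HI A)) (hy : y ∈ (Qp A hqM hA ζ hζ j b hb).O) :
    betaFixT M q (HI A) j y ∈ (Qp A hqM hA ζ hζ (j + 1) b (Nat.le_succ_of_le hb)).O ∧
      (((Qp A hqM hA ζ hζ (j + 1) b (Nat.le_succ_of_le hb)).redF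
        (betaFixT M q (HI A) j y) :
        Sp A hqM hA ζ hζ (j + 1) b (Nat.le_succ_of_le hb)) : LaurentSeries kA) =
      qExpand kA q (((Qp A hqM hA ζ hζ j b hb).redF y :
        Sp A hqM hA ζ hζ j b hb) : LaurentSeries kA) :=
  ⟨gaussRow_place_mem A _ _ _ (compat_qExpand A q) (cF_beta_le A hqM ζ hζ j b hb) _ _ hy,
    gaussRow_place_red A _ _ _ (compat_qExpand A q) (cF_beta_le A hqM ζ hζ j b hb) _ _ hy⟩

/-- the `β`-row at `b = j + 1` (raw residue map `id`) -/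
theorem beta_row_top (j : ℕ)
    (y : fixF (lev M q j) (HI A)) (hy : y ∈ (Qp A hqM hA ζ hζ j j le_rfl).O) :
    betaFixT M q (HI A) j y ∈ (Qp A hqM hA ζ hζ (j + 1) (j + 1) le_rfl).O ∧
      (((Qp A hqM hA ζ hζ (j + 1) (j + 1) le_rfl).redF (betaFixT M q (HI A) j y) :
        Sp A hqM hA ζ hζ (j + 1) (j + 1) le_rfl) : LaurentSeries kA) =
      (((Qp A hqM hA ζ hζ j j le_rfl).redF y :
        Sp A hqM hA ζ hζ j j le_rfl) : LaurentSeries kA) := by
  have hξ : (ζ (j + 1) * (ζ j)⁻¹) ^ (q ^ (j + 1)) = 1 := by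
    rw [mul_pow, inv_pow, (hζ (j + 1)).pow_eq_one, pow_succ, pow_mul, (hζ j).pow_eq_one, one_pow,
      inv_one, mul_one]
  obtain ⟨TA, hT⟩ := exists_compat_twist A hA (ζ (j + 1) * (ζ j)⁻¹) (j + 1) hξ
  exact ⟨gaussRow_place_mem A _ _ _ hT (cF_beta_top A hqM ζ hζ j) _ _ hy,
    gaussRow_place_red A _ _ _ hT (cF_beta_top A hqM ζ hζ j) _ _ hy⟩

/-- the position `y ↦ y(z)` (raw residue map `t ↦ t^(q^b)`) -/
theorem pos_zero_row (k b : ℕ) (hb : b ≤ k)
    (y : fixF (lev M q 0) (HI A)) (hy : y ∈ (Qp A hqM hA ζ hζ 0 0 le_rfl).O) :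
    posT M q (HI A) k 0 y ∈ (Qp A hqM hA ζ hζ k b hb).O ∧
      (((Qp A hqM hA ζ hζ k b hb).redF (posT M q (HI A) k 0 y) :
        Sp A hqM hA ζ hζ k b hb) : LaurentSeries kA) =
      qExpand kA (q ^ b) (((Qp A hqM hA ζ hζ 0 0 le_rfl).redF y :
        Sp A hqM hA ζ hζ 0 0 le_rfl) : LaurentSeries kA) :=
  ⟨gaussRow_place_mem A _ _ _ (compat_qExpand A (q ^ b)) (cF_pos_zero A hqM ζ hζ k b hb) _ _ hy,
    gaussRow_place_red A _ _ _ (compat_qExpand A (q ^ b)) (cF_pos_zero A hqM ζ hζ k b hb) _ _ hy⟩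

/-- the position `y ↦ y(q^k z)` (raw residue map `t ↦ t^(q^(k-b))`) -/
theorem pos_top_row (k b : ℕ) (hb : b ≤ k)
    (y : fixF (lev M q 0) (HI A)) (hy : y ∈ (Qp A hqM hA ζ hζ 0 0 le_rfl).O) :
    posT M q (HI A) k k y ∈ (Qp A hqM hA ζ hζ k b hb).O ∧
      (((Qp A hqM hA ζ hζ k b hb).redF (posT M q (HI A) k k y) :
        Sp A hqM hA ζ hζ k b hb) : LaurentSeries kA) =
      qExpand kA (q ^ (k - b)) (((Qp A hqM hA ζ hζ 0 0 le_rfl).redF y :
        Sp A hqM hA ζ hζ 0 0 le_rfl) : LaurentSeries kA) := by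
  obtain ⟨TA, hT⟩ := exists_compat_twist A hA (ζ b) b (hζ b).pow_eq_one
  have hT' := CoeffCompat.comp A (compat_qExpand A (q ^ (k - b))) hT
  exact ⟨gaussRow_place_mem A _ _ _ hT' (cF_pos_top A hqM ζ hζ k b hb) _ _ hy,
    gaussRow_place_red A _ _ _ hT' (cF_pos_top A hqM ζ hζ k b hb) _ _ hy⟩

/-! ### constants and uniformizers -/

theorem cF_algebraMap (n b : ℕ) (hb : b ≤ n) (c : Kfix A) :
    cF A hqM ζ hζ n b hb (algebraMap (Kfix A) (fixF (lev M q n) (HI A)) c) =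
      HahnSeries.C (c : Qb) := by
  obtain ⟨a, rfl⟩ : ∃ a, n = a + b := ⟨n - b, by omega⟩
  exact cuspFix_algebraMap (HI A) ((isCuspK_cK hqM ζ hζ _ _ hb).isCuspHom hqM (hζ b)) c

/-- the constants (membership) -/
theorem const_mem_Qp (n b : ℕ) (hb : b ≤ n) (c : Kfix A) :
    algebraMap (Kfix A) (fixF (lev M q n) (HI A)) c ∈ (Qp A hqM hA ζ hζ n b hb).O ↔
      c ∈ Wfix A :=
  mem_gaussVS_of_C_iff A _ (hasGaussRatio_cF A hqM hA ζ hζ n b hb)
    (cF_algebraMap A hqM ζ hζ n b hb c)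

/-- the constants (raw reduction) -/
theorem const_red_Qp (n b : ℕ) (hb : b ≤ n) (a : Wfix A) :
    (((Qp A hqM hA ζ hζ n b hb).redF
      (algebraMap (Kfix A) (fixF (lev M q n) (HI A)) (a : Kfix A)) :
        Sp A hqM hA ζ hζ n b hb) : LaurentSeries kA) =
      HahnSeries.C (residue A ⟨((a : Kfix A) : Qb), a.2⟩) :=
  gaussPlace_redF_of_C A _ (hasGaussRatio_cF A hqM hA ζ hζ n b hb) a.2
    (cF_algebraMap A hqM ζ hζ n b hb (a : Kfix A))

/-- **the candidate uniformizers**, with `unif_ne`, `unif_lt`, `ram_le` (helper2's `CuspUnif`) -/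
theorem exists_unif (n b : ℕ) (hb : b ≤ n) :
    ∃ ϖ : fixF (lev M q n) (HI A), ϖ ≠ 0 ∧ (Qp A hqM hA ζ hζ n b hb).O.valuation ϖ < 1 ∧
      (Qp A hqM hA ζ hζ n b hb).O.valuation
        (algebraMap (Kfix A) (fixF (lev M q n) (HI A)) (qK A q)) ≤
        (Qp A hqM hA ζ hζ n b hb).O.valuation ϖ ^ eK q n b := by
  have hx : cF A hqM ζ hζ n b hb (algebraMap (Kfix A) (fixF (lev M q n) (HI A)) (qK A q)) =
      HahnSeries.C ((q : ℕ) : Qb) := by
    rw [cF_algebraMap]
    rfl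
  obtain ⟨a, rfl⟩ : ∃ a, n = a + b := ⟨n - b, by omega⟩
  have hcusp := (isCuspK_cK hqM ζ hζ _ _ hb).isCuspHom hqM (hζ b)
  have heK : eK q (a + b) b = Nat.totient (q ^ min b a) := by
    unfold eK
    rw [Nat.add_sub_cancel]
  rcases Nat.eq_zero_or_pos (min b a) with h0 | hpos
  · obtain ⟨h1, h2⟩ := cuspFix_unif_zero A hA (hasGaussRatio_cF A hqM hA ζ hζ (a + b) b hb) _ hx
    refine ⟨_, h1, h2, ?_⟩
    rw [heK, h0, pow_zero, Nat.totient_one, pow_one]
  · obtain ⟨h1, h2, h3⟩ := cuspFix_unif hqM A hA (hζ b) hcusp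
      (hasGaussRatio_cF A hqM hA ζ hζ (a + b) b hb) (min b a) hpos (min_le_right _ _)
      (min_le_left _ _)
    refine ⟨_, h1, h2, ?_⟩
    rw [heK]
    exact le_of_eq (h3 _ hx)

end Data

end Fermat.Agent.S45lib.MThick
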