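/-
S45lib / MThick / WqCompare  (helper6)  --  Project J, the Tower seam

**The Atkin–Lehner involution `w_q` of level `M q`: the two constructions agree.**
`Tower.wT M q hq hqM 1` (`= AL.wQ (M q) M (q^1)`, helper1's tower) and `LSb.Val.wq M q hq hqM`
(main, used by `gaussTwo`) are the same automorphism of `FBar (M * q)`: they agree on the constants
and on the generators `j(t^d)`, `d ∣ M q`.
-/
import Mathlib
import Fermat.Agent.S45lib.Tower.CuspGauss

set_option autoImplicit false
set_option linter.unusedSectionVars false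
set_option linter.unusedVariables false
set_option linter.style.haveILetI false

noncomputable section

namespace Fermat.Agent.S45lib.MThick

open ModularCurve Fermat.Agent.S18lib Fermat.Agent.S18lib.V Fermat.Agent.S28lib
open Fermat.Agent.LSb.Val Fermat.Agent.S36lib.AL Fermat.Agent.S36lib.Eis
open Fermat.Agent.S45lib.Tower

local notation "Qb" => AlgebraicClosure ℚ

variable {M q : ℕ} [NeZero M] [NeZero q] [hqF : Fact q.Prime]

/-- **`w_{q^1}` of the tower is main's `w_q`** -/
theorem wT_one_eq_wq (hqM : ¬ q ∣ M) (f : FT M q 1) :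
    wT M q hqF.out hqM 1 f = wq M q hqF.out hqM f := by
  have key : ((wT M q hqF.out hqM 1 : FT M q 1 ≃ₐ[Qb] FT M q 1) : FT M q 1 →+* FT M q 1) =
      ((wq M q hqF.out hqM : FBar (M * q) ≃ₐ[Qb] FBar (M * q)) :
        FBar (M * q) →+* FBar (M * q)) := by
    apply Tower.ringHom_ext_FBar (lev M q 1)
    · intro a
      simp only [RingHom.coe_coe, AlgEquiv.commutes]
      exact ((wq M q hqF.out hqM).commutes a).symm
    · intro d _ hd
      simp only [RingHom.coe_coe]
      obtain ⟨d', i, hd', hi, e⟩ := exists_factor_lev hd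
      haveI : NeZero d' := ⟨by rintro rfl; exact NeZero.ne d (by rw [e, zero_mul])⟩
      haveI : NeZero (d' * 1) := ⟨by rw [mul_one]; exact NeZero.ne d'⟩
      haveI : NeZero (d' * q) := ⟨mul_ne_zero (NeZero.ne d') (NeZero.ne q)⟩
      have h1 : d' * 1 ∣ lev M q 1 := by
        rw [mul_one]; exact hd'.trans (Dvd.intro q rfl)
      have hq1 : d' * q ∣ lev M q 1 := Nat.mul_dvd_mul_right hd' q
      have hd'1 : d' ∣ M * q := hd'.trans (Dvd.intro q rfl)
      rcases Nat.le_one_iff_eq_zero_or_eq_one.1 hi with rfl | rfl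
      · -- `d = d'`
        have e1 : d = d' * 1 := by rw [e, pow_zero]
        have e2 : d = d' := by rw [e, pow_zero, mul_one]
        rw [jd_congr (lev M q 1) e1 hd h1,
          wT_jd M q hqF.out hqM 1 d' 1 q hd' (by rw [pow_one, one_mul]) h1 hq1]
        have e3 : jd (lev M q 1) (d' * 1) h1 = jd (M * q) d' hd'1 :=
          jd_congr (lev M q 1) (mul_one d') h1 hd'1
        rw [e3]
        exact (wq_jd M q hqF.out hqM d' hd').symm
      · -- `d = d' q`
        have e1 : d = d' * q := by rw [e, pow_one]
        rw [jd_congr (lev M q 1) e1 hd hq1,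
          wT_jd M q hqF.out hqM 1 d' q 1 hd' (by rw [pow_one, mul_one]) hq1 h1]
        have e3 : jd (lev M q 1) (d' * 1) h1 = jd (M * q) d' hd'1 :=
          jd_congr (lev M q 1) (mul_one d') h1 hd'1
        rw [e3]
        exact (wq_jd_mul M q hqF.out hqM d' hd').symm
  exact congrArg (fun φ : FT M q 1 →+* FT M q 1 => φ f) key

end Fermat.Agent.S45lib.MThick
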