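/-
S45lib / MThick / TowerFinal  (helper6)  --  Project J, the Tower seam

**THE TOWER RECORD EXISTS**: for every `q` prime, `q ∤ M`, `A ∣ q`:
`towerCore_all M q A hqM hA : TowerCore M q A hqM hA`.

Assembly of helper8's `KMval.TowerRawMin` (= `TowerRaw` minus the fields that follow from the
consecutive rows) from:
* `MThick/TowerData` : the raw places `Qp n b`, the `α`/`β` raw rows, constants, uniformizers, arch;
* helper2's `Tower/StdCompare` : main's `gaussMK`, `gaussOneK`, `gaussTwoK` are the Gauss places of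
  the standard expansions (`stdFix M`, `stdFix (M q)`, `stdFix (M q) ∘ w_q`);
* `MThick/WqCompare` : `w_{q^1}` of the tower is main's `w_q`;
* helper8's `KMval/GaussRow` : `coe_VqR`, `coe_algebraMap_kW`;
* helper2's `Tower/ZetaSys` : the compatible system of roots of unity.
-/
import Mathlib
import Fermat.Agent.S45lib.MThick.TowerData
import Fermat.Agent.S45lib.MThick.WqCompare
import Fermat.Agent.S45lib.Tower.StdCompare
import Fermat.Agent.S45lib.Tower.ZetaSys
import Fermat.Agent.S45lib.KMval.RawMin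
import Fermat.Agent.S45lib.KMval.GaussRow

set_option autoImplicit false
set_option linter.unusedSectionVars false
set_option linter.unusedVariables false
set_option linter.style.haveILetI false

noncomputable section

namespace Fermat.Agent.S45lib.MThick

open ModularCurve IsLocalRing
open Fermat.Agent.S18lib Fermat.Agent.ProgramR Fermat.Agent.S28lib
open Fermat.Agent.S36lib
open Fermat.Agent.S36lib.Desc Fermat.Agent.S36lib.Desc2
open Fermat.Agent.S36lib.Inst (HI qK)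
open Fermat.Agent.S36lib.Norm (ofGauss IsArch)
open Fermat.Agent.LSb.Unit (VqR)
open Fermat.Agent.LSb.Val (wq)
open Fermat.Agent.S45lib.Tower
open Fermat.Agent.S45lib.Gauss
open Fermat.Agent.S45lib.Chain (aAlpha aBeta)
open Fermat.Agent.S45lib.CountK (eK)

local notation "Qb" => AlgebraicClosure ℚ

/-! ### congruence of Gauss places -/

theorem gaussPlace_congr {L : Type*} [Field L] (A : ValuationSubring L) {F : Type*} [Field F]
    {ι ι' : F →+* LaurentSeries L} (h : ι = ι')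
    (hι : ∀ x : F, x ≠ 0 → HasGaussRatio A ι x) (hι' : ∀ x : F, x ≠ 0 → HasGaussRatio A ι' x) :
    (gaussPlace A ι hι).O = (gaussPlace A ι' hι').O ∧
      ∀ x : F, (((gaussPlace A ι hι).redF x : gaussResidue A ι hι) :
          LaurentSeries (ResidueField A)) =
        (((gaussPlace A ι' hι').redF x : gaussResidue A ι' hι') :
          LaurentSeries (ResidueField A)) := by
  subst h
  exact ⟨rfl, fun _ => rfl⟩

section Final

variable {M q : ℕ} [NeZero M] [NeZero q] [hq : Fact q.Prime] (A : ValuationSubring Qb)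
variable (hqM : ¬ q ∣ M) (hA : A.LiesOverPrime q)
variable (ζ : ℕ → Qbˣ) (hζ : ∀ b, IsPrimitiveRoot (ζ b) (q ^ b))

local notation "kA" => IsLocalRing.ResidueField A
local notation "kW" => IsLocalRing.ResidueField (Wfix A)

/-! ### the components `b = 0` and `(0, 1)` against the standard expansions -/

theorem cF_zero_eq_stdFix (n : ℕ) :
    cF A hqM ζ hζ n 0 (Nat.zero_le _) = stdFix (lev M q n) (HI A) := by
  refine RingHom.ext fun x => ?_
  rw [cF_apply, cK_zero]
  rfl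

theorem cF_one_one_eq :
    cF A hqM ζ hζ 1 1 le_rfl = (twist (ζ 1)).comp (stdW M q A hqM) := by
  refine RingHom.ext fun x => ?_
  have h : IsCuspK M q (0 + 1) 1 (ζ 1) (cK hqM ζ hζ 1 1 le_rfl) := isCuspK_cK hqM ζ hζ 1 1 le_rfl
  have h2 := (h.isCuspHom hqM (hζ 1)).degT_top hqM (hζ 1).pow_eq_one (x : FT M q 1)
  rw [degT_zero_self, vHom_apply, qExpand_pow_zero, wT_one_eq_wq] at h2
  exact h2

/-! ### the Fin-indexed raw data -/

/-- the raw residue fields -/
def Sf (k : ℕ) (b : Fin (k + 1)) : Subfield (LaurentSeries kA) :=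
  Sp A hqM hA ζ hζ k b (Nat.le_of_lt_succ b.2)

/-- the raw places -/
def Qf (k : ℕ) (b : Fin (k + 1)) :
    Norm.Place (fixF (lev M q k) (HI A)) (Sf A hqM hA ζ hζ k b) :=
  Qp A hqM hA ζ hζ k b (Nat.le_of_lt_succ b.2)

/-- the candidate uniformizers -/
def ϖf (k : ℕ) (b : Fin (k + 1)) : fixF (lev M q k) (HI A) :=
  (exists_unif A hqM hA ζ hζ k b (Nat.le_of_lt_succ b.2)).choose

theorem ϖf_spec (k : ℕ) (b : Fin (k + 1)) :
    ϖf A hqM hA ζ hζ k b ≠ 0 ∧
      (Qf A hqM hA ζ hζ k b).O.valuation (ϖf A hqM hA ζ hζ k b) < 1 ∧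
      (Qf A hqM hA ζ hζ k b).O.valuation
        (algebraMap (Kfix A) (fixF (lev M q k) (HI A)) (qK A q)) ≤
        (Qf A hqM hA ζ hζ k b).O.valuation (ϖf A hqM hA ζ hζ k b) ^ eK q k b :=
  (exists_unif A hqM hA ζ hζ k b (Nat.le_of_lt_succ b.2)).choose_spec

/-! ### the Fin-indexed rows -/

theorem VΩ_pow_zero (x : LaurentSeries kA) : ((qExpand kA q) ^ 0) x = x := by
  rw [pow_zero]
  rfl

theorem VΩ_pow_one (x : LaurentSeries kA) : ((qExpand kA q) ^ 1) x = qExpand kA q x := by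
  rw [pow_one]

theorem alpha_fin (hζq : ∀ b, ζ (b + 1) ^ q = ζ b) (j : ℕ) (b : Fin (j + 2))
    (y : fixF (lev M q j) (HI A)) (hy : y ∈ (Qf A hqM hA ζ hζ j (aAlpha j b)).O) :
    alphaFixT M q (HI A) j y ∈ (Qf A hqM hA ζ hζ (j + 1) b).O ∧
      (((Qf A hqM hA ζ hζ (j + 1) b).redF (alphaFixT M q (HI A) j y) :
        Sf A hqM hA ζ hζ (j + 1) b) : LaurentSeries kA) =
      ((qExpand kA q) ^ rawA (b : ℕ))
        (((Qf A hqM hA ζ hζ j (aAlpha j b)).redF y :
          Sf A hqM hA ζ hζ j (aAlpha j b)) : LaurentSeries kA) := by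
  obtain ⟨b, hb⟩ := b
  cases b with
  | zero =>
    have h := alpha_row_zero A hqM hA ζ hζ j y hy
    refine ⟨h.1, ?_⟩
    have e : rawA ((⟨0, hb⟩ : Fin (j + 2)) : ℕ) = 0 := if_pos rfl
    rw [e, VΩ_pow_zero]
    exact h.2
  | succ b' =>
    have hb' : b' ≤ j := by omega
    have h := alpha_row_succ A hqM hA ζ hζ hζq j b' hb' y hy
    refine ⟨h.1, ?_⟩
    have e : rawA ((⟨b' + 1, hb⟩ : Fin (j + 2)) : ℕ) = 1 := if_neg (Nat.succ_ne_zero b')
    rw [e, VΩ_pow_one]
    exact h.2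

/-- the `β`-row with a generic low index -/
theorem beta_gen (j b c : ℕ) (hb : b ≤ j + 1) (hc : c ≤ j) (hcb : c = min b j)
    (y : fixF (lev M q j) (HI A)) (hy : y ∈ (Qp A hqM hA ζ hζ j c hc).O) :
    betaFixT M q (HI A) j y ∈ (Qp A hqM hA ζ hζ (j + 1) b hb).O ∧
      (((Qp A hqM hA ζ hζ (j + 1) b hb).redF (betaFixT M q (HI A) j y) :
        Sp A hqM hA ζ hζ (j + 1) b hb) : LaurentSeries kA) =
      ((qExpand kA q) ^ rawB j b)
        (((Qp A hqM hA ζ hζ j c hc).redF y : Sp A hqM hA ζ hζ j c hc) : LaurentSeries kA) := by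
  rcases Nat.lt_or_ge j b with h | h
  · obtain rfl : b = j + 1 := by omega
    obtain rfl : c = j := by rw [hcb]; exact min_eq_right (by omega)
    have h' := beta_row_top A hqM hA ζ hζ c y hy
    refine ⟨h'.1, ?_⟩
    have e : rawB c (c + 1) = 0 := if_pos rfl
    rw [e, VΩ_pow_zero]
    exact h'.2
  · obtain rfl : c = b := by rw [hcb]; exact min_eq_left h
    have h' := beta_row_le A hqM hA ζ hζ j c h y hy
    refine ⟨h'.1, ?_⟩
    have e : rawB j c = 1 := if_neg (by omega)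
    rw [e, VΩ_pow_one]
    exact h'.2

theorem beta_fin (j : ℕ) (b : Fin (j + 2))
    (y : fixF (lev M q j) (HI A)) (hy : y ∈ (Qf A hqM hA ζ hζ j (aBeta j b)).O) :
    betaFixT M q (HI A) j y ∈ (Qf A hqM hA ζ hζ (j + 1) b).O ∧
      (((Qf A hqM hA ζ hζ (j + 1) b).redF (betaFixT M q (HI A) j y) :
        Sf A hqM hA ζ hζ (j + 1) b) : LaurentSeries kA) =
      ((qExpand kA q) ^ rawB j (b : ℕ))
        (((Qf A hqM hA ζ hζ j (aBeta j b)).redF y :
          Sf A hqM hA ζ hζ j (aBeta j b)) : LaurentSeries kA) :=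
  beta_gen A hqM hA ζ hζ j (b : ℕ) (min (b : ℕ) j) (Nat.le_of_lt_succ b.2)
    (Nat.le_of_lt_succ (aBeta j b).2) rfl y hy

/-! ### the comparisons with main's data -/

include hA in
theorem hι_std (N : ℕ) [NeZero N] :
    ∀ x : fixF N (HI A), x ≠ 0 → HasGaussRatio A (stdFix N (HI A)) x :=
  fun x hx => hasGaussRatio_stdFix N (HI A) A hq.out hA le_rfl x hx

theorem base_fin (y : fixF M (HI A)) (hy : y ∈ (ofGauss (gaussMK M A hqM hA)).O) :
    y ∈ (Qf A hqM hA ζ hζ 0 0).O ∧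
      (((Qf A hqM hA ζ hζ 0 0).redF y : Sf A hqM hA ζ hζ 0 0) : LaurentSeries kA) =
        thetaRes A M ((ofGauss (gaussMK M A hqM hA)).redF y) := by
  obtain ⟨h1, h2⟩ := gaussPlace_congr A (cF_zero_eq_stdFix A hqM ζ hζ 0)
    (hasGaussRatio_cF A hqM hA ζ hζ 0 0 (Nat.zero_le _)) (hι_std A hA M)
  constructor
  · show y ∈ (gaussPlace A (cF A hqM ζ hζ 0 0 (Nat.zero_le _)) _).O
    rw [h1]
    rw [gaussMK_O_eq M A hqM hA (hι_std A hA M)] at hy
    exact hy
  · refine (h2 y).trans ?_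
    exact (gaussMK_redF_eq M A hqM hA (hι_std A hA M) y).symm

theorem one_F_fin (y : fixF (M * q) (HI A)) (hy : y ∈ (ofGauss (gaussOneK M q A hqM hA)).O) :
    y ∈ (Qf A hqM hA ζ hζ 1 0).O ∧
      (((Qf A hqM hA ζ hζ 1 0).redF y : Sf A hqM hA ζ hζ 1 0) : LaurentSeries kA) =
        thetaRes A M ((ofGauss (gaussOneK M q A hqM hA)).redF y) := by
  obtain ⟨h1, h2⟩ := gaussPlace_congr A (cF_zero_eq_stdFix A hqM ζ hζ 1)
    (hasGaussRatio_cF A hqM hA ζ hζ 1 0 (Nat.zero_le _)) (hι_std A hA (M * q))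
  constructor
  · show y ∈ (gaussPlace A (cF A hqM ζ hζ 1 0 (Nat.zero_le _)) _).O
    rw [h1]
    rw [gaussOneK_O_eq M q A hqM hA (hι_std A hA (M * q))] at hy
    exact hy
  · refine (h2 y).trans ?_
    exact (gaussOneK_redF_eq M q A hqM hA (hι_std A hA (M * q)) y).symm

theorem one_V_fin (y : fixF (M * q) (HI A)) (hy : y ∈ (ofGauss (gaussTwoK M q A hqM hA)).O) :
    y ∈ (Qf A hqM hA ζ hζ 1 1).O ∧
      (((Qf A hqM hA ζ hζ 1 1).redF y : Sf A hqM hA ζ hζ 1 1) : LaurentSeries kA) =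
        thetaRes A M ((ofGauss (gaussTwoK M q A hqM hA)).redF y) := by
  obtain ⟨TA, hT⟩ := exists_compat_twist A hA (ζ 1) 1 (hζ 1).pow_eq_one
  have hι₂ := hasGaussRatio_stdW M q A hqM hA
  have hι' := hasGaussRatio_comp_all A (stdW M q A hqM) hT hι₂
  obtain ⟨h1, h2⟩ := gaussPlace_congr A (cF_one_one_eq A hqM ζ hζ)
    (hasGaussRatio_cF A hqM hA ζ hζ 1 1 le_rfl) hι'
  constructor
  · show y ∈ (gaussPlace A (cF A hqM ζ hζ 1 1 le_rfl) _).O
    rw [h1]
    rw [gaussTwoK_O_eq M q A hqM hA hι₂] at hy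
    exact (SetLike.ext_iff.1 (gaussPlace_comp_O A (stdW M q A hqM) hT hι₂ hι') y).2 hy
  · refine (h2 y).trans ?_
    exact (gaussPlace_comp_redF A (stdW M q A hqM) hT hι₂ hι' y).trans
      (gaussTwoK_redF_eq M q A hqM hA hι₂ y).symm

/-! ### THE RAW RECORD AND THE TOWER RECORD -/

/-- **helper8's minimal raw record of the tower** -/
def towerRawMin (hζq : ∀ b, ζ (b + 1) ^ q = ζ b) :
    KMval.TowerRawMin M q A hqM hA (LaurentSeries kA) (thetaRes A M) (qExpand kA q) where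
  S := Sf A hqM hA ζ hζ
  Q := Qf A hqM hA ζ hζ
  ϖ := ϖf A hqM hA ζ hζ
  hV z := rfl
  base_mem y hy := (base_fin A hqM hA ζ hζ y hy).1
  base_red y hy := (base_fin A hqM hA ζ hζ y hy).2
  arch k b := isArch_Qp A hqM hA ζ hζ k b _
  unif_ne k b := (ϖf_spec A hqM hA ζ hζ k b).1
  unif_lt k b := (ϖf_spec A hqM hA ζ hζ k b).2.1
  ram_le k b := (ϖf_spec A hqM hA ζ hζ k b).2.2
  const_mem k b c := const_mem_Qp A hqM hA ζ hζ k b _ c
  const_red k b a := by
    refine (const_red_Qp A hqM hA ζ hζ k b _ a).trans ?_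
    exact (KMval.coe_algebraMap_kW (M := M) a).symm
  alpha_mem j b y hy := (alpha_fin A hqM hA ζ hζ hζq j b y hy).1
  alpha_red j b y hy := (alpha_fin A hqM hA ζ hζ hζq j b y hy).2
  beta_mem j b y hy := (beta_fin A hqM hA ζ hζ j b y hy).1
  beta_red j b y hy := (beta_fin A hqM hA ζ hζ j b y hy).2
  one_F_mem y hy := (one_F_fin A hqM hA ζ hζ y hy).1
  one_F_red y hy := (one_F_fin A hqM hA ζ hζ y hy).2
  one_V_mem y hy := (one_V_fin A hqM hA ζ hζ y hy).1
  one_V_red y hy := (one_V_fin A hqM hA ζ hζ y hy).2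

end Final

/-- **THE TOWER RECORD EXISTS** for every `q` prime, `q ∤ M`, `A ∣ q`. -/
def towerCore_all (M q : ℕ) [NeZero M] [NeZero q] [Fact q.Prime] (hqM : ¬ q ∣ M)
    (A : ValuationSubring Qb) (hA : A.LiesOverPrime q) : TowerCore M q A hqM hA :=
  (towerRawMin A hqM hA (zetaK q) (isPrimitiveRoot_zetaK q) (zetaK_pow q)).towerCore

end Fermat.Agent.S45lib.MThick
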