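/-
S45lib / MThick / TowerRaw  (helper6)  --  Project J, the Tower seam

**FROM THE RAW GAUSS PLACES OF THE CUSP HOMOMORPHISMS TO THE TOWER RECORD `TowerCore`.**

`TowerRaw hqM hA Ω incl VΩ` : the RAW obligations of `Tower/Places`, for ALL levels `M q^k` and all
components `b : Fin (k+1)` (`a = k - b`), with an abstract ambient residue field `Ω`
(`incl : FRes A M →+* Ω`, `VΩ : Ω →+* Ω` with `VΩ ∘ incl = incl ∘ VqR`; in the tower `Ω = kA((t))`,
`incl` the coercion, `VΩ = qExpand kA q`):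

* data: `S k b : Subfield Ω`, `Q k b : Norm.Place (fixF (lev M q k) I) (S k b)` (helper2's
  `Gauss.gaussPlace` of the cusp homomorphism of type `(k - b, b)`), candidates `ϖ k b`;
* `pos_mem/pos_red` : the raw row of `posT k 0` (`y ↦ y(z)`):
  `raw red_b (posT k 0 y) = VΩ^(min (k-b) b) (incl (V^(2b-k) (red_M y)))`;
* `lift` : every `VΩ^(min (k-b) b) (incl z)` is a raw reduction;
* `arch`, `ne`, `unif_ne`, `unif_lt`, `ram_le : v_b (q) ≤ v_b (ϖ_b) ^ eK q k b` (ESTIMATES only);
* `const_mem/const_red` : the constants;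
* `alpha_mem/alpha_red`, `beta_mem/beta_red` : the raw rows between consecutive levels
  (`Tower/CuspRes`: raw residue map `VΩ` except at the pure ends `b = 0`, resp. `b = j + 1`);
* `one_F_*`, `one_V_*` : level `M q`, comparison with main's `gaussOneK`, `gaussTwoK`.

**`TowerRaw.towerCore : TowerCore M q A hqM hA`**: the normalised places are helper8's
`RawEstimates.normPlace` (`KMval/Normalise`: the raw residue field IS `VΩ^m (incl κ)`, by the
fundamental equality), packaged by `KMval.ramOfPlace`; the rows follow from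
`RawEstimates.redF_normPlace_eq` and the exponent arithmetic `mN_alpha`, `mN_beta`.
-/
import Mathlib
import Fermat.Agent.S45lib.MThick.TowerOut
import Fermat.Agent.S45lib.KMval.Normalise
import Fermat.Agent.S45lib.KMval.RamOfPlace

set_option autoImplicit false
set_option linter.unusedSectionVars false
set_option linter.unusedVariables false
set_option linter.style.haveILetI false

noncomputable section

namespace Fermat.Agent.S45lib.MThick

open ModularCurve IsLocalRing
open Fermat.Agent.S18lib Fermat.Agent.ProgramR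
open Fermat.Agent.S36lib
open Fermat.Agent.S36lib.Thick (RamGaussDatum)
open Fermat.Agent.S36lib.Desc Fermat.Agent.S36lib.Desc2
open Fermat.Agent.S36lib.Inst (HI qK)
open Fermat.Agent.S36lib.Norm (ofGauss ofRamGauss FiniteHom finrankHom IsUnif IsArch RamOverAlong)
open Fermat.Agent.S36lib.Mid (qFix)
open Fermat.Agent.LSb.Unit (VqR)
open Fermat.Agent.S45lib.Tower (lev alphaFixT betaFixT posT stepT)
open Fermat.Agent.S45lib.Chain (aAlpha aBeta fAlpha fBeta)
open Fermat.Agent.S45lib.CountK (eK)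
open Fermat.Agent.S45lib.KMval (RawEstimates AbsEstimates)

local notation "Qb" => AlgebraicClosure ℚ

/-! ### the normalisation exponent -/

/-- the normalisation exponent `min (a, b)` of the component `b` of level `M q^k` -/
def mN (k b : ℕ) : ℕ := min (k - b) b

/-- the raw exponent of the `α`-row: `V` except at the pure end `b = 0` -/
def rawA (b : ℕ) : ℕ := if b = 0 then 0 else 1

/-- the raw exponent of the `β`-row: `V` except at the pure end `b = j + 1` -/
def rawB (j b : ℕ) : ℕ := if b = j + 1 then 0 else 1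

theorem mN_alpha (j b : ℕ) (hb : b ≤ j + 1) :
    rawA b + mN j (b - 1) = mN (j + 1) b + epsA j b := by
  unfold rawA mN epsA
  split_ifs <;> omega

theorem mN_beta (j b : ℕ) (hb : b ≤ j + 1) :
    rawB j b + mN j (min b j) = mN (j + 1) b + epsB j b := by
  unfold rawB mN epsB
  rcases Nat.lt_or_ge j b with h | h
  · rw [min_eq_right h.le]
    split_ifs <;> omega
  · rw [min_eq_left h]
    split_ifs <;> omega

/-! ### powers of the ambient Frobenius -/

section Amb

variable {M q : ℕ} [NeZero M] [NeZero q] [hq : Fact q.Prime] {A : ValuationSubring Qb}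
variable {Ω : Type*} [Field Ω] {incl : FRes A M →+* Ω} {VΩ : Ω →+* Ω} {hA : A.LiesOverPrime q}

local notation "kW" => IsLocalRing.ResidueField (Wfix A)

theorem amb_pow_add (m n : ℕ) (x : Ω) : (VΩ ^ m) ((VΩ ^ n) x) = (VΩ ^ (m + n)) x := by
  rw [pow_add]
  rfl

theorem amb_pow_incl (hV : ∀ z, VΩ (incl z) = incl (VqR (M := M) hA z)) (n : ℕ)
    (z : FRes A M) : (VΩ ^ n) (incl z) = incl ((VqR (M := M) hA ^ n) z) := by
  induction n generalizing z with
  | zero => rw [pow_zero, pow_zero]; rfl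
  | succ n ih =>
    rw [pow_succ, pow_succ]
    show (VΩ ^ n) (VΩ (incl z)) = incl ((VqR hA ^ n) (VqR hA z))
    rw [hV, ih]

/-- the exponent bookkeeping of a raw row -/
theorem amb_key (hV : ∀ z, VΩ (incl z) = incl (VqR (M := M) hA z)) {r m' m e : ℕ}
    (h : r + m' = m + e) (w : FRes A M) :
    (VΩ ^ r) ((VΩ ^ m') (incl w)) = (VΩ ^ m) (incl ((VqR (M := M) hA ^ e) w)) := by
  rw [amb_pow_add, h, ← amb_pow_incl hV e w, amb_pow_add]

/-- the ambient Frobenius fixes the constants -/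
theorem amb_pow_const (hV : ∀ z, VΩ (incl z) = incl (VqR (M := M) hA z)) (n : ℕ) (c : kW) :
    (VΩ ^ n) (incl (algebraMap kW (FRes A M) c)) = incl (algebraMap kW (FRes A M) c) := by
  rw [amb_pow_incl hV, VqR_pow_const]

end Amb

/-! ### the raw record -/

section Raw

variable (M q : ℕ) [NeZero M] [NeZero q] [hq : Fact q.Prime] (A : ValuationSubring Qb)

local notation "kW" => IsLocalRing.ResidueField (Wfix A)

/-- **THE RAW TOWER RECORD**: the raw Gauss places of the cusp homomorphisms of all the levels, with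
their raw rows and ESTIMATES. -/
structure TowerRaw (hqM : ¬ q ∣ M) (hA : A.LiesOverPrime q) (Ω : Type*) [Field Ω]
    (incl : FRes A M →+* Ω) (VΩ : Ω →+* Ω) where
  /-- the raw residue fields -/
  S : ∀ k : ℕ, Fin (k + 1) → Subfield Ω
  /-- the raw places -/
  Q : ∀ (k : ℕ) (b : Fin (k + 1)), Norm.Place (fixF (lev M q k) (HI A)) (S k b)
  /-- the candidate uniformizers -/
  ϖ : ∀ k : ℕ, Fin (k + 1) → fixF (lev M q k) (HI A)
  hV : ∀ z, VΩ (incl z) = incl (VqR (M := M) hA z)
  pos_mem : ∀ (k : ℕ) (b : Fin (k + 1)) (y : fixF M (HI A)),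
    y ∈ (ofGauss (gaussMK M A hqM hA)).O → posT M q (HI A) k 0 y ∈ (Q k b).O
  pos_red : ∀ (k : ℕ) (b : Fin (k + 1)) (y : fixF M (HI A)),
    y ∈ (ofGauss (gaussMK M A hqM hA)).O →
      (((Q k b).redF (posT M q (HI A) k 0 y) : S k b) : Ω) =
        (VΩ ^ mN k b) (incl ((VqR (M := M) hA ^ (2 * (b : ℕ) - k))
          ((ofGauss (gaussMK M A hqM hA)).redF y)))
  lift : ∀ (k : ℕ) (b : Fin (k + 1)) (z : FRes A M), ∃ x : fixF (lev M q k) (HI A),
    x ∈ (Q k b).O ∧ (((Q k b).redF x : S k b) : Ω) = (VΩ ^ mN k b) (incl z)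
  arch : ∀ (k : ℕ) (b : Fin (k + 1)), IsArch (Q k b).O
  ne : ∀ (k : ℕ) (b b' : Fin (k + 1)), b ≠ b' → (Q k b).O ≠ (Q k b').O
  unif_ne : ∀ (k : ℕ) (b : Fin (k + 1)), ϖ k b ≠ 0
  unif_lt : ∀ (k : ℕ) (b : Fin (k + 1)), (Q k b).O.valuation (ϖ k b) < 1
  ram_le : ∀ (k : ℕ) (b : Fin (k + 1)),
    (Q k b).O.valuation (algebraMap (Kfix A) (fixF (lev M q k) (HI A)) (qK A q)) ≤
      (Q k b).O.valuation (ϖ k b) ^ eK q k b
  const_mem : ∀ (k : ℕ) (b : Fin (k + 1)) (c : Kfix A),
    algebraMap (Kfix A) (fixF (lev M q k) (HI A)) c ∈ (Q k b).O ↔ c ∈ Wfix A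
  const_red : ∀ (k : ℕ) (b : Fin (k + 1)) (a : Wfix A),
    (((Q k b).redF (algebraMap (Kfix A) (fixF (lev M q k) (HI A)) (a : Kfix A)) : S k b) : Ω) =
      incl (algebraMap kW (FRes A M) (residue (Wfix A) a))
  alpha_mem : ∀ (j : ℕ) (b : Fin (j + 2)) (y : fixF (lev M q j) (HI A)),
    y ∈ (Q j (aAlpha j b)).O → alphaFixT M q (HI A) j y ∈ (Q (j + 1) b).O
  alpha_red : ∀ (j : ℕ) (b : Fin (j + 2)) (y : fixF (lev M q j) (HI A)),
    y ∈ (Q j (aAlpha j b)).O →
      (((Q (j + 1) b).redF (alphaFixT M q (HI A) j y) : S (j + 1) b) : Ω) =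
        (VΩ ^ rawA b) (((Q j (aAlpha j b)).redF y : S j (aAlpha j b)) : Ω)
  beta_mem : ∀ (j : ℕ) (b : Fin (j + 2)) (y : fixF (lev M q j) (HI A)),
    y ∈ (Q j (aBeta j b)).O → betaFixT M q (HI A) j y ∈ (Q (j + 1) b).O
  beta_red : ∀ (j : ℕ) (b : Fin (j + 2)) (y : fixF (lev M q j) (HI A)),
    y ∈ (Q j (aBeta j b)).O →
      (((Q (j + 1) b).redF (betaFixT M q (HI A) j y) : S (j + 1) b) : Ω) =
        (VΩ ^ rawB j b) (((Q j (aBeta j b)).redF y : S j (aBeta j b)) : Ω)
  one_F_mem : ∀ y : fixF (M * q) (HI A),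
    y ∈ (ofGauss (gaussOneK M q A hqM hA)).O → y ∈ (Q 1 0).O
  one_F_red : ∀ y : fixF (M * q) (HI A), y ∈ (ofGauss (gaussOneK M q A hqM hA)).O →
    (((Q 1 0).redF y : S 1 0) : Ω) = incl ((ofGauss (gaussOneK M q A hqM hA)).redF y)
  one_V_mem : ∀ y : fixF (M * q) (HI A),
    y ∈ (ofGauss (gaussTwoK M q A hqM hA)).O → y ∈ (Q 1 1).O
  one_V_red : ∀ y : fixF (M * q) (HI A), y ∈ (ofGauss (gaussTwoK M q A hqM hA)).O →
    (((Q 1 1).redF y : S 1 1) : Ω) = incl ((ofGauss (gaussTwoK M q A hqM hA)).redF y)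

end Raw

namespace TowerRaw

variable {M q : ℕ} [NeZero M] [NeZero q] [hq : Fact q.Prime] {A : ValuationSubring Qb}
variable {hqM : ¬ q ∣ M} {hA : A.LiesOverPrime q} {Ω : Type*} [Field Ω]
variable {incl : FRes A M →+* Ω} {VΩ : Ω →+* Ω} (R : TowerRaw M q A hqM hA Ω incl VΩ)

local notation "kW" => IsLocalRing.ResidueField (Wfix A)

/-- the expected residue field of the component `b` of level `k`, inside `Ω` -/
def nrm (k : ℕ) (b : Fin (k + 1)) : FRes A M →+* Ω := (VΩ ^ mN k b).comp incl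

omit R in
theorem nrm_apply (k : ℕ) (b : Fin (k + 1)) (z : FRes A M) :
    nrm (incl := incl) (VΩ := VΩ) k b z = (VΩ ^ mN k b) (incl z) := rfl

omit R in
/-- `∑ e f` at every level (`k = 0` included) -/
theorem deg_le (hqM : ¬ q ∣ M) (hA : A.LiesOverPrime q) (k : ℕ) :
    finrankHom (posT M q (HI A) k 0) ≤
      ∑ b : Fin (k + 1), eK q k b * finrankHom (VqR (M := M) hA ^ (2 * (b : ℕ) - k)) := by
  rcases Nat.eq_zero_or_pos k with rfl | hk
  · rw [Fin.sum_univ_one, finrankHom_VqR_pow hqM hA]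
    have h1 : finrankHom (posT M q (HI A) 0 0) = 1 := Mid.finrankHom_id
    rw [h1]
    simp [eK]
  · rw [Tower.finrankHom_posT M q (HI A) hq.out hqM k 0 hk, ← CountK.sum_fin_eK_mul_f hq.out hk]
    refine le_of_eq (Finset.sum_congr rfl fun b _ => ?_)
    rw [finrankHom_VqR_pow hqM hA]

/-- **helper8's raw estimates at every level** -/
theorem rawEstimates (k : ℕ) :
    RawEstimates (posT M q (HI A) k 0) (fun b : Fin (k + 1) => VqR (M := M) hA ^ (2 * (b : ℕ) - k))
      (ofGauss (gaussMK M A hqM hA)) (qFix A q M) (R.S k) (R.Q k)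
      (fun b => nrm (incl := incl) (VΩ := VΩ) k b) (R.ϖ k) (fun b => eK q k b) where
  base := Norm.isUnif_ofGauss (gaussMK M A hqM hA) (Norm.isUnif_Wfix hq.out hA)
  fin := Tower.finiteHom_posT M q (HI A) hq.out hqM k 0
  mem b y hy := R.pos_mem k b y hy
  red b y hy := R.pos_red k b y hy
  lift b z := R.lift k b z
  arch := R.arch k
  ne := R.ne k
  e_ne b := (CountK.eK_pos hq.out.pos k b).ne'
  unif_ne := R.unif_ne k
  unif_lt := R.unif_lt k
  ram_le b := by
    rw [show qFix A q M = algebraMap (Kfix A) (fixF M (HI A)) (qK A q) from rfl,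
      Tower.posT_algebraMap M q (HI A) k 0]
    exact R.ram_le k b
  fin_ιs b := finiteHom_VqR_pow hqM hA _
  deg_le := deg_le hqM hA k

/-- the normalised place -/
def nP (k : ℕ) (b : Fin (k + 1)) : Norm.Place (fixF (lev M q k) (HI A)) (FRes A M) :=
  (R.rawEstimates k).normPlace b

theorem nP_O (k : ℕ) (b : Fin (k + 1)) : (R.nP k b).O = (R.Q k b).O := rfl

/-- the raw reduction is `nrm` of the normalised one -/
theorem raw_eq (k : ℕ) (b : Fin (k + 1)) (x : fixF (lev M q k) (HI A)) :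
    (((R.Q k b).redF x : R.S k b) : Ω) = (VΩ ^ mN k b) (incl ((R.nP k b).redF x)) :=
  ((R.rawEstimates k).nrm_redF_normPlace b x).symm

/-- a normalised reduction is determined by its raw value -/
theorem nP_redF_eq (k : ℕ) (b : Fin (k + 1)) {x : fixF (lev M q k) (HI A)} {z : FRes A M}
    (h : (((R.Q k b).redF x : R.S k b) : Ω) = (VΩ ^ mN k b) (incl z)) : (R.nP k b).redF x = z :=
  (R.rawEstimates k).redF_normPlace_eq b h

theorem absEstimates (k : ℕ) :
    AbsEstimates (posT M q (HI A) k 0)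
      (fun b : Fin (k + 1) => VqR (M := M) hA ^ (2 * (b : ℕ) - k))
      (ofGauss (gaussMK M A hqM hA)) (qFix A q M) (fun b => R.nP k b) (R.ϖ k)
      (fun b => eK q k b) :=
  (R.rawEstimates k).absEstimates

theorem nP_const_mem (k : ℕ) (b : Fin (k + 1)) (c : Kfix A) :
    algebraMap (Kfix A) (fixF (lev M q k) (HI A)) c ∈ (R.nP k b).O ↔ c ∈ Wfix A :=
  R.const_mem k b c

theorem nP_const_red (k : ℕ) (b : Fin (k + 1)) (a : Wfix A)
    (h : algebraMap (Kfix A) (fixF (lev M q k) (HI A)) (a : Kfix A) ∈ (R.nP k b).O) :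
    (R.nP k b).red ⟨algebraMap (Kfix A) (fixF (lev M q k) (HI A)) (a : Kfix A), h⟩ =
      algebraMap kW (FRes A M) (residue (Wfix A) a) := by
  rw [← (R.nP k b).redF_of_mem h]
  refine R.nP_redF_eq k b ?_
  rw [R.const_red k b a, amb_pow_const R.hV]

/-- **the ramified Gauss data of the tower** -/
def V (k : ℕ) (b : Fin (k + 1)) :
    RamGaussDatum (Wfix A) (fixF (lev M q k) (HI A)) (FRes A M) :=
  (R.absEstimates k).ramFamily (Wfix A) (fun b => R.nP_const_mem k b)
    (fun b => R.nP_const_red k b) b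

theorem ofRamGauss_V (k : ℕ) (b : Fin (k + 1)) : ofRamGauss (R.V k b) = R.nP k b := rfl

theorem V_unif (k : ℕ) (b : Fin (k + 1)) : (R.V k b).unif = R.ϖ k b := rfl

theorem V_O (k : ℕ) (b : Fin (k + 1)) : (R.V k b).O = (R.Q k b).O := rfl

/-- **THE TOWER RECORD from the raw record.** -/
def towerCore : TowerCore M q A hqM hA where
  V := R.V
  base := by
    refine ⟨fun y hy => R.pos_mem 0 0 y hy, fun y hy => ?_⟩
    exact R.nP_redF_eq 0 0 (x := y) (z := (ofGauss (gaussMK M A hqM hA)).redF y)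
      (R.pos_red 0 0 y hy)
  one_F := by
    refine ⟨fun y hy => R.one_F_mem y hy, fun y hy => ?_⟩
    exact R.nP_redF_eq 1 0 (x := y) (z := (ofGauss (gaussOneK M q A hqM hA)).redF y)
      (R.one_F_red y hy)
  one_V := by
    refine ⟨fun y hy => R.one_V_mem y hy, fun y hy => ?_⟩
    exact R.nP_redF_eq 1 1 (x := y) (z := (ofGauss (gaussTwoK M q A hqM hA)).redF y)
      (R.one_V_red y hy)
  alpha_row j b := by
    have hb : (b : ℕ) ≤ j + 1 := by have := b.2; omega
    rw [ite_eq_pow]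
    refine ⟨fun y hy => R.alpha_mem j b y hy, fun y hy => ?_⟩
    refine R.nP_redF_eq (j + 1) b ?_
    rw [R.alpha_red j b y hy, R.raw_eq j (aAlpha j b) y]
    refine amb_key R.hV ?_ _
    rw [Chain.aAlpha_val]
    exact mN_alpha j b hb
  beta_row j b := by
    have hb : (b : ℕ) ≤ j + 1 := by have := b.2; omega
    rw [ite_eq_pow]
    refine ⟨fun y hy => R.beta_mem j b y hy, fun y hy => ?_⟩
    refine R.nP_redF_eq (j + 1) b ?_
    rw [R.beta_red j b y hy, R.raw_eq j (aBeta j b) y]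
    refine amb_key R.hV ?_ _
    rw [Chain.aBeta_val]
    exact mN_beta j b hb
  ram k b := by
    have h := ((R.absEstimates k).lies b).ram
    rw [show qFix A q M = algebraMap (Kfix A) (fixF M (HI A)) (qK A q) from rfl,
      Tower.posT_algebraMap M q (HI A) k 0] at h
    exact h
  ne k b b' h := R.ne k b b' h

end TowerRaw

end Fermat.Agent.S45lib.MThick
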